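import Fermat.Agent.TraceFn.Burnside
import Mathlib.LinearAlgebra.Trace

/-!
# Nonvanishing of a twisted trace

An irreducible family of operators, with span closed under composition, pairs nontrivially under
the trace with every nonzero endomorphism.
-/

set_option autoImplicit false

noncomputable section

namespace Fermat.Agent.LT.Tame

variable {K : Type*} [Field K] [IsAlgClosed K] {V : Type*} [AddCommGroup V] [Module K V]
  [FiniteDimensional K V] {ι : Type*}

/-- An irreducible family with span closed under composition spans all endomorphisms. -/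
theorem span_range_eq_top_of_irreducible_family [Nontrivial V] (T : ι → Module.End K V)
    (h1 : 1 ∈ Submodule.span K (Set.range T))
    (hmul : ∀ i j, T i * T j ∈ Submodule.span K (Set.range T))
    (hirr : ∀ W : Submodule K V, (∀ i, ∀ x ∈ W, T i x ∈ W) → W = ⊥ ∨ W = ⊤) :
    Submodule.span K (Set.range T) = ⊤ := by
  set S := Submodule.span K (Set.range T)
  set M : Submonoid (Module.End K V) := Submonoid.closure (Set.range T)
  have hspan := TraceFn.span_range_eq_top_of_irreducible M.subtype fun W hW =>
    hirr W fun i x hx => hW ⟨T i, Submonoid.subset_closure ⟨i, rfl⟩⟩ x hx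
  have hSS : ∀ a ∈ S, ∀ b ∈ S, a * b ∈ S := fun a ha b hb => by
    induction ha using Submodule.span_induction with
    | mem a ha =>
      obtain ⟨i, rfl⟩ := ha
      induction hb using Submodule.span_induction with
      | mem b hb => obtain ⟨j, rfl⟩ := hb; exact hmul i j
      | zero => simp
      | add x y _ _ hx hy => rw [mul_add]; exact add_mem hx hy
      | smul c x _ hx => rw [mul_smul_comm]; exact S.smul_mem c hx
    | zero => simp
    | add x y _ _ hx hy => rw [add_mul]; exact add_mem hx hy
    | smul c x _ hx => rw [smul_mul_assoc]; exact S.smul_mem c hx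
  rw [eq_top_iff, ← hspan, Submodule.span_le]
  rintro _ ⟨⟨a, ha⟩, rfl⟩
  induction ha using Submonoid.closure_induction with
  | mem a ha => exact Submodule.subset_span ha
  | one => exact h1
  | mul a b _ _ ha hb => exact hSS a ha b hb

/-- **Twisted trace.** Some operator of the family has nonzero trace against `θ ≠ 0`. -/
theorem exists_trace_mul_ne_zero (T : ι → Module.End K V)
    (h1 : 1 ∈ Submodule.span K (Set.range T))
    (hmul : ∀ i j, T i * T j ∈ Submodule.span K (Set.range T))
    (hirr : ∀ W : Submodule K V, (∀ i, ∀ x ∈ W, T i x ∈ W) → W = ⊥ ∨ W = ⊤)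
    {θ : Module.End K V} (hθ : θ ≠ 0) : ∃ i, LinearMap.trace K V (T i * θ) ≠ 0 := by
  by_contra hcon
  simp only [not_exists, not_not] at hcon
  obtain ⟨x, hx⟩ : ∃ x, θ x ≠ 0 := by
    by_contra h
    simp only [not_exists, not_not] at h
    exact hθ (LinearMap.ext fun x => by simpa using h x)
  haveI : Nontrivial V := ⟨⟨_, 0, hx⟩⟩
  obtain ⟨φ, hφ⟩ : ∃ φ : V →ₗ[K] K, φ (θ x) ≠ 0 := by
    by_contra h
    simp only [not_exists, not_not] at h
    exact hx ((Module.forall_dual_apply_eq_zero_iff K _).1 h)
  set e : Module.End K V := φ.smulRight x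
  have he : e ∈ Submodule.span K (Set.range T) := by
    rw [span_range_eq_top_of_irreducible_family T h1 hmul hirr]; trivial
  have hzero : LinearMap.trace K V (e * θ) = 0 := by
    clear_value e
    induction he using Submodule.span_induction with
    | mem a ha => obtain ⟨i, rfl⟩ := ha; exact hcon i
    | zero => simp
    | add a b _ _ ha hb => rw [add_mul, map_add, ha, hb, add_zero]
    | smul c a _ ha => rw [smul_mul_assoc, map_smul, ha, smul_zero]
  have hcomp : e * θ = (φ ∘ₗ θ).smulRight x := rfl
  rw [hcomp, LinearMap.trace_smulRight] at hzero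
  exact hφ hzero

end Fermat.Agent.LT.Tame

end
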