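import Fermat.Agent.LT.Tame.Completion
import Fermat.Agent.LT.Aleph.LocalAdele

/-!
# Galois action on the finite adeles

A field isomorphism with a compatible bijection of the places acts on the finite adeles and on
`GL₂` of them, componentwise by the isomorphisms of completions.
-/

set_option autoImplicit false

noncomputable section

namespace Fermat.Agent.LT.Tame

open IsDedekindDomain IsDedekindDomain.HeightOneSpectrum Matrix Fermat.Agent.LT.Adelic
open Fermat.Agent.LT.Aleph NumberField
open scoped MatrixGroups

section General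

variable {R S : Type*} [CommRing R] [IsDedekindDomain R] [CommRing S] [IsDedekindDomain S]
  {K L : Type*} [Field K] [Algebra R K] [IsFractionRing R K] [Field L] [Algebra S L]
  [IsFractionRing S L] (σ : K ≃+* L) (π : HeightOneSpectrum S ≃ HeightOneSpectrum R)
  (h : ∀ (v : HeightOneSpectrum S) x, v.valuation L (σ x) = (π v).valuation K x)

/-- The map of finite adeles. -/
def adeleHom : FiniteAdeleRing R K →+* FiniteAdeleRing S L where
  toFun a := ⟨fun v => completionEquiv σ (h v) (a (π v)),
    (π.injective.tendsto_cofinite.eventually a.2).mono fun v hv =>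
      completionEquiv_mem_integers σ (h v) hv⟩
  map_one' := FiniteAdeleRing.ext L fun v => by
    show completionEquiv σ (h v) ((1 : FiniteAdeleRing R K) (π v)) = _
    rw [coe_apply_one, map_one, coe_apply_one]
  map_mul' a b := FiniteAdeleRing.ext L fun v => map_mul (completionEquiv σ (h v)) _ _
  map_zero' := FiniteAdeleRing.ext L fun v => by
    show completionEquiv σ (h v) ((0 : FiniteAdeleRing R K) (π v)) = _
    rw [coe_apply_zero, map_zero, coe_apply_zero]
  map_add' a b := FiniteAdeleRing.ext L fun v => map_add (completionEquiv σ (h v)) _ _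

@[simp] theorem adeleHom_apply (a : FiniteAdeleRing R K) (v : HeightOneSpectrum S) :
    adeleHom σ π h a v = completionEquiv σ (h v) (a (π v)) := rfl

theorem adeleHom_algebraMap (x : K) :
    adeleHom σ π h (algebraMap K _ x) = algebraMap L _ (σ x) :=
  FiniteAdeleRing.ext L fun v => completionEquiv_coe σ (h v) x

/-- The map of `GL₂(𝔸_f)`. -/
def gfHom : Gf R K →* Gf S L := GeneralLinearGroup.map (adeleHom σ π h)

theorem localGL_gfHom (g : Gf R K) (v : HeightOneSpectrum S) :
    localGL L v (gfHom σ π h g) =
      GeneralLinearGroup.map (completionEquiv σ (h v)).toRingHom (localGL K (π v) g) :=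
  Units.ext (Matrix.ext fun _ _ => rfl)

theorem gfHom_toGf (g : GL (Fin 2) K) :
    gfHom σ π h (GeneralLinearGroup.map (algebraMap K (FiniteAdeleRing R K)) g) =
      GeneralLinearGroup.map (algebraMap L (FiniteAdeleRing S L))
        (GeneralLinearGroup.map σ.toRingHom g) :=
  Units.ext (Matrix.ext fun _ _ => adeleHom_algebraMap σ π h _)

theorem gfHom_scalarHom (c : (FiniteAdeleRing R K)ˣ) :
    gfHom σ π h (scalarHom R K c) = scalarHom S L (Units.map (adeleHom σ π h).toMonoidHom c) := by
  refine Units.ext (Matrix.ext fun i j => ?_)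
  fin_cases i <;> fin_cases j <;> simp [gfHom, scalarHom]

/-- The maximal compact is preserved. -/
theorem gfHom_mem_principalLevel_one {g : Gf R K} (hg : g ∈ Adelic.principalLevel K (1 : R)) :
    gfHom σ π h g ∈ Adelic.principalLevel L (1 : S) := by
  rw [Aleph.mem_principalLevel_one_iff] at hg ⊢
  intro v i j
  rw [localGL_gfHom, ← map_inv]
  exact ⟨completionEquiv_mem_integers σ (h v) (hg (π v) i j).1,
    completionEquiv_mem_integers σ (h v) (hg (π v) i j).2⟩

end General

section NumberField

variable {K : Type*} [Field K] [NumberField K] (σ : K ≃+* K)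

/-- The permutation of the places: `v ↦ σ⁻¹ v`. -/
def placePerm : HeightOneSpectrum (𝓞 K) ≃ HeightOneSpectrum (𝓞 K) :=
  equivOfRingEquiv (RingOfIntegers.mapRingEquiv σ).symm

theorem mem_placePerm (v : HeightOneSpectrum (𝓞 K)) (r : 𝓞 K) :
    r ∈ (placePerm σ v).asIdeal ↔ RingOfIntegers.mapRingEquiv σ r ∈ v.asIdeal := Iff.rfl

theorem valuation_apply_placePerm (v : HeightOneSpectrum (𝓞 K)) (x : K) :
    v.valuation K (σ x) = (placePerm σ v).valuation K x :=
  valuation_apply_of_mem_iff (RingOfIntegers.mapRingEquiv σ) σ (fun _ => rfl)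
    (fun r => (mem_placePerm σ v r).symm) x

/-- A residue trivial automorphism fixes the place. -/
theorem placePerm_eq_self (v : HeightOneSpectrum (𝓞 K))
    (hres : ∀ r : 𝓞 K, RingOfIntegers.mapRingEquiv σ r - r ∈ v.asIdeal) : placePerm σ v = v := by
  refine HeightOneSpectrum.ext (Ideal.ext fun r => (mem_placePerm σ v r).trans ?_)
  exact ⟨fun hr => by simpa using v.asIdeal.sub_mem hr (hres r),
    fun hr => by simpa using v.asIdeal.add_mem (hres r) hr⟩

/-- The action of `σ` on the finite adeles. -/
def adeleAut : FiniteAdeleRing (𝓞 K) K →+* FiniteAdeleRing (𝓞 K) K :=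
  adeleHom σ (placePerm σ) (valuation_apply_placePerm σ)

/-- The action of `σ` on `GL₂(𝔸_f)`. -/
def gfAut : GfK K →* GfK K := gfHom σ (placePerm σ) (valuation_apply_placePerm σ)

theorem gfAut_toGf (g : GL (Fin 2) K) :
    gfAut σ (toGf K g) = toGf K (GeneralLinearGroup.map σ.toRingHom g) :=
  gfHom_toGf σ (placePerm σ) (valuation_apply_placePerm σ) g

theorem gfAut_mem_centerGf {g : GfK K} (hg : g ∈ centerGf (𝓞 K) K) :
    gfAut σ g ∈ centerGf (𝓞 K) K := by
  obtain ⟨c, rfl⟩ := hg
  exact ⟨_, (gfHom_scalarHom σ _ (valuation_apply_placePerm σ) c).symm⟩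

/-- At a residue trivial place the action is the local automorphism. -/
theorem localGL_gfAut_self (v : HeightOneSpectrum (𝓞 K))
    (hres : ∀ r : 𝓞 K, RingOfIntegers.mapRingEquiv σ r - r ∈ v.asIdeal) (g : GfK K) :
    localGL K v (gfAut σ g) =
      GeneralLinearGroup.map (placeAut v σ hres).toRingHom (localGL K v g) := by
  have key : ∀ (w : HeightOneSpectrum (𝓞 K))
      (hw : ∀ x, v.valuation K (σ x) = w.valuation K x), w = v →
      GeneralLinearGroup.map (completionEquiv σ hw).toRingHom (localGL K w g) =
        GeneralLinearGroup.map (placeAut v σ hres).toRingHom (localGL K v g) := by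
    rintro w hw rfl
    rfl
  rw [gfAut, localGL_gfHom]
  exact key _ (valuation_apply_placePerm σ v) (placePerm_eq_self σ v hres)

end NumberField

end Fermat.Agent.LT.Tame

end
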