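import Fermat.Agent.LT.Tame.Ramified
import Fermat.Agent.LT.Tame.AdelicAut
import Fermat.Agent.LT.Descent.TensorProd

/-!
# Completely split places

If the generator moves `w` then the three conjugate places are distinct and `K_v ≅ K'_w`; the
split matching is transported to the three completions.
-/

set_option autoImplicit false

noncomputable section

namespace Fermat.Agent.LT.Tame

open Fermat.Agent.LT.Descent

section Transport

variable {T : Type*} [Group T] {Y : Type*} [MulAction T Y] {Y' : Type*} [MulAction T Y']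
  {Y'' : Type*} [MulAction T Y'']

/-- Transport of a fibre match along an equivariant bijection upstairs. -/
theorem hasFibreMatch_of_equiv {f : Y → ℂ} {f' : Y' → ℂ} (Ψ : Y' ≃ Y'')
    (hΨ : ∀ (t : T) y, Ψ (t • y) = t • Ψ y) (h : HasFibreMatch T f f') {f'' : Y'' → ℂ}
    (hf : ∀ y, f'' (Ψ y) = f' y) : HasFibreMatch T f f'' := by
  obtain ⟨p, p', h1, h2, h3, h4, h5, h6, h7⟩ := h
  have hsymm : ∀ (t : T) y, Ψ.symm (t • y) = t • Ψ.symm y := fun t y => by
    rw [Equiv.symm_apply_eq, hΨ, Ψ.apply_symm_apply]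
  have hf' : ∀ y, f'' y = f' (Ψ.symm y) := fun y => by rw [← hf, Ψ.apply_symm_apply]
  have himage : ∀ m, {y | p' (Ψ.symm y) = some m} = Ψ '' {y | p' y = some m} := fun m => by
    rw [Ψ.image_eq_preimage_symm]; rfl
  refine ⟨p, p' ∘ Ψ.symm, h1, fun t y => ?_, h3, fun y hy => h4 _ (by rwa [← hf']), h5,
    fun m => ?_, fun m => ?_⟩
  · rw [Function.comp_apply, hsymm, h2]; rfl
  · refine ((h6 m).image Ψ).subset fun y hy => ⟨Ψ.symm y, ⟨?_, hy.2⟩, Ψ.apply_symm_apply y⟩
    show f' (Ψ.symm y) ≠ 0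
    rw [← hf']
    exact hy.1
  · show _ = ∑ᶠ y ∈ {y | p' (Ψ.symm y) = some m}, f'' y
    rw [h7, himage, finsum_mem_image Ψ.injective.injOn]
    exact finsum_congr fun y => finsum_congr fun _ => (hf y).symm

/-- Transport of a base match along an equivariant bijection upstairs. -/
theorem hasBaseMatch_of_equiv {f : Y → ℂ} {f' : Y' → ℂ} {b : Y} {b' : Y'} (Ψ : Y' ≃ Y'')
    (hΨ : ∀ (t : T) y, Ψ (t • y) = t • Ψ y) (h : HasBaseMatch T f f' b b') {f'' : Y'' → ℂ}
    (hf : ∀ y, f'' (Ψ y) = f' y) : HasBaseMatch T f f'' b (Ψ b') := by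
  obtain ⟨p, p', hp, hp', hs, hb, hb'⟩ := h
  have hsymm : ∀ (t : T) y, Ψ.symm (t • y) = t • Ψ.symm y := fun t y => by
    rw [Equiv.symm_apply_eq, hΨ, Ψ.apply_symm_apply]
  have hf' : ∀ y, f'' y = f' (Ψ.symm y) := fun y => by rw [← hf, Ψ.apply_symm_apply]
  have himage : ∀ m, {y | p' (Ψ.symm y) = some m} = Ψ '' {y | p' y = some m} := fun m => by
    rw [Ψ.image_eq_preimage_symm]; rfl
  refine ⟨p, p' ∘ Ψ.symm, hp, ⟨fun t y => ?_, fun y hy => hp'.isSome _ (by rwa [← hf']),
    fun m => ?_⟩, fun m => ?_, hb, ⟨?_, ?_, fun y hy hne => ?_⟩⟩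
  · rw [Function.comp_apply, hsymm, hp'.equivariant]; rfl
  · refine ((hp'.finite m).image Ψ).subset fun y hy => ⟨Ψ.symm y, ⟨?_, hy.2⟩, Ψ.apply_symm_apply y⟩
    show f' (Ψ.symm y) ≠ 0
    rw [← hf']
    exact hy.1
  · rw [hs]
    show _ = ∑ᶠ y ∈ {y | p' (Ψ.symm y) = some m}, f'' y
    rw [himage, finsum_mem_image Ψ.injective.injOn]
    exact finsum_congr fun y => finsum_congr fun _ => (hf y).symm
  · rw [Function.comp_apply, Ψ.symm_apply_apply]; exact hb'.1
  · rw [hf]; exact hb'.2.1
  · rw [← Ψ.apply_symm_apply y,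
      hb'.2.2 (Ψ.symm y) hy (by rw [← hf']; exact hne)]

end Transport

section Abstract

variable {G G₁ G₂ G₃ : Type*} [Group G] [Group G₁] [Group G₂] [Group G₃] {K : Subgroup G}
  {K₁ : Subgroup G₁} {K₂ : Subgroup G₂} {K₃ : Subgroup G₃}

/-- The coset spaces of isomorphic pairs. -/
def cosetEquiv (e : G ≃* G₁) (hK : K₁ = K.map e.toMonoidHom) : G ⧸ K ≃ G₁ ⧸ K₁ where
  toFun := Quotient.map' e fun a b hab => by
    rw [QuotientGroup.leftRel_apply] at hab ⊢
    rw [hK, ← map_inv, ← map_mul]
    exact Subgroup.mem_map_of_mem _ hab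
  invFun := Quotient.map' e.symm fun a b hab => by
    rw [QuotientGroup.leftRel_apply, hK, Subgroup.mem_map] at hab
    obtain ⟨k, hk, he⟩ := hab
    rw [QuotientGroup.leftRel_apply, ← map_inv, ← map_mul, ← he, MulEquiv.coe_toMonoidHom,
      e.symm_apply_apply]
    exact hk
  left_inv c := by
    induction c using QuotientGroup.induction_on with
    | _ g => exact congrArg _ (e.symm_apply_apply g)
  right_inv c := by
    induction c using QuotientGroup.induction_on with
    | _ g => exact congrArg _ (e.apply_symm_apply g)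

theorem cosetEquiv_mk (e : G ≃* G₁) (hK : K₁ = K.map e.toMonoidHom) (g : G) :
    cosetEquiv e hK (g : G ⧸ K) = ((e g : G₁) : G₁ ⧸ K₁) := rfl

theorem cosetEquiv_smul (e : G ≃* G₁) (hK : K₁ = K.map e.toMonoidHom) (a : G) (c : G ⧸ K) :
    cosetEquiv e hK (a • c) = e a • cosetEquiv e hK c := by
  induction c using QuotientGroup.induction_on with
  | _ g =>
    rw [MulAction.Quotient.smul_coe, smul_eq_mul, cosetEquiv_mk, cosetEquiv_mk, map_mul]
    rfl

variable {f₁ f₂ f₃ : G → ℂ} (h₁ : IsBiInvariant K f₁) (h₂ : IsBiInvariant K f₂)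
  (h₃ : IsBiInvariant K f₃)

include h₁ h₂ h₃ in
/-- **Split matching in three isomorphic groups.** -/
theorem hasFibreMatch_split_equiv (hs₁ : HasFiniteSupportMod h₁) (hs₂ : HasFiniteSupportMod h₂)
    (e₁ : G ≃* G₁) (hK₁ : K₁ = K.map e₁.toMonoidHom) (e₂ : G ≃* G₂)
    (hK₂ : K₂ = K.map e₂.toMonoidHom) (e₃ : G ≃* G₃) (hK₃ : K₃ = K.map e₃.toMonoidHom)
    (d : G × G × G)
    {T : Type*} [Group T] [MulAction T (G ⧸ K)] [MulAction T (G₁ ⧸ K₁)] [MulAction T (G₂ ⧸ K₂)]
    [MulAction T (G₃ ⧸ K₃)]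
    (hT₁ : ∀ (t : T) c, cosetEquiv e₁ hK₁ (t • c) = t • cosetEquiv e₁ hK₁ c)
    (hT₂ : ∀ (t : T) c, cosetEquiv e₂ hK₂ (t • c) = t • cosetEquiv e₂ hK₂ c)
    (hT₃ : ∀ (t : T) c, cosetEquiv e₃ hK₃ (t • c) = t • cosetEquiv e₃ hK₃ c)
    {f' : (G₁ ⧸ K₁) × (G₂ ⧸ K₂) × (G₃ ⧸ K₃) → ℂ}
    (hf' : ∀ c₁ c₂ c₃, f' (cosetEquiv e₁ hK₁ c₁, cosetEquiv e₂ hK₂ c₂, cosetEquiv e₃ hK₃ c₃) =
      cosetKernel h₁ c₁ (d.1 • c₂) *
        (cosetKernel h₂ c₂ (d.2.1 • c₃) * cosetKernel h₃ c₃ (d.2.2 • c₁))) :
    HasFibreMatch T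
      (fun y : G ⧸ K => cosetKernel (isBiInvariant_heckeConv h₁ (isBiInvariant_heckeConv h₂ h₃))
        y (prod3 d • y)) f' :=
  hasFibreMatch_of_equiv
    ((cosetEquiv e₁ hK₁).prodCongr ((cosetEquiv e₂ hK₂).prodCongr (cosetEquiv e₃ hK₃)))
    (fun t _ => Prod.ext (hT₁ t _) (Prod.ext (hT₂ t _) (hT₃ t _)))
    (hasFibreMatch_split h₁ h₂ h₃ hs₁ hs₂ d) fun y => hf' y.1 y.2.1 y.2.2

end Abstract

section Base

open scoped Classical

variable {G : Type*} [Group G] (K : Subgroup G)

/-- The indicator of `K`. -/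
def levelIndicator : G → ℂ := fun g => if g ∈ K then 1 else 0

theorem isBiInvariant_levelIndicator : IsBiInvariant K (levelIndicator K) := fun k hk l hl g =>
  if_congr ⟨fun h => by simpa [mul_assoc] using mul_mem (mul_mem (inv_mem hk) h) (inv_mem hl),
    fun h => mul_mem (mul_mem hk h) hl⟩ rfl rfl

theorem cosetKernel_levelIndicator (a b : G ⧸ K) :
    cosetKernel (isBiInvariant_levelIndicator K) a b =
      if a = b then 1 else 0 := by
  induction a using QuotientGroup.induction_on with | _ x =>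
  induction b using QuotientGroup.induction_on with | _ y =>
  rw [cosetKernel_mk, levelIndicator]
  exact if_congr QuotientGroup.eq.symm rfl rfl

theorem hasFiniteSupportMod_levelIndicator :
    HasFiniteSupportMod (isBiInvariant_levelIndicator K) :=
  (Set.finite_singleton ((1 : G) : G ⧸ K)).subset fun c hc => by
    rw [Function.mem_support, cosetKernel_levelIndicator] at hc
    exact (Classical.not_not.1 fun h => hc (if_neg h)).symm

theorem heckeConv_levelIndicator {g : G → ℂ} (hg : IsBiInvariant K g) :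
    heckeConv (isBiInvariant_levelIndicator K) hg = g := by
  funext x
  rw [heckeConv, finsum_eq_single _ ((1 : G) : G ⧸ K) fun c hc => by
      rw [cosetKernel_levelIndicator, if_neg (Ne.symm hc), zero_mul],
    cosetKernel_levelIndicator, if_pos rfl, one_mul, cosetKernel_mk, inv_one, one_mul]

/-- At a place of good reduction the split matching carries base point to base point. -/
theorem hasBaseMatch_split {d : G × G × G} (h₁ : d.1 ∈ K) (h₂ : d.2.1 ∈ K) (h₃ : d.2.2 ∈ K)
    {T : Type*} [Group T] [MulAction T (G ⧸ K)] :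
    HasBaseMatch T
      (fun y : G ⧸ K => cosetKernel (isBiInvariant_levelIndicator K) y (prod3 d • y))
      (fun y : (G ⧸ K) × (G ⧸ K) × (G ⧸ K) =>
        cosetKernel (isBiInvariant_levelIndicator K) y.1 (d.1 • y.2.1) *
          (cosetKernel (isBiInvariant_levelIndicator K) y.2.1 (d.2.1 • y.2.2) *
            cosetKernel (isBiInvariant_levelIndicator K) y.2.2 (d.2.2 • y.1)))
      ((1 : G) : G ⧸ K) (((1 : G) : G ⧸ K), ((1 : G) : G ⧸ K), ((1 : G) : G ⧸ K)) := by
  set hI := isBiInvariant_levelIndicator K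
  set b := ((1 : G) : G ⧸ K)
  have hfix : ∀ {k : G}, k ∈ K → k • b = b := fun {k} hk => by
    rw [MulAction.Quotient.smul_coe, smul_eq_mul, mul_one]
    exact QuotientGroup.eq.2 (by simpa using hk)
  have hone : ∀ {k : G}, k ∈ K → cosetKernel hI b (k • b) = 1 := fun {k} hk => by
    rw [cosetKernel_levelIndicator, hfix hk, if_pos rfl]
  have hmove : ∀ {k : G} {c : G ⧸ K}, k ∈ K → cosetKernel hI b (k • c) ≠ 0 → c = b := by
    intro k c hk h
    rw [cosetKernel_levelIndicator] at h
    have h' : b = k • c := Classical.not_not.1 fun hh => h (if_neg hh)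
    rw [← inv_smul_smul k c, ← h', hfix (inv_mem hk)]
  have hsum' : ∀ m : G ⧸ K,
      ∑ᶠ y ∈ {y : (G ⧸ K) × (G ⧸ K) × (G ⧸ K) | some y.1 = some m},
        cosetKernel hI y.1 (d.1 • y.2.1) * (cosetKernel hI y.2.1 (d.2.1 • y.2.2) *
          cosetKernel hI y.2.2 (d.2.2 • y.1)) = cosetKernel hI m (prod3 d • m) := by
    intro m
    have h1 : {y : (G ⧸ K) × (G ⧸ K) × (G ⧸ K) | some y.1 = some m} = Set.range (Prod.mk m) := by
      ext y
      simp only [Set.mem_ofPred_eq, Set.mem_range, Option.some.injEq]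
      exact ⟨fun hy => ⟨y.2, by rw [← hy]⟩, fun ⟨p, hp⟩ => by rw [← hp]⟩
    rw [h1, finsum_mem_range fun p q hpq => (Prod.mk.inj hpq).2,
      finsum_eq_single _ (d.1⁻¹ • m, d.2.1⁻¹ • d.1⁻¹ • m) fun p hp => ?_]
    · simp only [cosetKernel_levelIndicator, smul_inv_smul, if_true, one_mul]
      refine if_congr ?_ rfl rfl
      rw [inv_smul_eq_iff, inv_smul_eq_iff, prod3, mul_smul, mul_smul]
    · simp only [cosetKernel_levelIndicator]
      by_contra hne
      have hA : m = d.1 • p.1 := Classical.not_not.1 fun h => left_ne_zero_of_mul hne (if_neg h)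
      have hB : p.1 = d.2.1 • p.2 :=
        Classical.not_not.1 fun h => left_ne_zero_of_mul (right_ne_zero_of_mul hne) (if_neg h)
      exact hp (Prod.ext (by rw [hA, inv_smul_smul]) (by rw [hA, inv_smul_smul, hB, inv_smul_smul]))
  refine ⟨some, fun y => some y.1, isFibration_some _, ⟨fun t y => rfl, fun y _ => rfl,
    fun m => ?_⟩, fun m => ?_, isBaseFibre_some (hone (mul_mem (mul_mem h₁ h₂) h₃)),
    ⟨rfl, by simp only [hone h₁, hone h₂, hone h₃, mul_one], fun y hy hne => ?_⟩⟩
  · refine (Set.finite_singleton (m, d.1⁻¹ • m, d.2.1⁻¹ • d.1⁻¹ • m)).subset fun y ⟨hy, hm⟩ => ?_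
    simp only [Function.mem_support, cosetKernel_levelIndicator] at hy
    have hm' : y.1 = m := Option.some_injective _ hm
    have hA : y.1 = d.1 • y.2.1 := Classical.not_not.1 fun h => left_ne_zero_of_mul hy (if_neg h)
    have hB : y.2.1 = d.2.1 • y.2.2 :=
      Classical.not_not.1 fun h => left_ne_zero_of_mul (right_ne_zero_of_mul hy) (if_neg h)
    exact Prod.ext hm' (Prod.ext (by rw [← hm', hA, inv_smul_smul])
      (by rw [← hm', hA, inv_smul_smul, hB, inv_smul_smul]))
  · simp only [matchSum]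
    rw [hsum' m, show {y : G ⧸ K | some y = some m} = {m} by ext; simp, finsum_mem_singleton]
  · have hyb : y.1 = b := Option.some_injective _ hy
    simp only [hyb] at hne
    have hA := hmove h₁ (left_ne_zero_of_mul hne)
    have hB := left_ne_zero_of_mul (right_ne_zero_of_mul hne)
    rw [hA] at hB
    exact Prod.ext hyb (Prod.ext hA (hmove h₂ hB))

end Base

section Completions

open IsDedekindDomain IsDedekindDomain.HeightOneSpectrum NumberField WithZero

/-- The generator moves `w`, a place over `v`. -/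
structure SplitPlace {K K' : Type*} [Field K] [NumberField K] [Field K'] [NumberField K']
    [Algebra K K'] (σ : K' ≃ₐ[K] K') (v : HeightOneSpectrum (𝓞 K))
    (w : HeightOneSpectrum (𝓞 K')) : Prop where
  order_three : ∀ x, σ (σ (σ x)) = x
  fixed : ∀ x, σ x = x → x ∈ Set.range (algebraMap K K')
  above : ∀ r : 𝓞 K, RingOfIntegers.mapRingHom (algebraMap K K') r ∈ w.asIdeal ↔ r ∈ v.asIdeal
  moved : placePerm σ.toRingEquiv w ≠ w

variable {K K' : Type*} [Field K] [NumberField K] [Field K'] [NumberField K'] [Algebra K K']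
  {σ : K' ≃ₐ[K] K'} {v : HeightOneSpectrum (𝓞 K)} {w : HeightOneSpectrum (𝓞 K')}

theorem placePerm_cube (σ : K' ≃+* K') (hord : ∀ x, σ (σ (σ x)) = x)
    (u : HeightOneSpectrum (𝓞 K')) : placePerm σ (placePerm σ (placePerm σ u)) = u := by
  have h3 : ∀ r, RingOfIntegers.mapRingEquiv σ (RingOfIntegers.mapRingEquiv σ
      (RingOfIntegers.mapRingEquiv σ r)) = r := fun r => RingOfIntegers.ext (hord _)
  refine HeightOneSpectrum.ext (Ideal.ext fun r => ?_)
  rw [mem_placePerm, mem_placePerm, mem_placePerm, h3]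

namespace SplitPlace

variable (P : SplitPlace σ v w)
include P

/-- The place `σ⁻¹ w` over `v`. -/
theorem next : SplitPlace σ v (placePerm σ.toRingEquiv w) where
  order_three := P.order_three
  fixed := P.fixed
  above r := by
    rw [mem_placePerm, ← P.above,
      show RingOfIntegers.mapRingEquiv σ.toRingEquiv (RingOfIntegers.mapRingHom (algebraMap K K') r) =
        RingOfIntegers.mapRingHom (algebraMap K K') r from RingOfIntegers.ext (σ.commutes _)]
  moved h := P.moved ((placePerm σ.toRingEquiv).injective h)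

theorem moved_twice : placePerm σ.toRingEquiv (placePerm σ.toRingEquiv w) ≠ w := fun h => by
  have h3 := placePerm_cube σ.toRingEquiv P.order_three w
  rw [h] at h3
  exact P.moved h3

/-- `K_v → K'_w`. -/
def emb : v.adicCompletion K →+* w.adicCompletion K' :=
  completionEmb (RingOfIntegers.mapRingHom (algebraMap K K')) (algebraMap K K') map_integers_compat
    P.above

theorem emb_coe (x : K) : P.emb (x : v.adicCompletion K) = (algebraMap K K' x : _) :=
  completionEmb_coe _ _ _ _ x

theorem emb_surjective : Function.Surjective P.emb := by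
  classical
  suffices hint : ∀ x : w.adicCompletion K', Valued.v x ≤ 1 → x ∈ Set.range P.emb by
    intro x
    by_cases hx : Valued.v x ≤ 1
    · exact hint x hx
    · obtain ⟨y, hy⟩ := hint x⁻¹ (by rw [map_inv₀]; exact inv_le_one_of_one_le₀ (not_le.1 hx).le)
      exact ⟨y⁻¹, by rw [map_inv₀, hy, inv_inv]⟩
  intro x hx
  refine (isClosed_range_completionEmb (RingOfIntegers.mapRingHom (algebraMap K K'))
    (algebraMap K K') map_integers_compat P.above).closure_subset (mem_closure_iff_nhds.2 ?_)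
  intro U hU
  obtain ⟨γ, hγ⟩ := Valued.mem_nhds.1 hU
  obtain ⟨e, he⟩ : ∃ e : ℕ, exp (-(e : ℤ)) < MonoidWithZeroHom.ValueGroup₀.embedding γ.1 := by
    have h0 : MonoidWithZeroHom.ValueGroup₀.embedding γ.1 ≠ 0 := by simp
    refine ⟨(-(log (MonoidWithZeroHom.ValueGroup₀.embedding γ.1))).natAbs + 1, ?_⟩
    conv_rhs => rw [← exp_log h0]
    rw [exp_lt_exp]
    omega
  obtain ⟨r₀, hr₀⟩ := Adelic.exists_int_sub_le (K := K') w hx e
  set w₁ := placePerm σ.toRingEquiv w with hw₁
  set w₂ := placePerm σ.toRingEquiv w₁ with hw₂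
  have hne1 : w₁ ≠ w := P.moved
  have hne2 : w₂ ≠ w := P.moved_twice
  obtain ⟨r, hr⟩ := IsDedekindDomain.exists_forall_sub_mem_ideal (s := ({w, w₁, w₂} : Finset _))
    (fun u => u.asIdeal) (fun _ => e) (fun u _ => u.prime)
    (fun u _ u' _ huu h => huu (HeightOneSpectrum.ext h)) (fun u => if u.1 = w then r₀ else 0)
  have hrw : r - r₀ ∈ w.asIdeal ^ e := by simpa using hr w (by simp)
  have hr1 : r ∈ w₁.asIdeal ^ e := by simpa [hne1] using hr w₁ (by simp)
  have hr2 : r ∈ w₂.asIdeal ^ e := by simpa [hne2] using hr w₂ (by simp)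
  set τ := RingOfIntegers.mapRingEquiv σ.toRingEquiv
  obtain ⟨b, hb⟩ := P.fixed ((r : K') + σ (r : K') + σ (σ (r : K'))) (by
    simp only [map_add, P.order_three]; ring)
  refine ⟨P.emb (b : v.adicCompletion K), hγ ?_, (b : v.adicCompletion K), rfl⟩
  rw [Set.mem_ofPred_eq, Valuation.restrict_lt_iff_lt_embedding, emb_coe, hb]
  refine lt_of_le_of_lt ?_ he
  have hsmall : ∀ (u : HeightOneSpectrum (𝓞 K')) (z : 𝓞 K'), z ∈ u.asIdeal ^ e →
      u.valuation K' (z : K') ≤ exp (-(e : ℤ)) := fun u z hz => by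
    rw [valuation_of_algebraMap, intValuation_le_pow_iff_mem]
    exact hz
  have h1 : w.valuation K' (σ (r : K')) ≤ exp (-(e : ℤ)) := by
    rw [show σ (r : K') = σ.toRingEquiv (r : K') from rfl, valuation_apply_placePerm]
    exact hsmall w₁ r hr1
  have h2 : w.valuation K' (σ (σ (r : K'))) ≤ exp (-(e : ℤ)) := by
    rw [show σ (σ (r : K')) = σ.toRingEquiv (σ.toRingEquiv (r : K')) from rfl,
      valuation_apply_placePerm, valuation_apply_placePerm]
    exact hsmall w₂ r hr2
  have hkey : (((r : K') + σ (r : K') + σ (σ (r : K')) : K') : w.adicCompletion K') - x =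
      ((((r - r₀ : 𝓞 K') : K') + σ (r : K') + σ (σ (r : K')) : K') : w.adicCompletion K') +
        -(x - algebraMap K' (w.adicCompletion K') (algebraMap (𝓞 K') K' r₀)) := by
    rw [show (((r - r₀ : 𝓞 K') : K') + σ (r : K') + σ (σ (r : K')) : K') =
      ((r : K') + σ (r : K') + σ (σ (r : K'))) - (r₀ : K') by push_cast; ring,
      ← FinitePlace.embedding_apply, ← FinitePlace.embedding_apply, map_sub,
      algebraMap_adicCompletion, Function.comp_apply, Algebra.algebraMap_self, RingHom.id_apply,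
      ← FinitePlace.embedding_apply]
    ring
  rw [hkey]
  refine le_trans (Valuation.map_add _ _ _) (max_le ?_ (by rw [Valuation.map_neg]; exact hr₀))
  rw [adicCompletion.valued_coe]
  exact le_trans (Valuation.map_add _ _ _) (max_le
    (le_trans (Valuation.map_add _ _ _) (max_le (hsmall w _ hrw) h1)) h2)

/-- `K_v ≅ K'_w`. -/
def embEquiv : v.adicCompletion K ≃+* w.adicCompletion K' :=
  RingEquiv.ofBijective P.emb ⟨P.emb.injective, P.emb_surjective⟩

@[simp] theorem embEquiv_apply (x : v.adicCompletion K) : P.embEquiv x = P.emb x := rfl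

/-- Integrality is the same on both sides. -/
theorem emb_mem_integers_iff (x : v.adicCompletion K) :
    P.emb x ∈ w.adicCompletionIntegers K' ↔ x ∈ v.adicCompletionIntegers K :=
  completionEmb_mem_integers_iff _ _ map_integers_compat P.above x

open scoped MatrixGroups in
/-- `PGL₂(K_v) ≅ PGL₂(K'_w)`. -/
def pglEquiv' : PGL(2, v.adicCompletion K) ≃* PGL(2, w.adicCompletion K') where
  toFun := Geom.pglMap P.embEquiv.toRingHom
  invFun := Geom.pglMap P.embEquiv.symm.toRingHom
  left_inv x := by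
    rw [Geom.pglMap_pglMap,
      show P.embEquiv.symm.toRingHom.comp P.embEquiv.toRingHom = RingHom.id _ from
        RingHom.ext P.embEquiv.symm_apply_apply, Geom.pglMap_id]
  right_inv x := by
    rw [Geom.pglMap_pglMap,
      show P.embEquiv.toRingHom.comp P.embEquiv.symm.toRingHom = RingHom.id _ from
        RingHom.ext P.embEquiv.apply_symm_apply, Geom.pglMap_id]
  map_mul' := map_mul _

/-- The twist between consecutive places is compatible with the two embeddings. -/
theorem completionEquiv_next (x : v.adicCompletion K) :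
    completionEquiv σ.toRingEquiv (valuation_apply_placePerm σ.toRingEquiv w) (P.next.emb x) =
      P.emb x :=
  congrFun (DenseRange.equalizer (denseRange_algebraMap K v)
    ((continuous_completionEquiv _ _).comp (continuous_completionEmb _ _ _ _))
    (continuous_completionEmb _ _ _ _)
    (funext fun a => by
      show completionEquiv _ _ (P.next.emb a) = P.emb a
      rw [emb_coe, emb_coe, completionEquiv_coe]
      show ((σ (algebraMap K K' a) : K') : w.adicCompletion K') = _
      rw [σ.commutes])) x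

end SplitPlace

end Completions

end Fermat.Agent.LT.Tame

end
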