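import Fermat.Agent.LT.Tame.Completion

/-!
# The completion of a subfield inside the completion of the field

For a place `w` above `v` the embedding of fields extends to a uniform embedding of completions;
integrality can be read on either side.
-/

set_option autoImplicit false

noncomputable section

namespace Fermat.Agent.LT.Tame

open IsDedekindDomain IsDedekindDomain.HeightOneSpectrum IsLocalRing WithZero UniformSpace

variable {R S : Type*} [CommRing R] [IsDedekindDomain R] [CommRing S] [IsDedekindDomain S]
  {K L : Type*} [Field K] [Algebra R K] [IsFractionRing R K] [Field L] [Algebra S L]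
  [IsFractionRing S L] {v : HeightOneSpectrum R} {w : HeightOneSpectrum S}
  (f : R →+* S) (ι : K →+* L) (hcompat : ∀ r, ι (algebraMap R K r) = algebraMap S L (f r))
  (hmem : ∀ r, f r ∈ w.asIdeal ↔ r ∈ v.asIdeal)

include hcompat hmem in
/-- A place above: the two valuations are equivalent on the subfield. -/
theorem isEquiv_valuation_comap :
    (v.valuation K).IsEquiv ((w.valuation L).comap ι) := by
  refine Valuation.isEquiv_iff_val_le_one.2 fun {x} => ?_
  have hle : ∀ y : K, v.valuation K y ≤ 1 → w.valuation L (ι y) ≤ 1 ∧
      (v.valuation K y < 1 → w.valuation L (ι y) < 1) := by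
    intro y hy
    obtain ⟨n, d, hdn⟩ := v.exists_primeCompl_mul_eq_of_integer y hy
    have hd : (d : R) ∉ v.asIdeal := d.2
    have hwd : w.valuation L (algebraMap S L (f d)) = 1 :=
      w.valuation_eq_one_iff_notMem.2 (fun h => hd ((hmem _).1 h))
    have hvd : v.valuation K (algebraMap R K d) = 1 := v.valuation_eq_one_iff_notMem.2 hd
    have hv : v.valuation K y = v.valuation K (algebraMap R K n) := by
      rw [← hdn, map_mul, hvd, mul_one]
    have hw : w.valuation L (ι y) = w.valuation L (algebraMap S L (f n)) := by
      rw [← hcompat n, ← hdn, map_mul, hcompat d, map_mul, hwd, mul_one]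
    rw [hw, hv, valuation_lt_one_iff_mem, valuation_lt_one_iff_mem]
    exact ⟨w.valuation_le_one _, (hmem n).2⟩
  simp only [Valuation.comap_apply]
  refine ⟨fun h => (hle x h).1, fun h => ?_⟩
  by_contra hc
  rw [not_le] at hc
  have h0 : v.valuation K x ≠ 0 := (zero_lt_one.trans hc).ne'
  have h1 : v.valuation K x⁻¹ < 1 := by rw [map_inv₀]; exact inv_lt_one_of_one_lt₀ hc
  have h2 := (hle _ h1.le).2 h1
  rw [map_inv₀, map_inv₀, inv_lt_one₀] at h2
  · exact absurd h2 (not_lt.2 h)
  · exact zero_lt_iff.2 ((Valuation.ne_zero_iff _).2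
      ((map_ne_zero ι).2 fun h => h0 (by rw [h, map_zero])))

/-- The embedding between the fields with their valuations. -/
def withValEmb : WithVal (v.valuation K) →+* WithVal (w.valuation L) :=
  ((WithVal.equiv (w.valuation L)).symm.toRingHom.comp ι).comp
    (WithVal.equiv (v.valuation K)).toRingHom

theorem valued_withValEmb (x : WithVal (v.valuation K)) :
    Valued.v (withValEmb (v := v) (w := w) ι x) = w.valuation L (ι (WithVal.equiv _ x)) := rfl

include hcompat hmem in
theorem isUniformInducing_withValEmb :
    IsUniformInducing (withValEmb (v := v) (w := w) ι) := by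
  have he := isEquiv_valuation_comap f ι hcompat hmem
  have hlt : ∀ x y : K, v.valuation K x < v.valuation K y ↔
      w.valuation L (ι x) < w.valuation L (ι y) := fun x y =>
    Valuation.isEquiv_iff_val_lt_val.1 he
  constructor
  rw [uniformity_eq_comap_nhds_zero (WithVal (w.valuation L)),
    uniformity_eq_comap_nhds_zero (WithVal (v.valuation K)), Filter.comap_comap,
    show ((fun x : WithVal (w.valuation L) × WithVal (w.valuation L) => x.2 - x.1) ∘
        fun x : WithVal (v.valuation K) × WithVal (v.valuation K) =>
          (withValEmb (v := v) (w := w) ι x.1, withValEmb (v := v) (w := w) ι x.2)) =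
      withValEmb (v := v) (w := w) ι ∘ fun x => x.2 - x.1 from
        funext fun x => (map_sub _ _ _).symm,
    ← Filter.comap_comap]
  congr 1
  refine le_antisymm (fun s hs => ?_) (fun s hs => ?_)
  · obtain ⟨γ, hγ⟩ := Valued.mem_nhds_zero.1 hs
    obtain ⟨k, hk⟩ := v.valuation_surjective K (MonoidWithZeroHom.ValueGroup₀.embedding γ.1)
    have hk0 : k ≠ 0 := by
      rintro rfl
      rw [map_zero] at hk
      simpa using hk.symm
    refine Filter.mem_comap.2 ⟨{y | w.valuation L (WithVal.equiv _ y) < w.valuation L (ι k)},
      Valued.mem_nhds_zero.2 ⟨Units.mk0 ((Valued.v (R := WithVal (w.valuation L))).restrict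
        ((WithVal.equiv _).symm (ι k))) ?_, fun y hy => ?_⟩, fun x hx => hγ ?_⟩
    · rw [ne_eq, Valuation.restrict_eq_zero_iff, map_eq_zero]
      simpa using hk0
    · rw [Set.mem_ofPred_eq, Units.val_mk0, Valuation.restrict_lt_iff] at hy
      exact hy
    · rw [Set.mem_preimage, Set.mem_ofPred_eq] at hx
      rw [Set.mem_ofPred_eq, Valuation.restrict_lt_iff_lt_embedding, ← hk]
      exact (hlt _ _).2 hx
  · obtain ⟨t, ht, hts⟩ := Filter.mem_comap.1 hs
    obtain ⟨γ, hγ⟩ := Valued.mem_nhds_zero.1 ht
    -- a power of a uniformiser of the subfield is small upstairs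
    obtain ⟨l, hl⟩ := w.valuation_surjective L (MonoidWithZeroHom.ValueGroup₀.embedding γ.1)
    obtain ⟨π, hπ⟩ := v.valuation_exists_uniformizer K
    have hπ0 : π ≠ 0 := by rintro rfl; rw [map_zero] at hπ; exact exp_ne_zero hπ.symm
    have hπ1 : w.valuation L (ι π) < 1 := by
      have h1 := (hlt π 1).1 (by
        rw [hπ, map_one, ← exp_zero, exp_lt_exp]; omega)
      rwa [map_one, map_one] at h1
    have hl0 : w.valuation L l ≠ 0 := by rw [hl]; simp
    obtain ⟨n, hn⟩ : ∃ n : ℕ, w.valuation L (ι (π ^ n)) ≤ w.valuation L l := by
      obtain ⟨a, ha⟩ : ∃ a : ℤ, w.valuation L l = exp a := ⟨_, (exp_log hl0).symm⟩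
      obtain ⟨b, hb⟩ : ∃ b : ℤ, w.valuation L (ι π) = exp b :=
        ⟨_, (exp_log ((Valuation.ne_zero_iff _).2 ((map_ne_zero ι).2 hπ0))).symm⟩
      rw [hb, ← exp_zero, exp_lt_exp] at hπ1
      refine ⟨a.natAbs, ?_⟩
      rw [map_pow, map_pow, hb, ha, ← exp_nsmul, exp_le_exp, nsmul_eq_mul]
      calc (a.natAbs : ℤ) * b ≤ (a.natAbs : ℤ) * (-1) :=
            mul_le_mul_of_nonneg_left (by omega) (by omega)
        _ ≤ a := by omega
    refine Valued.mem_nhds_zero.2 ⟨Units.mk0 ((Valued.v (R := WithVal (v.valuation K))).restrict
      ((WithVal.equiv _).symm (π ^ n))) ?_, fun x hx => hts (hγ ?_)⟩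
    · rw [ne_eq, Valuation.restrict_eq_zero_iff, map_eq_zero]
      simpa using fun h : π ^ n = 0 => pow_ne_zero n hπ0 h
    · rw [Set.mem_ofPred_eq, Units.val_mk0, Valuation.restrict_lt_iff] at hx
      rw [Set.mem_ofPred_eq, Valuation.restrict_lt_iff_lt_embedding, ← hl, valued_withValEmb]
      exact lt_of_lt_of_le ((hlt _ _).1 hx) hn

/-- The embedding of completions. -/
def completionEmb : v.adicCompletion K →+* w.adicCompletion L :=
  ((adicCompletion.equiv L w).symm.toRingHom.comp
    (Completion.mapRingHom _ (isUniformInducing_withValEmb f ι hcompat hmem).uniformContinuous.continuous)).comp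
    (adicCompletion.equiv K v).toRingHom

theorem continuous_completionEmb : Continuous (completionEmb f ι hcompat hmem) :=
  (adicCompletion.continuous_ofCompletion L w).comp
    (Completion.continuous_map.comp (adicCompletion.continuous_toCompletion K v))

@[simp] theorem completionEmb_coe (x : K) :
    completionEmb f ι hcompat hmem (x : v.adicCompletion K) = (ι x : _) := by
  apply adicCompletion.ext
  show Completion.mapRingHom _ _ ((((WithVal.equiv (v.valuation K)).symm x :
    WithVal (v.valuation K))) : Completion (WithVal (v.valuation K))) = _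
  rw [Completion.mapRingHom_coe]
  rfl

theorem isUniformInducing_completionEmb : IsUniformInducing (completionEmb f ι hcompat hmem) := by
  have h2 : IsUniformInducing (Completion.map (withValEmb (v := v) (w := w) ι)) :=
    Completion.isUniformInducing_extension
      ((Completion.isUniformInducing_coe _).comp (isUniformInducing_withValEmb f ι hcompat hmem))
  exact (adicCompletion.uniformEquiv L w).symm.isUniformInducing.comp
    (h2.comp (adicCompletion.uniformEquiv K v).isUniformInducing)

/-- The image of the completion of the subfield is closed. -/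
theorem isClosed_range_completionEmb : IsClosed (Set.range (completionEmb f ι hcompat hmem)) :=
  (isUniformInducing_completionEmb f ι hcompat hmem).isComplete_range.isClosed

/-- Integrality is the same on both sides. -/
theorem completionEmb_mem_integers_iff (x : v.adicCompletion K) :
    completionEmb f ι hcompat hmem x ∈ w.adicCompletionIntegers L ↔
      x ∈ v.adicCompletionIntegers K := by
  have he : ∀ a : K, v.valuation K a ≤ 1 ↔ ((w.valuation L).comap ι) a ≤ 1 := fun a =>
    Valuation.isEquiv_iff_val_le_one.1 (isEquiv_valuation_comap f ι hcompat hmem)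
  have hU : IsClopen ((completionEmb f ι hcompat hmem) ⁻¹' {y | Valued.v y ≤ 1}) :=
    (Valued.isClopen_integer (w.adicCompletion L)).preimage (continuous_completionEmb f ι hcompat hmem)
  have hV : IsClopen {y : v.adicCompletion K | Valued.v y ≤ 1} :=
    Valued.isClopen_integer (v.adicCompletion K)
  suffices (completionEmb f ι hcompat hmem) ⁻¹' {y | Valued.v y ≤ 1} = {y | Valued.v y ≤ 1} from
    Set.ext_iff.1 this x
  have key : ∀ (A B : Set (v.adicCompletion K)), IsOpen A → IsClosed B →
      (∀ a : K, (algebraMap K (v.adicCompletion K) a) ∈ A →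
        algebraMap K (v.adicCompletion K) a ∈ B) → A ⊆ B := fun A B hA hB h y hy =>
    closure_minimal (t := B) (by rintro _ ⟨hyA, a, rfl⟩; exact h a hyA) hB
      ((denseRange_algebraMap K v).open_subset_closure_inter hA hy)
  have hmem' : ∀ a : K, algebraMap K (v.adicCompletion K) a ∈
      (completionEmb f ι hcompat hmem) ⁻¹' {y | Valued.v y ≤ 1} ↔
      algebraMap K (v.adicCompletion K) a ∈ {y : v.adicCompletion K | Valued.v y ≤ 1} := by
    intro a
    simp only [algebraMap_adicCompletion, Function.comp_apply, Algebra.algebraMap_self,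
      RingHom.id_apply, Set.mem_preimage, Set.mem_ofPred_eq, completionEmb_coe,
      adicCompletion.valued_coe]
    exact (he a).symm
  exact Set.Subset.antisymm (key _ _ hU.isOpen hV.isClosed fun a => (hmem' a).1)
    (key _ _ hV.isOpen hU.isClosed fun a => (hmem' a).2)

/-- The embedding of the rings of integers. -/
def integersEmb : v.adicCompletionIntegers K →+* w.adicCompletionIntegers L where
  toFun x := ⟨completionEmb f ι hcompat hmem x,
    (completionEmb_mem_integers_iff f ι hcompat hmem _).2 x.2⟩
  map_one' := Subtype.ext (map_one _)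
  map_mul' _ _ := Subtype.ext (map_mul _ _ _)
  map_zero' := Subtype.ext (map_zero _)
  map_add' _ _ := Subtype.ext (map_add _ _ _)

@[simp] theorem coe_integersEmb (x : v.adicCompletionIntegers K) :
    (integersEmb f ι hcompat hmem x : w.adicCompletion L) = completionEmb f ι hcompat hmem x := rfl

instance isLocalHom_integersEmb : IsLocalHom (integersEmb f ι hcompat hmem) where
  map_nonunit x hx := by
    obtain ⟨y, hy⟩ := hx.exists_right_inv
    have h0 : (x : v.adicCompletion K) ≠ 0 := fun h => by
      have := congrArg Subtype.val hy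
      rw [MulMemClass.coe_mul, coe_integersEmb, h, map_zero, zero_mul] at this
      exact zero_ne_one this
    have hinv : (x : v.adicCompletion K)⁻¹ ∈ v.adicCompletionIntegers K := by
      rw [← completionEmb_mem_integers_iff f ι hcompat hmem, map_inv₀]
      have h1 := congrArg Subtype.val hy
      rw [MulMemClass.coe_mul, coe_integersEmb, OneMemClass.coe_one] at h1
      rw [inv_eq_of_mul_eq_one_right h1]
      exact y.2
    exact IsUnit.of_mul_eq_one ⟨_, hinv⟩ (Subtype.ext (by simp [h0]))

end Fermat.Agent.LT.Tame

end
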