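import Fermat.Agent.LT.Aleph.LocalAdele
import Mathlib.LinearAlgebra.Matrix.GeneralLinearGroup.Projective

/-!
# Adelic levels from local levels

A family of compact open local levels, maximal at almost all places, gives a level in `GL₂(𝔸_f)`.
The finite part of the space is the restricted product of the local coset spaces in `PGL₂`.
-/

set_option autoImplicit false

noncomputable section

namespace Fermat.Agent.LT.Tame

open IsDedekindDomain IsDedekindDomain.HeightOneSpectrum Matrix Fermat.Agent.LT.Adelic
open Fermat.Agent.LT.Aleph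
open scoped MatrixGroups

variable {R : Type*} [CommRing R] [IsDedekindDomain R] {K : Type*} [Field K] [Algebra R K]
  [IsFractionRing R K]

variable (K) in
/-- The maximal compact subgroup at `v`. -/
def localFull (v : HeightOneSpectrum R) : Subgroup (GL (Fin 2) (v.adicCompletion K)) where
  carrier := {γ | IsIntLocal γ}
  one_mem' := isIntLocal_one
  mul_mem' := IsIntLocal.mul
  inv_mem' := IsIntLocal.inv

theorem mem_localFull {v : HeightOneSpectrum R} {γ : GL (Fin 2) (v.adicCompletion K)} :
    γ ∈ localFull K v ↔ IsIntLocal γ := Iff.rfl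

variable (V : ∀ v : HeightOneSpectrum R, Subgroup (GL (Fin 2) (v.adicCompletion K)))

/-- The level with the given components. -/
def productLevel : Subgroup (Gf R K) := ⨅ v, (V v).comap (localGL K v)

theorem mem_productLevel {g : Gf R K} : g ∈ productLevel V ↔ ∀ v, localGL K v g ∈ V v := by
  simp [productLevel, Subgroup.mem_iInf]

variable {V}

theorem productLevel_le (hV : ∀ v, V v ≤ localFull K v) :
    productLevel V ≤ principalLevel K (1 : R) := fun _ hg =>
  mem_principalLevel_one_iff.2 fun v => hV v ((mem_productLevel V).1 hg v)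

theorem principalLevel_le_productLevel {n : R}
    (h : ∀ (v : HeightOneSpectrum R) (γ : GL (Fin 2) (v.adicCompletion K)), IsIntLocal γ →
      (∀ i j, Valued.v (((γ : Matrix (Fin 2) (Fin 2) (v.adicCompletion K)) - 1) i j) ≤
        v.intValuation n) → γ ∈ V v) :
    principalLevel K n ≤ productLevel V := by
  intro g hg
  refine (mem_productLevel V).2 fun v => h v _ ?_ fun i j => ?_
  · exact mem_principalLevel_one_iff.1 (principalLevel_mono (one_dvd n) hg) v
  · refine le_of_eq_of_le ?_ ((mem_principalLevel.1 hg).1 i j v)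
    congr 1
    rw [Matrix.sub_apply, Matrix.sub_apply, coe_apply_sub, ← localGL_apply, Matrix.one_apply,
      Matrix.one_apply]
    split
    · rw [coe_apply_one]
    · rw [coe_apply_zero]

theorem isLevel_productLevel (hV : ∀ v, V v ≤ localFull K v) {n : R} (hn : n ≠ 0)
    (h : ∀ (v : HeightOneSpectrum R) (γ : GL (Fin 2) (v.adicCompletion K)), IsIntLocal γ →
      (∀ i j, Valued.v (((γ : Matrix (Fin 2) (Fin 2) (v.adicCompletion K)) - 1) i j) ≤
        v.intValuation n) → γ ∈ V v) :
    IsLevel (productLevel V) :=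
  ⟨n, hn, principalLevel_le_productLevel h, productLevel_le hV⟩

/-- Almost every component of an element of `GL₂(𝔸_f)` is integral. -/
theorem eventually_isIntLocal (g : Gf R K) :
    ∀ᶠ v in Filter.cofinite, IsIntLocal (localGL K v g) := by
  have h : ∀ (h : Gf R K) (i j : Fin 2), ∀ᶠ v in Filter.cofinite,
      Valued.v ((localGL K v h : Matrix (Fin 2) (Fin 2) (v.adicCompletion K)) i j) ≤ 1 :=
    fun h i j => ((h : Matrix (Fin 2) (Fin 2) (FiniteAdeleRing R K)) i j).2
  simp only [IsIntLocal, ← map_inv, Filter.eventually_all]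
  exact fun i j => (h g i j).and (h g⁻¹ i j)

variable (K) in
/-- A finite adele from almost everywhere integral components. -/
def adeleMk (x : ∀ v : HeightOneSpectrum R, v.adicCompletion K)
    (h : ∀ᶠ v in Filter.cofinite, Valued.v (x v) ≤ 1) : FiniteAdeleRing R K :=
  ⟨x, h⟩

@[simp] theorem adeleMk_apply (x : ∀ v : HeightOneSpectrum R, v.adicCompletion K)
    (h : ∀ᶠ v in Filter.cofinite, Valued.v (x v) ≤ 1) (v : HeightOneSpectrum R) :
    adeleMk K x h v = x v := rfl

variable (K) in
/-- An element of `GL₂(𝔸_f)` from almost everywhere integral components. -/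
def gfOfFamily (γ : ∀ v : HeightOneSpectrum R, GL (Fin 2) (v.adicCompletion K))
    (h : ∀ᶠ v in Filter.cofinite, IsIntLocal (γ v)) : Gf R K where
  val := Matrix.of fun i j => adeleMk K (fun v => (γ v).1 i j) (h.mono fun _ hv => (hv i j).1)
  inv := Matrix.of fun i j =>
    adeleMk K (fun v => ((γ v)⁻¹ : GL (Fin 2) (v.adicCompletion K)).1 i j)
      (h.mono fun _ hv => (hv i j).2)
  val_inv := mat_ext fun v => by
    rw [Matrix.map_mul, Matrix.map_one _ (map_zero _) (map_one _)]
    exact (γ v).mul_inv
  inv_val := mat_ext fun v => by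
    rw [Matrix.map_mul, Matrix.map_one _ (map_zero _) (map_one _)]
    exact (γ v).inv_mul

@[simp] theorem localGL_gfOfFamily
    (γ : ∀ v : HeightOneSpectrum R, GL (Fin 2) (v.adicCompletion K))
    (h : ∀ᶠ v in Filter.cofinite, IsIntLocal (γ v)) (v : HeightOneSpectrum R) :
    localGL K v (gfOfFamily K γ h) = γ v :=
  Units.ext (Matrix.ext fun _ _ => rfl)

/-- A level has full determinant when all its components have. -/
theorem exists_det_eq (hV : ∀ v, V v ≤ localFull K v)
    (hdet : ∀ (v : HeightOneSpectrum R) (c : (v.adicCompletion K)ˣ),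
      Valued.v (c : v.adicCompletion K) = 1 → ∃ γ ∈ V v, GeneralLinearGroup.det γ = c)
    (u : (FiniteAdeleRing R K)ˣ) (hu : (u : FiniteAdeleRing R K) ∈ intAdele R K)
    (hu' : ((u⁻¹ : (FiniteAdeleRing R K)ˣ) : FiniteAdeleRing R K) ∈ intAdele R K) :
    ∃ g ∈ productLevel V, GeneralLinearGroup.det g = u := by
  have hval : ∀ v : HeightOneSpectrum R, Valued.v ((u : FiniteAdeleRing R K) v) = 1 := fun v => by
    have e := congrArg (fun a : FiniteAdeleRing R K => Valued.v (a v)) u.mul_inv
    simp only [coe_apply_mul, map_mul, coe_apply_one, map_one] at e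
    refine le_antisymm (hu v) ?_
    calc (1 : WithZero (Multiplicative ℤ)) = _ := e.symm
      _ ≤ Valued.v ((u : FiniteAdeleRing R K) v) * 1 := mul_le_mul' le_rfl (hu' v)
      _ = _ := mul_one _
  have hne : ∀ v : HeightOneSpectrum R, (u : FiniteAdeleRing R K) v ≠ 0 := fun v h0 =>
    zero_ne_one (α := WithZero (Multiplicative ℤ)) (by rw [← hval v, h0, map_zero])
  choose γ hγ hγd using fun v => hdet v (Units.mk0 _ (hne v)) (hval v)
  refine ⟨gfOfFamily K γ (Filter.Eventually.of_forall fun v => hV v (hγ v)),
    (mem_productLevel V).2 fun v => by rw [localGL_gfOfFamily]; exact hγ v,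
    Units.ext (FiniteAdeleRing.ext K fun v => ?_)⟩
  have h1 := congrArg (fun c : (v.adicCompletion K)ˣ => (c : v.adicCompletion K)) (hγd v)
  simp only [GeneralLinearGroup.val_det_apply, Units.val_mk0] at h1
  rw [GeneralLinearGroup.val_det_apply, ← h1, ← evalAt_apply, RingHom.map_det]
  rfl

/-- The component of an element of `GL₂(𝔸_f)` in `PGL₂` of a completion. -/
def localPGL (v : HeightOneSpectrum R) : Gf R K →* PGL(2, v.adicCompletion K) :=
  ProjGenLinGroup.mk.comp (localGL K v)

theorem localPGL_scalarHom (v : HeightOneSpectrum R) (c : (FiniteAdeleRing R K)ˣ) :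
    localPGL v (scalarHom R K c) = 1 := by
  rw [localPGL, MonoidHom.comp_apply,
    show localGL K v (scalarHom R K c) = GeneralLinearGroup.scalar (Fin 2)
      (Units.map (evalAt K v).toMonoidHom c) from ?_, ProjGenLinGroup.mk_scalar]
  refine Units.ext (Matrix.ext fun i j => ?_)
  rw [localGL_apply]
  fin_cases i <;> fin_cases j <;>
    simp [scalarHom, GeneralLinearGroup.scalar, coe_apply_zero]

/-- **Membership in `U` times the centre is local.** -/
theorem mem_levelZ_productLevel_iff (hV : ∀ v, V v ≤ localFull K v) {g : Gf R K} :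
    g ∈ levelZ (productLevel V) ↔ ∀ v, localPGL v g ∈ (V v).map ProjGenLinGroup.mk := by
  classical
  constructor
  · intro hg v
    obtain ⟨u, hu, z, ⟨c, rfl⟩, rfl⟩ := mem_levelZ.1 hg
    rw [map_mul, localPGL_scalarHom, mul_one]
    exact Subgroup.mem_map_of_mem _ ((mem_productLevel V).1 hu v)
  · intro h
    choose γ hγ hγg using fun v => Subgroup.mem_map.1 (h v)
    choose c hc using fun v => ProjGenLinGroup.mk_eq_mk_iff.1 (hγg v)
    have hcg : ∀ v i j, (localGL K v g : Matrix (Fin 2) (Fin 2) (v.adicCompletion K)) i j =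
        (c v : v.adicCompletion K) * (γ v : Matrix (Fin 2) (Fin 2) (v.adicCompletion K)) i j := by
      intro v i j
      rw [← hc v]
      fin_cases i <;> fin_cases j <;>
        simp [GeneralLinearGroup.scalar, Matrix.mul_apply, mul_comm]
    have hgi : ∀ v i j, ((localGL K v g)⁻¹ : GL (Fin 2) (v.adicCompletion K)).1 i j =
        ((c v)⁻¹ : (v.adicCompletion K)ˣ) *
          ((γ v)⁻¹ : GL (Fin 2) (v.adicCompletion K)).1 i j := by
      intro v i j
      rw [← hc v, _root_.mul_inv_rev, ← map_inv]
      fin_cases i <;> fin_cases j <;>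
        simp [GeneralLinearGroup.scalar, Matrix.mul_apply, mul_comm]
    have hunit : ∀ v, IsIntLocal (localGL K v g) → Valued.v (c v : v.adicCompletion K) = 1 := by
      intro v hv
      have key : ∀ (d : v.adicCompletion K) (M : GL (Fin 2) (v.adicCompletion K)),
          IsIntLocal M → (∀ i j, Valued.v (d * M.1 i j) ≤ 1) → Valued.v d ≤ 1 := by
        intro d M hM hle
        have h1 := congrFun (congrFun M.mul_inv 0) 0
        rw [Matrix.mul_apply, Fin.sum_univ_two, Matrix.one_apply_eq] at h1
        calc Valued.v d = Valued.v (d * M.1 0 0 * M⁻¹.1 0 0 + d * M.1 0 1 * M⁻¹.1 1 0) := by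
              rw [mul_assoc, mul_assoc, ← mul_add, h1, mul_one]
          _ ≤ 1 := (Valuation.map_add _ _ _).trans (max_le
              (by rw [map_mul]; exact mul_le_one' (hle 0 0) (hM 0 0).2)
              (by rw [map_mul]; exact mul_le_one' (hle 0 1) (hM 1 0).2))
      have h1 := key (c v) (γ v) (hV v (hγ v)) fun i j => by rw [← hcg]; exact (hv i j).1
      have h2 := key ((c v)⁻¹ : (v.adicCompletion K)ˣ) (γ v)⁻¹ (hV v (inv_mem (hγ v))) fun i j => by
        rw [← hgi]; exact (hv i j).2
      rw [Units.val_inv_eq_inv_val, map_inv₀, inv_le_one₀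
        (zero_lt_iff.2 ((Valuation.ne_zero_iff _).2 (c v).ne_zero))] at h2
      exact le_antisymm h1 h2
    have hev : ∀ᶠ v in Filter.cofinite, Valued.v (c v : v.adicCompletion K) = 1 :=
      (eventually_isIntLocal g).mono hunit
    have hev' : ∀ᶠ v in Filter.cofinite,
        Valued.v ((c v)⁻¹ : (v.adicCompletion K)ˣ).1 ≤ 1 := hev.mono fun v hv => by
      rw [Units.val_inv_eq_inv_val, map_inv₀, hv, inv_one]
    let C : (FiniteAdeleRing R K)ˣ :=
      ⟨adeleMk K (fun v => c v) (hev.mono fun _ hv => hv.le), adeleMk K (fun v => ((c v)⁻¹ :) ) hev',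
        FiniteAdeleRing.ext K fun v => (c v).mul_inv, FiniteAdeleRing.ext K fun v => (c v).inv_mul⟩
    refine mem_levelZ.2 ⟨g * (scalarHom R K C)⁻¹, (mem_productLevel V).2 fun v => ?_,
      scalarHom R K C, ⟨C, rfl⟩, inv_mul_cancel_right g _⟩
    have hC : localGL K v (scalarHom R K C) = GeneralLinearGroup.scalar (Fin 2) (c v) := by
      refine Units.ext (Matrix.ext fun i j => ?_)
      rw [localGL_apply]
      fin_cases i <;> fin_cases j <;>
        simp [scalarHom, GeneralLinearGroup.scalar, coe_apply_zero, C]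
    rw [map_mul, map_inv, hC]
    have : localGL K v g * (GeneralLinearGroup.scalar (Fin 2) (c v))⁻¹ = γ v := by
      rw [← hc v, mul_inv_cancel_right]
    rw [this]
    exact hγ v

/-- Equality in `Y_f` is local. -/
theorem yf_eq_iff (hV : ∀ v, V v ≤ localFull K v) {g h : Gf R K} :
    (g : Yf (productLevel V)) = h ↔
      ∀ v, (localPGL v g : PGL(2, v.adicCompletion K) ⧸ (V v).map ProjGenLinGroup.mk) =
        localPGL v h := by
  rw [QuotientGroup.eq, mem_levelZ_productLevel_iff hV]
  simp only [QuotientGroup.eq, map_mul, map_inv]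

/-- The local coset spaces' restricted product. -/
def RestrictedCosets (V : ∀ v : HeightOneSpectrum R, Subgroup (GL (Fin 2) (v.adicCompletion K))) :
    Type _ :=
  {f : ∀ v : HeightOneSpectrum R, PGL(2, v.adicCompletion K) ⧸ (V v).map ProjGenLinGroup.mk //
    ∀ᶠ v in Filter.cofinite, f v = ((1 : PGL(2, v.adicCompletion K)) :
      PGL(2, v.adicCompletion K) ⧸ (V v).map ProjGenLinGroup.mk)}

/-- The components of a point of `Y_f`. -/
def toRestricted (hV : ∀ v, V v ≤ localFull K v)
    (hfull : ∀ᶠ v in Filter.cofinite, localFull K v ≤ V v) :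
    Yf (productLevel V) → RestrictedCosets V :=
  Quotient.lift
    (fun g : Gf R K => (⟨fun v => (localPGL v g : _),
      ((eventually_isIntLocal g).and hfull).mono fun v hv => QuotientGroup.eq.2
        (by rw [mul_one]; exact inv_mem (Subgroup.mem_map_of_mem _ (hv.2 hv.1)))⟩ :
      RestrictedCosets V))
    fun g h hgh => Subtype.ext (funext fun v => (yf_eq_iff hV).1 (Quotient.sound hgh) v)

@[simp] theorem toRestricted_mk (hV : ∀ v, V v ≤ localFull K v)
    (hfull : ∀ᶠ v in Filter.cofinite, localFull K v ≤ V v) (g : Gf R K)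
    (v : HeightOneSpectrum R) :
    (toRestricted hV hfull (g : Yf (productLevel V))).1 v = (localPGL v g : _) := rfl

/-- **`Y_f` is the restricted product of the local coset spaces.** -/
theorem toRestricted_bijective (hV : ∀ v, V v ≤ localFull K v)
    (hfull : ∀ᶠ v in Filter.cofinite, localFull K v ≤ V v) :
    Function.Bijective (toRestricted hV hfull) := by
  classical
  constructor
  · intro a b
    induction a using QuotientGroup.induction_on with | _ g =>
    induction b using QuotientGroup.induction_on with | _ h =>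
    intro e
    exact (yf_eq_iff hV).2 fun v => congrFun (congrArg Subtype.val e) v
  · rintro ⟨f, hf⟩
    have hrep : ∀ v, ∃ γ : GL (Fin 2) (v.adicCompletion K),
        ((ProjGenLinGroup.mk γ : PGL(2, v.adicCompletion K)) :
          PGL(2, v.adicCompletion K) ⧸ (V v).map ProjGenLinGroup.mk) = f v ∧
        (f v = ((1 : PGL(2, v.adicCompletion K)) :
          PGL(2, v.adicCompletion K) ⧸ (V v).map ProjGenLinGroup.mk) → γ = 1) := by
      intro v
      by_cases h1 : f v = ((1 : PGL(2, v.adicCompletion K)) :
          PGL(2, v.adicCompletion K) ⧸ (V v).map ProjGenLinGroup.mk)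
      · exact ⟨1, by rw [map_one, h1], fun _ => rfl⟩
      · obtain ⟨x, hx⟩ := QuotientGroup.mk_surjective (f v)
        induction x using ProjGenLinGroup.induction_on with | mk γ =>
        exact ⟨γ, hx, fun h => absurd h h1⟩
    choose γ hγ hγ1 using hrep
    refine ⟨(gfOfFamily K γ (hf.mono fun v hv => by rw [hγ1 v hv]; exact isIntLocal_one) : _),
      Subtype.ext (funext fun v => ?_)⟩
    show ((ProjGenLinGroup.mk (localGL K v _) : PGL(2, v.adicCompletion K)) :
      PGL(2, v.adicCompletion K) ⧸ (V v).map ProjGenLinGroup.mk) = f v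
    rw [localGL_gfOfFamily, hγ v]

end Fermat.Agent.LT.Tame

end
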