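import Fermat.Agent.LT.Tame.AdelicAut
import Fermat.Agent.LT.Tame.AdelicLevel
import Fermat.Agent.LT.Descent.Action

/-!
# The automorphism on `Yf` and on the space

The action of `σ` on finite adeles descends to `Yf U'` for a stable level, lies over the
generator, has order three, and the twist of the space preserves the invariant measure.
-/

set_option autoImplicit false

noncomputable section

namespace Fermat.Agent.LT.Tame

open IsDedekindDomain IsDedekindDomain.HeightOneSpectrum Matrix NumberField MeasureTheory
open Fermat.Agent.LT.Adelic Fermat.Agent.LT.Aleph Fermat.Agent.LT.Descent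
open scoped MatrixGroups

variable {K : Type*} [Field K] [NumberField K] (σ : K ≃+* K) {U : Subgroup (GfK K)}

/-- A stable level: `σ` maps it to itself. -/
def IsStableLevel (U : Subgroup (GfK K)) : Prop := ∀ u ∈ U, gfAut σ u ∈ U

/-- A product level is stable when the local levels correspond. -/
theorem isStableLevel_productLevel
    {V : ∀ v : HeightOneSpectrum (𝓞 K), Subgroup (GL (Fin 2) (v.adicCompletion K))}
    (hV : ∀ v, ∀ γ ∈ V (placePerm σ v), GeneralLinearGroup.map
      (completionEquiv σ (valuation_apply_placePerm σ v)).toRingHom γ ∈ V v) :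
    IsStableLevel σ (productLevel V) := by
  intro u hu
  rw [mem_productLevel] at hu ⊢
  intro v
  rw [gfAut, localGL_gfHom]
  exact hV v _ (hu _)

theorem gfAut_mem_levelZ (hU : IsStableLevel σ U) {g : GfK K} (hg : g ∈ levelZ U) :
    gfAut σ g ∈ levelZ U := by
  obtain ⟨u, hu, z, hz, rfl⟩ := mem_levelZ.1 hg
  exact mem_levelZ.2 ⟨_, hU u hu, _, gfAut_mem_centerGf σ hz, (map_mul _ _ _).symm⟩

/-- The action of `σ` on `Yf U`. -/
def yfAut (hU : IsStableLevel σ U) : Yf U → Yf U :=
  Quotient.map' (gfAut σ) fun a b hab => by
    rw [QuotientGroup.leftRel_apply] at hab ⊢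
    rw [← map_inv, ← map_mul]
    exact gfAut_mem_levelZ σ hU hab

@[simp] theorem yfAut_mk (hU : IsStableLevel σ U) (g : GfK K) :
    yfAut σ hU (g : Yf U) = ((gfAut σ g : GfK K) : Yf U) := rfl

theorem yfAut_smul (hU : IsStableLevel σ U) (h : GfK K) (y : Yf U) :
    yfAut σ hU (h • y) = gfAut σ h • yfAut σ hU y := by
  induction y using QuotientGroup.induction_on with
  | _ g =>
    rw [MulAction.Quotient.smul_coe, smul_eq_mul, yfAut_mk, yfAut_mk, map_mul]
    rfl

section Cube

variable (hord : ∀ x, σ (σ (σ x)) = x)
include hord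

theorem adeleAut_cube (a : FiniteAdeleRing (𝓞 K) K) :
    adeleAut σ (adeleAut σ (adeleAut σ a)) = a := by
  refine FiniteAdeleRing.ext K fun v => ?_
  set π := placePerm σ
  have hπ : π (π (π v)) = v := by
    have h3 : ∀ r, RingOfIntegers.mapRingEquiv σ (RingOfIntegers.mapRingEquiv σ
        (RingOfIntegers.mapRingEquiv σ r)) = r := fun r => RingOfIntegers.ext (hord _)
    refine HeightOneSpectrum.ext (Ideal.ext fun r => ?_)
    rw [mem_placePerm, mem_placePerm, mem_placePerm, h3]
  have key : ∀ (u : HeightOneSpectrum (𝓞 K))
      (h3 : ∀ x, (π (π v)).valuation K (σ x) = u.valuation K x), u = v →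
      completionEquiv σ (valuation_apply_placePerm σ v)
        (completionEquiv σ (valuation_apply_placePerm σ (π v))
          (completionEquiv σ h3 (a u))) = a v := by
    rintro u h3 rfl
    exact congrFun (DenseRange.equalizer (denseRange_algebraMap K u)
      ((continuous_completionEquiv _ _).comp ((continuous_completionEquiv _ _).comp
        (continuous_completionEquiv _ _))) continuous_id
      (funext fun b => by
        rw [Function.comp_apply, Function.comp_apply, Function.comp_apply,
          algebraMap_adicCompletion, Function.comp_apply, Algebra.algebraMap_self, RingHom.id_apply,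
          completionEquiv_coe, completionEquiv_coe, completionEquiv_coe, hord]
        rfl)) (a u)
  exact key _ (valuation_apply_placePerm σ (π (π v))) hπ

theorem gfAut_cube (g : GfK K) : gfAut σ (gfAut σ (gfAut σ g)) = g :=
  Units.ext (Matrix.ext fun _ _ => adeleAut_cube σ hord _)

theorem yfAut_cube (hU : IsStableLevel σ U) (y : Yf U) :
    yfAut σ hU (yfAut σ hU (yfAut σ hU y)) = y := by
  induction y using QuotientGroup.induction_on with
  | _ g => rw [yfAut_mk, yfAut_mk, yfAut_mk, gfAut_cube σ hord]

/-- The action of `σ` on `Yf U` as a permutation. -/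
def yfPerm (hU : IsStableLevel σ U) : Equiv.Perm (Yf U) where
  toFun := yfAut σ hU
  invFun y := yfAut σ hU (yfAut σ hU y)
  left_inv := yfAut_cube σ hord hU
  right_inv := yfAut_cube σ hord hU

theorem yfAut_bijective (hU : IsStableLevel σ U) : Function.Bijective (yfAut σ hU) :=
  (yfPerm σ hord hU).bijective

end Cube

section Twist

variable {F : Type*} [Field F] [NumberField F] [Algebra F K] {Φ : Frame F Unit}
  {Φ' : Frame K (Fin 3)}

/-- `σ` on `Yf U` lies over the generator of the twist. -/
theorem isTwistMap_yfAut (tw : CubicTwist Φ Φ') (hU : IsStableLevel tw.σ.toRingEquiv U) :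
    IsTwistMap tw (yfAut tw.σ.toRingEquiv hU) := fun g y => by
  rw [yfAut_smul, gfAut_toGf]

theorem measurable_twistPt [Countable (Yf U)] (σf : Yf U → Yf U) :
    Measurable (twistPt (Φ' := Φ') σf) :=
  Space.measurable_iff.2 fun y => (Space.measurable_mk (σf y)).comp
    (measurable_pi_lambda _ fun i => measurable_pi_apply (i + 1))

/-- The twist preserves the invariant measure. -/
theorem measurePreserving_twistPt [Countable (Yf U)] (σf : Equiv.Perm (Yf U)) :
    MeasurePreserving (twistPt (Φ' := Φ') σf) (Space.measure Φ' U) (Space.measure Φ' U) := by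
  have hs : MeasurePreserving (fun τ : Fin 3 → HSpace => fun i => τ (i + 1))
      (Measure.pi fun _ => HSpace.measure) (Measure.pi fun _ => HSpace.measure) :=
    measurePreserving_arrowCongr' (fun _ => HSpace.measure) (fun _ => HSpace.measure)
      (Equiv.addRight (1 : Fin 3)).symm (MeasurableEquiv.refl HSpace)
      (fun _ => MeasurePreserving.id _)
  refine ⟨measurable_twistPt σf, ?_⟩
  conv_rhs => rw [Space.measure, ← Measure.sum_comp_equiv σf]
  rw [Space.measure, Measure.map_sum (measurable_twistPt σf).aemeasurable]
  congr 1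
  funext y
  rw [Measure.map_map (measurable_twistPt σf) (Space.measurable_mk y),
    show (twistPt (Φ' := Φ') σf ∘ fun τ => Space.mk τ y) =
      (fun τ => Space.mk τ (σf y)) ∘ (fun τ : Fin 3 → HSpace => fun i => τ (i + 1)) from rfl,
    ← Measure.map_map (Space.measurable_mk _) hs.measurable, hs.map_eq]
  rfl

/-- The twist of the space by `σ` preserves the measure. -/
theorem measurePreserving_twistPt_yfAut [Countable (Yf U)] (tw : CubicTwist Φ Φ')
    (hU : IsStableLevel tw.σ.toRingEquiv U) :
    MeasurePreserving (twistPt (Φ' := Φ') (yfAut tw.σ.toRingEquiv hU))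
      (Space.measure Φ' U) (Space.measure Φ' U) :=
  measurePreserving_twistPt (yfPerm tw.σ.toRingEquiv tw.order_three hU)

end Twist

end Fermat.Agent.LT.Tame

end
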