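import Fermat.Agent.LT.Tame.AdelicLevel
import Fermat.Agent.LT.Tame.SpaceAut
import Fermat.Agent.LT.Descent.TensorProd

/-!
# Components of points of `Yf` of a product level

`Yf (productLevel V)` is the restricted product of the local coset spaces in the sense of
`IsRestrictedProd`; the actions of `GL₂(𝔸_f)` and of `σ` are componentwise.
-/

set_option autoImplicit false

noncomputable section

namespace Fermat.Agent.LT.Tame

open IsDedekindDomain IsDedekindDomain.HeightOneSpectrum Matrix
open Fermat.Agent.LT.Adelic Fermat.Agent.LT.Aleph Fermat.Agent.LT.Descent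
open scoped MatrixGroups

section General

variable {R : Type*} [CommRing R] [IsDedekindDomain R] {K : Type*} [Field K] [Algebra R K]
  [IsFractionRing R K]
  {V : ∀ v : HeightOneSpectrum R, Subgroup (GL (Fin 2) (v.adicCompletion K))}
  (hV : ∀ v, V v ≤ localFull K v) (hfull : ∀ᶠ v in Filter.cofinite, localFull K v ≤ V v)

/-- The components of a point of `Yf (productLevel V)`. -/
def yfComponent (y : Yf (productLevel V)) (v : HeightOneSpectrum R) :
    PGL(2, v.adicCompletion K) ⧸ (V v).map ProjGenLinGroup.mk :=
  (toRestricted hV hfull y).1 v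

theorem yfComponent_mk (g : Gf R K) (v : HeightOneSpectrum R) :
    yfComponent hV hfull (g : Yf (productLevel V)) v = (localPGL v g : _) := rfl

theorem isRestrictedProd_yfComponent :
    IsRestrictedProd (yfComponent hV hfull) fun v =>
      ((1 : PGL(2, v.adicCompletion K)) :
        PGL(2, v.adicCompletion K) ⧸ (V v).map ProjGenLinGroup.mk) where
  injective _ _ h := (toRestricted_bijective hV hfull).1 (Subtype.ext h)
  eventually_base y := (toRestricted hV hfull y).2
  exists_of_eventually x hx := by
    obtain ⟨y, hy⟩ := (toRestricted_bijective hV hfull).2 ⟨x, hx⟩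
    exact ⟨y, congrArg Subtype.val hy⟩

theorem yfComponent_smul (g : Gf R K) (y : Yf (productLevel V)) (v : HeightOneSpectrum R) :
    yfComponent hV hfull (g • y) v = localPGL v g • yfComponent hV hfull y v := by
  induction y using QuotientGroup.induction_on with
  | _ h =>
    rw [MulAction.Quotient.smul_coe, smul_eq_mul, yfComponent_mk, yfComponent_mk, map_mul]
    rfl

end General

section Sigma

open NumberField

variable {K : Type*} [Field K] [NumberField K] (σ : K ≃+* K)
  {V : ∀ v : HeightOneSpectrum (𝓞 K), Subgroup (GL (Fin 2) (v.adicCompletion K))}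
  (hV : ∀ v, V v ≤ localFull K v) (hfull : ∀ᶠ v in Filter.cofinite, localFull K v ≤ V v)
  (hσ : ∀ v, ∀ γ ∈ V (placePerm σ v), GeneralLinearGroup.map
    (completionEquiv σ (valuation_apply_placePerm σ v)).toRingHom γ ∈ V v)

/-- The local component of the twist: from the place `σ⁻¹ v` to `v`. -/
def cosetTwist (v : HeightOneSpectrum (𝓞 K)) :
    PGL(2, (placePerm σ v).adicCompletion K) ⧸ (V (placePerm σ v)).map ProjGenLinGroup.mk →
      PGL(2, v.adicCompletion K) ⧸ (V v).map ProjGenLinGroup.mk :=
  Quotient.map' (Geom.pglMap (completionEquiv σ (valuation_apply_placePerm σ v)).toRingHom)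
    fun a b hab => by
      rw [QuotientGroup.leftRel_apply] at hab ⊢
      obtain ⟨γ, hγ, he⟩ := Subgroup.mem_map.1 hab
      rw [← map_inv, ← map_mul, ← he, Geom.pglMap_mk]
      exact Subgroup.mem_map_of_mem _ (hσ v γ hγ)

theorem cosetTwist_mk (v : HeightOneSpectrum (𝓞 K))
    (g : PGL(2, (placePerm σ v).adicCompletion K)) :
    cosetTwist σ hσ v (g : _) =
      ((Geom.pglMap (completionEquiv σ (valuation_apply_placePerm σ v)).toRingHom g :
        PGL(2, v.adicCompletion K)) : _) := rfl

theorem localPGL_gfAut (g : GfK K) (v : HeightOneSpectrum (𝓞 K)) :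
    localPGL v (gfAut σ g) =
      Geom.pglMap (completionEquiv σ (valuation_apply_placePerm σ v)).toRingHom
        (localPGL (placePerm σ v) g) := by
  rw [localPGL, MonoidHom.comp_apply, gfAut, localGL_gfHom, localPGL, MonoidHom.comp_apply,
    Geom.pglMap_mk]

/-- **The twist is componentwise.** -/
theorem yfComponent_yfAut (y : Yf (productLevel V)) (v : HeightOneSpectrum (𝓞 K)) :
    yfComponent hV hfull (yfAut σ (isStableLevel_productLevel σ hσ) y) v =
      cosetTwist σ hσ v (yfComponent hV hfull y (placePerm σ v)) := by
  induction y using QuotientGroup.induction_on with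
  | _ g => rw [yfAut_mk, yfComponent_mk, yfComponent_mk, cosetTwist_mk, localPGL_gfAut]

end Sigma

end Fermat.Agent.LT.Tame

end
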