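import Fermat.Agent.LT.Tame.PlaceMatch
import Fermat.Agent.LT.Descent.TensorMatch

/-!
# Matches at split and tame places, in the form used by the global match
-/

set_option autoImplicit false

noncomputable section

namespace Fermat.Agent.LT.Tame

open IsDedekindDomain IsDedekindDomain.HeightOneSpectrum NumberField Matrix
open Fermat.Agent.LT.Descent Fermat.Agent.LT.Adelic Fermat.Agent.LT.Geom
open scoped MatrixGroups

variable {K K' : Type*} [Field K] [NumberField K] [Field K'] [NumberField K'] [Algebra K K']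
  {σ : K' ≃ₐ[K] K'} {v : HeightOneSpectrum (𝓞 K)} {w : HeightOneSpectrum (𝓞 K')}
  {π : HeightOneSpectrum (𝓞 K') → HeightOneSpectrum (𝓞 K)} (hπ : IsPlaceCover π)
  {V : ∀ u : HeightOneSpectrum (𝓞 K), Subgroup (GL (Fin 2) (u.adicCompletion K))}
  {V' : ∀ u : HeightOneSpectrum (𝓞 K'), Subgroup (GL (Fin 2) (u.adicCompletion K'))}
  (hσ : ∀ u, ∀ g ∈ V' (placePerm σ.toRingEquiv u), GeneralLinearGroup.map
    (completionEquiv σ.toRingEquiv (valuation_apply_placePerm σ.toRingEquiv u)).toRingHom g ∈ V' u)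
  {k : KerFamily V} {k' : KerFamily V'} {γ : PGL(2, K)} {δ : PGL(2, K')}

/-- The fibre of a split place. -/
def IsSplitFibre (σ : K' ≃ₐ[K] K') (π : HeightOneSpectrum (𝓞 K') → HeightOneSpectrum (𝓞 K))
    (v : HeightOneSpectrum (𝓞 K)) (w : HeightOneSpectrum (𝓞 K')) : Prop :=
  ∀ u, π u = v ↔ u = w ∨ u = placePerm σ.toRingEquiv w ∨
    u = placePerm σ.toRingEquiv (placePerm σ.toRingEquiv w)

/-- **A split place matches.** -/
theorem SplitPlace.matchesAtPlace (P : SplitPlace σ v w) (hL : SplitPlace.IsSplitLevel σ v V V')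
    (hp : IsSplitFibre σ π v w) {l₀ l₁ l₂ : LKer PGL(2, v.adicCompletion K) (LocY V v)}
    (hk : k.ker v = l₀.comp (l₁.comp l₂))
    (h₀ : ∀ a c, k'.ker w (P.locEquiv hL a) (P.locEquiv hL c) = l₀ a c)
    (h₁ : ∀ a c, k'.ker _ (P.next.locEquiv hL a) (P.next.locEquiv hL c) = l₁ a c)
    (h₂ : ∀ a c, k'.ker _ (P.next.next.locEquiv hL a) (P.next.next.locEquiv hL c) = l₂ a c)
    (hN : Geom.twNorm (pglSigma σ) δ = pglMap (algebraMap K K') γ) :
    MatchesAtPlace hπ σ hσ k k' γ δ v := by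
  let _ := fibreAction (V' := V') hπ γ v
  exact P.hasFibreMatch_ker hσ k'.ker hL hk h₀ h₁ h₂ hN
    (fun u hu => (hπ.map_placePerm σ u).trans hu) hp (locTorus γ v).subtype (fun _ _ => rfl)
    fun _ _ _ _ => rfl

/-- **A split place with trivial matrices and integral `δ` matches base point to base point.** -/
theorem SplitPlace.baseMatchesAtPlace (P : SplitPlace σ v w)
    (hL : SplitPlace.IsSplitLevel σ v V V') (hp : IsSplitFibre σ π v w)
    (hk : k.ker v = LKer.one _ _) (hk' : ∀ u, π u = v → k'.ker u = LKer.one _ _)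
    (hint : ∀ u, π u = v → pglMap (algebraMap K' (u.adicCompletion K')) δ ∈
      (V' u).map ProjGenLinGroup.mk)
    (hN : Geom.twNorm (pglSigma σ) δ = pglMap (algebraMap K K') γ) :
    BaseMatchesAtPlace hπ σ hσ k k' γ δ v := by
  let _ := fibreAction (V' := V') hπ γ v
  have h := P.hasBaseMatch_one hσ k'.ker hL hN hint hk'
    (fun u hu => (hπ.map_placePerm σ u).trans hu) hp (locTorus γ v).subtype (fun _ _ => rfl)
    fun _ _ _ _ => rfl
  show HasBaseMatch _ (fun y => k.ker v y _) _ _ _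
  rw [hk]
  exact h

/-- **A tame place matches.** -/
theorem TamePlace.matchesAtPlace (P : TamePlace σ v w) (hp : ∀ u, π u = v ↔ u = w)
    {a : IsLocalRing.ResidueField (v.adicCompletionIntegers K)} (ha : ∀ t, t ^ 2 - t ≠ a)
    (hq : Ideal.absNorm v.asIdeal % 3 = 1)
    (hV : (V v).map ProjGenLinGroup.mk = levelOf (v.adicCompletion K) (torus a))
    (hV' : (V' w).map ProjGenLinGroup.mk =
      levelOf (w.adicCompletion K') (torus (IsLocalRing.ResidueField.map P.embInt a)))
    (hk : k.ker v = LKer.one _ _) (hk' : k'.ker w = LKer.one _ _)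
    (h0 : classInv γ ≠ 0) (h4 : classInv γ ≠ 4)
    (hN : Geom.twNorm (pglSigma σ) δ = pglMap (algebraMap K K') γ) :
    MatchesAtPlace hπ σ hσ k k' γ δ v := by
  let _ := fibreAction (V' := V') hπ γ v
  exact P.hasFibreMatch_ker hσ k'.ker ha hq hV hV' hk hk' h0 h4 hN
    (fun u hu => (hπ.map_placePerm σ u).trans hu) hp (locTorus γ v).subtype
    (fun t => Subgroup.mem_centralizer_singleton_iff.1 t.2) (fun _ _ => rfl)
    fun _ _ _ _ => rfl

end Fermat.Agent.LT.Tame

end
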