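import Fermat.Agent.LT.Tame.PlaceMatch
import Fermat.Agent.LT.Descent.LKerLinear

/-!
# Matrices over a split place, read at the place below
-/

set_option autoImplicit false

noncomputable section

namespace Fermat.Agent.LT.Tame.SplitPlace

open IsDedekindDomain IsDedekindDomain.HeightOneSpectrum NumberField Matrix Function
open Fermat.Agent.LT.Descent
open scoped MatrixGroups

variable {K K' : Type*} [Field K] [NumberField K] [Field K'] [NumberField K'] [Algebra K K']
  {σ : K' ≃ₐ[K] K'} {v : HeightOneSpectrum (𝓞 K)} {w : HeightOneSpectrum (𝓞 K')}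
  {V : ∀ u : HeightOneSpectrum (𝓞 K), Subgroup (GL (Fin 2) (u.adicCompletion K))}
  {V' : ∀ u : HeightOneSpectrum (𝓞 K'), Subgroup (GL (Fin 2) (u.adicCompletion K'))}
  (P : SplitPlace σ v w) (hL : IsSplitLevel σ v V V')

/-- A matrix at `w` read at `v`. -/
def pullKer (l : LKer PGL(2, w.adicCompletion K') (LocY V' w)) :
    LKer PGL(2, v.adicCompletion K) (LocY V v) where
  toFun a c := l (P.locEquiv hL a) (P.locEquiv hL c)
  smul' g a c := by rw [locEquiv_smul, locEquiv_smul, l.smul']
  finite_row a := (l.finite_row _).preimage (P.locEquiv hL).injective.injOn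
  finite_col c := (l.finite_col _).preimage (P.locEquiv hL).injective.injOn

theorem pullKer_apply (l : LKer PGL(2, w.adicCompletion K') (LocY V' w)) (a c : LocY V v) :
    P.pullKer hL l a c = l (P.locEquiv hL a) (P.locEquiv hL c) := rfl

theorem carries_pullKer (l : LKer PGL(2, w.adicCompletion K') (LocY V' w)) :
    LKer.Carries (P.locEquiv hL) (P.pullKer hL l) l := fun _ _ => rfl

theorem pullKer_of_carries {l : LKer PGL(2, w.adicCompletion K') (LocY V' w)}
    {f : LKer PGL(2, v.adicCompletion K) (LocY V v)} (h : LKer.Carries (P.locEquiv hL) f l) :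
    P.pullKer hL l = f := LKer.ext' h

theorem pullKer_mul (l m : LKer PGL(2, w.adicCompletion K') (LocY V' w)) :
    P.pullKer hL (l * m) = P.pullKer hL l * P.pullKer hL m :=
  P.pullKer_of_carries hL ((P.carries_pullKer hL l).mul (P.carries_pullKer hL m))

theorem pullKer_one : P.pullKer hL (1 : LKer PGL(2, w.adicCompletion K') (LocY V' w)) = 1 :=
  P.pullKer_of_carries hL LKer.carries_one

end Fermat.Agent.LT.Tame.SplitPlace

end
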