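import Fermat.Agent.LT.Tame.Torus
import Fermat.Agent.CFT.Kummer.Local

/-!
# Tame levels at a place of a number field

An isomorphism of fields matching two places gives an isomorphism of the completions.  An
automorphism of order three acting trivially on the residue field of a place prime to three makes
the nonsplit torus level there a tame level.
-/

set_option autoImplicit false

noncomputable section

namespace Fermat.Agent.LT.Tame

open IsDedekindDomain IsDedekindDomain.HeightOneSpectrum IsLocalRing NumberField WithZero
open UniformSpace
open scoped MatrixGroups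

section PlaceMap

variable {R S : Type*} [CommRing R] [IsDedekindDomain R] [CommRing S] [IsDedekindDomain S]
  {K L : Type*} [Field K] [Algebra R K] [IsFractionRing R K] [Field L] [Algebra S L]
  [IsFractionRing S L] {w : HeightOneSpectrum R} {v : HeightOneSpectrum S}

/-- A ring isomorphism matching two primes respects the valuations of the fraction fields. -/
theorem valuation_apply_of_mem_iff (e : R ≃+* S) (σ : K ≃+* L)
    (hcompat : ∀ r, σ (algebraMap R K r) = algebraMap S L (e r))
    (hmem : ∀ r, e r ∈ v.asIdeal ↔ r ∈ w.asIdeal) (x : K) :
    v.valuation L (σ x) = w.valuation K x := by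
  have hmap : w.asIdeal.map (e : R →+* S) = v.asIdeal := by
    ext s
    rw [← e.apply_symm_apply s, hmem]
    exact Ideal.mem_map_of_equiv e _ |>.trans ⟨fun ⟨r, hr, he⟩ => e.injective he ▸ hr,
      fun h => ⟨_, h, rfl⟩⟩
  have hpow : ∀ (n : ℕ) r, e r ∈ v.asIdeal ^ n ↔ r ∈ w.asIdeal ^ n := fun n r => by
    rw [← hmap, ← Ideal.map_pow]
    exact (Ideal.mem_map_of_equiv e _).trans ⟨fun ⟨r', hr, he⟩ => e.injective he ▸ hr,
      fun h => ⟨_, h, rfl⟩⟩
  have hint : ∀ r : R, v.intValuation (e r) = w.intValuation r := by
    intro r
    rcases eq_or_ne r 0 with rfl | hr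
    · simp
    rw [intValuation_if_neg v (e.map_ne_zero_iff.2 hr), intValuation_if_neg w hr]
    generalize hn : (Associates.mk v.asIdeal).count _ = n
    generalize hm : (Associates.mk w.asIdeal).count _ = m
    have h1 : v.intValuation (e r) = exp (-(n : ℤ)) := by
      rw [intValuation_if_neg v (e.map_ne_zero_iff.2 hr), hn]
    have h2 : w.intValuation r = exp (-(m : ℤ)) := by rw [intValuation_if_neg w hr, hm]
    refine le_antisymm ?_ ?_
    · rw [← h1, intValuation_le_pow_iff_mem, hpow, ← intValuation_le_pow_iff_mem, h2]
    · rw [← h2, intValuation_le_pow_iff_mem, ← hpow, ← intValuation_le_pow_iff_mem, h1]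
  obtain ⟨a, b, -, rfl⟩ := IsFractionRing.div_surjective (A := R) x
  simp only [map_div₀, hcompat, valuation_of_algebraMap, hint]

variable (σ : K ≃+* L) (h : ∀ x, v.valuation L (σ x) = w.valuation K x)

/-- `σ` between the fields with their valuations. -/
def withValMap : WithVal (w.valuation K) →+* WithVal (v.valuation L) :=
  ((WithVal.equiv (v.valuation L)).symm.toRingHom.comp σ.toRingHom).comp
    (WithVal.equiv (w.valuation K)).toRingHom

include h in
theorem valued_withValMap (x : WithVal (w.valuation K)) :
    Valued.v (withValMap (w := w) (v := v) σ x) = Valued.v x := by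
  show v.valuation L (σ (WithVal.equiv _ x)) = w.valuation K (WithVal.equiv _ x)
  exact h _

include h in
theorem continuous_withValMap : Continuous (withValMap (w := w) (v := v) σ) := by
  refine continuous_of_continuousAt_zero _ ?_
  rw [ContinuousAt, map_zero]
  intro s hs
  obtain ⟨γ, hγ⟩ := Valued.mem_nhds_zero.1 hs
  obtain ⟨k, hk⟩ := w.valuation_surjective K (MonoidWithZeroHom.ValueGroup₀.embedding γ.1)
  set y : WithVal (w.valuation K) := (WithVal.equiv _).symm k with hy
  have hyv : Valued.v y = MonoidWithZeroHom.ValueGroup₀.embedding γ.1 := by rw [← hk]; simp [hy]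
  rw [Filter.mem_map, Valued.mem_nhds_zero]
  refine ⟨Units.mk0 ((Valued.v (R := WithVal (w.valuation K))).restrict y) ?_, fun x hx => hγ ?_⟩
  · rw [ne_eq, Valuation.restrict_eq_zero_iff, hyv]
    simp
  · rw [Set.mem_ofPred_eq, Units.val_mk0, Valuation.restrict_lt_iff, hyv] at hx
    rw [Set.mem_ofPred_eq, Valuation.restrict_lt_iff_lt_embedding, valued_withValMap σ h]
    exact hx

/-- The isomorphism of completions. -/
def completionHom : w.adicCompletion K →+* v.adicCompletion L :=
  ((adicCompletion.equiv L v).symm.toRingHom.comp
    (Completion.mapRingHom _ (continuous_withValMap σ h))).comp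
    (adicCompletion.equiv K w).toRingHom

theorem continuous_completionHom : Continuous (completionHom σ h) :=
  (adicCompletion.continuous_ofCompletion L v).comp
    (Completion.continuous_map.comp (adicCompletion.continuous_toCompletion K w))

theorem completionHom_coe (x : K) : completionHom σ h (x : w.adicCompletion K) = (σ x : _) := by
  apply adicCompletion.ext
  show Completion.mapRingHom _ (continuous_withValMap σ h) ((((WithVal.equiv (w.valuation K)).symm x : WithVal (w.valuation K))) :
    Completion (WithVal (w.valuation K))) = _
  rw [Completion.mapRingHom_coe]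
  rfl

theorem completionHom_completionHom (τ : L ≃+* K) (h' : ∀ y, w.valuation K (τ y) = v.valuation L y)
    (hτ : ∀ x, τ (σ x) = x) (x : w.adicCompletion K) :
    completionHom τ h' (completionHom σ h x) = x :=
  congrFun (DenseRange.equalizer (denseRange_algebraMap K w)
    ((continuous_completionHom τ h').comp (continuous_completionHom σ h)) continuous_id
    (funext fun a => by
      rw [Function.comp_apply, Function.comp_apply, algebraMap_adicCompletion, Function.comp_apply,
        Algebra.algebraMap_self, RingHom.id_apply, completionHom_coe, completionHom_coe, hτ]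
      rfl)) x

include h in
theorem valuation_symm_apply (y : L) : w.valuation K (σ.symm y) = v.valuation L y := by
  rw [← h, σ.apply_symm_apply]

/-- The isomorphism of completions. -/
def completionEquiv : w.adicCompletion K ≃+* v.adicCompletion L where
  toFun := completionHom σ h
  invFun := completionHom σ.symm (valuation_symm_apply σ h)
  left_inv := completionHom_completionHom σ h _ _ σ.symm_apply_apply
  right_inv := completionHom_completionHom σ.symm (valuation_symm_apply σ h) σ h σ.apply_symm_apply
  map_mul' := map_mul _
  map_add' := map_add _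

@[simp] theorem completionEquiv_coe (x : K) :
    completionEquiv σ h (x : w.adicCompletion K) = (σ x : _) := completionHom_coe σ h x

theorem continuous_completionEquiv : Continuous (completionEquiv σ h) :=
  continuous_completionHom σ h

theorem completionEquiv_mem_integers {x : w.adicCompletion K}
    (hx : x ∈ w.adicCompletionIntegers K) :
    completionEquiv σ h x ∈ v.adicCompletionIntegers L := by
  have hU : IsOpen {y : w.adicCompletion K | Valued.v y ≤ 1} := Valued.isOpen_integer (w.adicCompletion K)
  have hC : IsClosed {y : v.adicCompletion L | Valued.v y ≤ 1} := Valued.isClosed_integer (v.adicCompletion L)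
  have hsub : {y : w.adicCompletion K | Valued.v y ≤ 1} ⊆
      closure ({y | Valued.v y ≤ 1} ∩ Set.range (algebraMap K (w.adicCompletion K))) :=
    (denseRange_algebraMap K w).open_subset_closure_inter hU
  refine (closure_minimal ?_ (hC.preimage (continuous_completionEquiv σ h))) (hsub hx)
  rintro _ ⟨hy, a, rfl⟩
  simp only [algebraMap_adicCompletion, Function.comp_apply, Algebra.algebraMap_self,
    RingHom.id_apply, Set.mem_ofPred_eq, Set.mem_preimage, completionEquiv_coe,
    adicCompletion.valued_coe] at hy ⊢
  rwa [h]

/-- The isomorphism of the rings of integers of the completions. -/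
def integersHom : w.adicCompletionIntegers K →+* v.adicCompletionIntegers L where
  toFun x := ⟨completionEquiv σ h x, completionEquiv_mem_integers σ h x.2⟩
  map_one' := Subtype.ext (map_one _)
  map_mul' _ _ := Subtype.ext (map_mul _ _ _)
  map_zero' := Subtype.ext (map_zero _)
  map_add' _ _ := Subtype.ext (map_add _ _ _)

@[simp] theorem coe_integersHom (x : w.adicCompletionIntegers K) :
    (integersHom σ h x : v.adicCompletion L) = completionEquiv σ h x := rfl

/-- Units of the integers go to units, and the maximal ideal to the maximal ideal. -/
theorem integersHom_mem_maximal {x : w.adicCompletionIntegers K}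
    (hx : x ∈ maximalIdeal (w.adicCompletionIntegers K)) :
    integersHom σ h x ∈ maximalIdeal (v.adicCompletionIntegers L) := by
  rw [mem_maximalIdeal, mem_nonunits_iff] at hx ⊢
  refine fun hu => hx ?_
  obtain ⟨y, hy⟩ := hu.exists_right_inv
  have hy' := congrArg (completionEquiv σ h).symm (congrArg Subtype.val hy)
  have hmem : (completionEquiv σ h).symm y ∈ w.adicCompletionIntegers K :=
    completionEquiv_mem_integers σ.symm (valuation_symm_apply σ h) y.2
  exact IsUnit.of_mul_eq_one ⟨_, hmem⟩ (Subtype.ext (by simpa using hy'))

end PlaceMap

section NumberField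

variable {K : Type*} [Field K] [NumberField K] (v : HeightOneSpectrum (𝓞 K))

instance henselianRing_adicCompletionIntegers :
    HenselianRing (v.adicCompletionIntegers K) (maximalIdeal (v.adicCompletionIntegers K)) :=
  haveI := CFT.Kummer.kl_isAdicComplete v
  IsAdicComplete.henselianRing _ _

theorem isUnit_three (h3 : (3 : 𝓞 K) ∉ v.asIdeal) : IsUnit (3 : v.adicCompletionIntegers K) := by
  by_contra hc
  refine h3 ?_
  rw [← CFT.Kummer.klRed_ker v, RingHom.mem_ker, CFT.Kummer.klRed, RingHom.comp_apply,
    map_ofNat (algebraMap (𝓞 K) (v.adicCompletionIntegers K)), residue_eq_zero_iff]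
  exact mem_maximalIdeal _ |>.2 hc

instance finite_residueField : Finite (ResidueField (v.adicCompletionIntegers K)) :=
  CFT.Kummer.kl_finite_residueField v

variable (σ : K ≃+* K)
  (hres : ∀ r : 𝓞 K, RingOfIntegers.mapRingEquiv σ r - r ∈ v.asIdeal)

include hres in
/-- An automorphism trivial on the residue field fixes the valuation. -/
theorem valuation_apply_of_residue_trivial (x : K) : v.valuation K (σ x) = v.valuation K x := by
  refine valuation_apply_of_mem_iff (RingOfIntegers.mapRingEquiv σ) σ (fun r => rfl) (fun r => ?_) x
  exact ⟨fun hr => by simpa using v.asIdeal.sub_mem hr (hres r),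
    fun hr => by simpa using v.asIdeal.add_mem (hres r) hr⟩

/-- The automorphism of the completion. -/
abbrev placeAut : v.adicCompletion K ≃+* v.adicCompletion K :=
  completionEquiv σ (valuation_apply_of_residue_trivial v σ hres)

/-- The automorphism of the integers of the completion. -/
abbrev placeAutInt : v.adicCompletionIntegers K →+* v.adicCompletionIntegers K :=
  integersHom σ (valuation_apply_of_residue_trivial v σ hres)

theorem residue_placeAutInt (x : v.adicCompletionIntegers K) :
    residue _ (placeAutInt v σ hres x) = residue _ x := by
  obtain ⟨r, hr⟩ := CFT.Kummer.klRed_surjective v (residue _ x)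
  set a := algebraMap (𝓞 K) (v.adicCompletionIntegers K) r with ha
  have hm : x - a ∈ maximalIdeal _ := by
    rw [← residue_eq_zero_iff, map_sub, ← hr, ha, CFT.Kummer.klRed, RingHom.comp_apply, sub_self]
  have hσa : placeAutInt v σ hres a =
      algebraMap (𝓞 K) (v.adicCompletionIntegers K) (RingOfIntegers.mapRingEquiv σ r) := by
    refine Subtype.ext ?_
    rw [coe_integersHom, ha, algebraMap_adicCompletionIntegers_apply,
      algebraMap_adicCompletionIntegers_apply, completionEquiv_coe]
    rfl
  have h1 : residue _ (placeAutInt v σ hres x) = residue _ (placeAutInt v σ hres a) := by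
    rw [← sub_eq_zero, ← map_sub, ← map_sub, residue_eq_zero_iff]
    exact integersHom_mem_maximal _ _ hm
  rw [h1, hσa, ← hr]
  change CFT.Kummer.klRed v _ = CFT.Kummer.klRed v r
  rw [← sub_eq_zero, ← map_sub, ← RingHom.mem_ker, CFT.Kummer.klRed_ker]
  exact hres r

theorem placeAut_cube (hord : ∀ x, σ (σ (σ x)) = x) (x : v.adicCompletion K) :
    placeAut v σ hres (placeAut v σ hres (placeAut v σ hres x)) = x :=
  congrFun (DenseRange.equalizer (denseRange_algebraMap K v)
    ((continuous_completionEquiv _ _).comp ((continuous_completionEquiv _ _).comp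
      (continuous_completionEquiv _ _))) continuous_id
    (funext fun a => by
      rw [Function.comp_apply, Function.comp_apply, Function.comp_apply, algebraMap_adicCompletion,
        Function.comp_apply, Algebra.algebraMap_self, RingHom.id_apply, completionEquiv_coe,
        completionEquiv_coe, completionEquiv_coe, hord]
      rfl)) x

/-- **Tame places.** The nonsplit torus level at a place prime to three where an automorphism of
order three acts trivially on the residue field of cardinality `1` mod `3`. -/
theorem isTameLevel_torus_place (h3 : (3 : 𝓞 K) ∉ v.asIdeal) (hq : Ideal.absNorm v.asIdeal % 3 = 1)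
    (hord : ∀ x, σ (σ (σ x)) = x) {a : ResidueField (v.adicCompletionIntegers K)}
    (ha : ∀ t, t ^ 2 - t ≠ a) :
    IsTameLevel (Geom.pglEquiv (placeAut v σ hres)) (levelOf (v.adicCompletion K) (torus a)) :=
  isTameLevel_torus ha (v.adicCompletion K) (by rwa [CFT.Kummer.kl_card_residueField])
    (placeAut v σ hres) (placeAutInt v σ hres) (fun _ => rfl) (residue_placeAutInt v σ hres)
    (placeAut_cube v σ hres hord) (isUnit_three v h3)

end NumberField

end Fermat.Agent.LT.Tame

end
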