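import Fermat.Agent.LT.Tame.PlaceMatch
import Fermat.Agent.LT.Descent.Levels

/-!
# The descent levels at split places and under the twist

An integral isomorphism of completions carries the local levels of one descent level to those of
another with the same local data.
-/

set_option autoImplicit false

noncomputable section

namespace Fermat.Agent.LT.Tame

open IsDedekindDomain IsDedekindDomain.HeightOneSpectrum NumberField Matrix IsLocalRing
open Fermat.Agent.LT.Descent Fermat.Agent.LT.Adelic Fermat.Agent.LT.Aleph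
open scoped MatrixGroups

theorem torusMat_map {A B : Type*} [Field A] [Field B] (f : A →+* B) (a x y : A) :
    (torusMat a x y).map f = torusMat (f a) (f x) (f y) := by
  ext i j
  fin_cases i <;> fin_cases j <;> simp [torusMat]

section Transport

variable {K L : Type*} [Field K] [NumberField K] [Field L] [NumberField L]
  {v : HeightOneSpectrum (𝓞 K)} {u : HeightOneSpectrum (𝓞 L)}

/-- Integrality is the same on both sides of a homomorphism of completions. -/
def IsIntegralMap (e : v.adicCompletion K →+* u.adicCompletion L) : Prop :=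
  ∀ x, Valued.v (e x) ≤ 1 ↔ Valued.v x ≤ 1

variable {e : v.adicCompletion K →+* u.adicCompletion L} (he : IsIntegralMap e)
include he

theorem IsIntegralMap.le_iff (x y : v.adicCompletion K) :
    Valued.v (e x) ≤ Valued.v (e y) ↔ Valued.v x ≤ Valued.v y := by
  rcases eq_or_ne y 0 with rfl | hy
  · simp [map_eq_zero]
  · have h0 : 0 < Valued.v y := zero_lt_iff.2 ((Valuation.ne_zero_iff _).2 hy)
    have h0' : 0 < Valued.v (e y) :=
      zero_lt_iff.2 ((Valuation.ne_zero_iff _).2 ((map_ne_zero e).2 hy))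
    rw [← div_le_one₀ h0, ← div_le_one₀ h0', ← map_div₀, ← map_div₀, ← map_div₀, he]

theorem IsIntegralMap.lt_one_iff (x : v.adicCompletion K) :
    Valued.v (e x) < 1 ↔ Valued.v x < 1 := by
  have h := not_congr (he.le_iff 1 x)
  rwa [map_one, map_one, map_one, not_le, not_le] at h

theorem IsIntegralMap.isIntLocal_iff (γ : GL (Fin 2) (v.adicCompletion K)) :
    IsIntLocal (GeneralLinearGroup.map e γ) ↔ IsIntLocal γ := by
  refine forall_congr' fun i => forall_congr' fun j => and_congr (he _) ?_
  rw [← map_inv]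
  exact he _

theorem IsIntegralMap.mem_jLevel_iff (t : v.adicCompletion K)
    (γ : GL (Fin 2) (v.adicCompletion K)) :
    GeneralLinearGroup.map e γ ∈ jLevel u (Valued.v (e t)) ↔ γ ∈ jLevel v (Valued.v t) := by
  have key : ∀ A : Matrix (Fin 2) (Fin 2) (v.adicCompletion K),
      IsJMat u (Valued.v (e t)) (A.map e) ↔ IsJMat v (Valued.v t) A := fun A => by
    simp only [IsJMat, Matrix.map_apply]
    rw [he.le_iff, he.le_iff, show e (A 1 1) - 1 = e (A 1 1 - 1) by rw [map_sub, map_one],
      he.le_iff]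
  rw [mem_jLevel, mem_jLevel, he.isIntLocal_iff, ← map_inv]
  exact and_congr Iff.rfl (and_congr (key _) (key _))

theorem IsIntegralMap.mem_iwahori_iff (γ : GL (Fin 2) (v.adicCompletion K)) :
    GeneralLinearGroup.map e γ ∈ iwahori u ↔ γ ∈ iwahori v := by
  rw [mem_iwahori, mem_iwahori, he.isIntLocal_iff, ← map_inv]
  exact and_congr Iff.rfl (and_congr (he.lt_one_iff _) (he.lt_one_iff _))

variable {D : LevelData K} {D' : LevelData L}

/-- Away from the tame places the local levels correspond. -/
theorem IsIntegralMap.mem_loc_iff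
    (h3 : (3 : 𝓞 L) ∈ u.asIdeal ↔ (3 : 𝓞 K) ∈ v.asIdeal) (hm : D'.m = D.m)
    (htame : (3 : 𝓞 K) ∉ v.asIdeal → v ∉ D.tame)
    (htame' : (3 : 𝓞 L) ∉ u.asIdeal → u ∉ D'.tame) (haux : u ∈ D'.aux ↔ v ∈ D.aux)
    (γ : GL (Fin 2) (v.adicCompletion K)) :
    GeneralLinearGroup.map e γ ∈ D'.loc u ↔ γ ∈ D.loc v := by
  by_cases h : (3 : 𝓞 K) ∈ v.asIdeal
  · rw [D.loc_of_three h, D'.loc_of_three (h3.2 h), hm]
    have hv : v.intValuation ((3 : 𝓞 K) ^ D.m) =
        Valued.v (((3 : v.adicCompletion K)) ^ D.m) := by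
      have hc : ((algebraMap (𝓞 K) K ((3 : 𝓞 K) ^ D.m) : K) : v.adicCompletion K) =
          (3 : v.adicCompletion K) ^ D.m := by
        rw [← FinitePlace.embedding_apply, map_pow, map_pow, map_ofNat (algebraMap (𝓞 K) K) 3,
          map_ofNat (FinitePlace.embedding v) 3]
      rw [← hc, valuedAdicCompletion_eq_valuation', valuation_of_algebraMap]
    have hu : u.intValuation ((3 : 𝓞 L) ^ D.m) =
        Valued.v (((3 : u.adicCompletion L)) ^ D.m) := by
      have hc : ((algebraMap (𝓞 L) L ((3 : 𝓞 L) ^ D.m) : L) : u.adicCompletion L) =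
          (3 : u.adicCompletion L) ^ D.m := by
        rw [← FinitePlace.embedding_apply, map_pow, map_pow, map_ofNat (algebraMap (𝓞 L) L) 3,
          map_ofNat (FinitePlace.embedding u) 3]
      rw [← hc, valuedAdicCompletion_eq_valuation', valuation_of_algebraMap]
    rw [hv, hu, show (3 : u.adicCompletion L) ^ D.m = e ((3 : v.adicCompletion K) ^ D.m) by
      rw [map_pow, map_ofNat]]
    exact he.mem_jLevel_iff _ γ
  · by_cases ha : v ∈ D.aux
    · rw [D.loc_of_aux h (htame h) ha, D'.loc_of_aux (mt h3.1 h) (htame' (mt h3.1 h)) (haux.2 ha)]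
      exact he.mem_iwahori_iff γ
    · rw [D.loc_of_good h (htame h) ha,
        D'.loc_of_good (mt h3.1 h) (htame' (mt h3.1 h)) (mt haux.1 ha),
        mem_localFull, mem_localFull]
      exact he.isIntLocal_iff γ

omit he in
/-- The torus levels are carried forward. -/
theorem map_mem_torusLevel (e₀ : v.adicCompletionIntegers K →+* u.adicCompletionIntegers L)
    [IsLocalHom e₀]
    (h₀ : ∀ x, ((e₀ x : u.adicCompletionIntegers L) : u.adicCompletion L) = e x)
    (a : ResidueField (v.adicCompletionIntegers K)) {γ : GL (Fin 2) (v.adicCompletion K)}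
    (hγ : γ ∈ torusLevel v a) :
    GeneralLinearGroup.map e γ ∈ torusLevel u (ResidueField.map e₀ a) := by
  obtain ⟨M, hM, rfl⟩ := hγ
  refine ⟨GeneralLinearGroup.map e₀ M, ?_, Units.ext (Matrix.ext fun i j => h₀ _)⟩
  rw [SetLike.mem_coe, Subgroup.mem_comap, mem_torus] at hM ⊢
  obtain ⟨x, y, hxy⟩ := hM
  refine ⟨ResidueField.map e₀ x, ResidueField.map e₀ y, ?_⟩
  have hcomm : ((GeneralLinearGroup.map (residue (u.adicCompletionIntegers L))
      (GeneralLinearGroup.map e₀ M) : GL (Fin 2) _) : Matrix (Fin 2) (Fin 2) _) =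
      (torusMat a x y).map (ResidueField.map e₀) := by
    rw [← hxy]
    refine Matrix.ext fun i j => ?_
    exact (ResidueField.map_residue e₀ _).symm
  rw [hcomm, torusMat_map]

end Transport

variable {K K' : Type*} [Field K] [NumberField K] [Field K'] [NumberField K'] [Algebra K K']
  {σ : K' ≃ₐ[K] K'} {v : HeightOneSpectrum (𝓞 K)}

theorem SplitPlace.isIntegralMap_emb {w : HeightOneSpectrum (𝓞 K')} (P : SplitPlace σ v w) :
    IsIntegralMap P.emb := fun x => P.emb_mem_integers_iff x

/-- The descent levels over a split place. -/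
theorem SplitPlace.isSplitLevel_loc (D : LevelData K) (D' : LevelData K') (hm : D'.m = D.m)
    (ht : (3 : 𝓞 K) ∉ v.asIdeal → v ∉ D.tame)
    (ht' : ∀ u, SplitPlace σ v u → (3 : 𝓞 K') ∉ u.asIdeal → u ∉ D'.tame)
    (haux : ∀ u, SplitPlace σ v u → (u ∈ D'.aux ↔ v ∈ D.aux)) :
    SplitPlace.IsSplitLevel σ v D.loc D'.loc := by
  refine SplitPlace.isSplitLevel_of_map fun u Q => ?_
  have h3 : (3 : 𝓞 K') ∈ u.asIdeal ↔ (3 : 𝓞 K) ∈ v.asIdeal := by
    rw [← Q.above, map_ofNat]
  have key := Q.isIntegralMap_emb.mem_loc_iff h3 hm ht (ht' u Q) (haux u Q)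
  refine le_antisymm (fun γ hγ => ?_) (Subgroup.map_le_iff_le_comap.2 fun γ hγ => (key γ).2 hγ)
  have hback : GeneralLinearGroup.map Q.emb
      (GeneralLinearGroup.map Q.embEquiv.symm.toRingHom γ) = γ :=
    Units.ext (Matrix.ext fun i j => Q.embEquiv.apply_symm_apply _)
  exact ⟨_, (key _).1 (by rwa [hback]), hback⟩

instance isLocalHom_integersHom {L : Type*} [Field L] [NumberField L]
    {v : HeightOneSpectrum (𝓞 K)} {u : HeightOneSpectrum (𝓞 L)} (τ : K ≃+* L)
    (h : ∀ x, u.valuation L (τ x) = v.valuation K x) : IsLocalHom (integersHom τ h) where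
  map_nonunit x hx := by
    by_contra hc
    exact (mem_maximalIdeal _).1 (integersHom_mem_maximal τ h ((mem_maximalIdeal _).2 hc)) hx

/-- The twist carries the descent levels upstairs to each other. -/
theorem map_completionEquiv_mem_loc (σ : K' ≃+* K') (D' : LevelData K')
    (ht : ∀ u, placePerm σ u ∈ D'.tame ↔ u ∈ D'.tame)
    (haux : ∀ u, placePerm σ u ∈ D'.aux ↔ u ∈ D'.aux)
    (ha : ∀ u ∈ D'.tame, D'.a u =
      ResidueField.map (integersHom σ (valuation_apply_placePerm σ u)) (D'.a (placePerm σ u)))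
    (u : HeightOneSpectrum (𝓞 K')) (g : GL (Fin 2) ((placePerm σ u).adicCompletion K'))
    (hg : g ∈ D'.loc (placePerm σ u)) :
    GeneralLinearGroup.map (completionEquiv σ (valuation_apply_placePerm σ u)).toRingHom g ∈
      D'.loc u := by
  set h := valuation_apply_placePerm σ u
  have h3 : (3 : 𝓞 K') ∈ u.asIdeal ↔ (3 : 𝓞 K') ∈ (placePerm σ u).asIdeal := by
    rw [mem_placePerm, map_ofNat]
  have he : IsIntegralMap (completionEquiv σ h).toRingHom := fun x =>
    ⟨fun hx => by
      have := completionEquiv_mem_integers σ.symm (valuation_symm_apply σ h) (x := completionEquiv σ h x) hx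
      rwa [show completionEquiv σ.symm (valuation_symm_apply σ h) (completionEquiv σ h x) = x from
        (completionEquiv σ h).symm_apply_apply x] at this,
      fun hx => completionEquiv_mem_integers σ h hx⟩
  by_cases h3' : (3 : 𝓞 K') ∈ u.asIdeal
  · exact (he.mem_loc_iff h3 rfl (fun hn => absurd (h3.1 h3') hn)
      (fun hn => absurd h3' hn) (haux u).symm g).2 hg
  · by_cases htu : u ∈ D'.tame
    · rw [D'.loc_of_tame h3' htu, ha u htu]
      rw [D'.loc_of_tame (mt h3.2 h3') ((ht u).2 htu)] at hg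
      exact map_mem_torusLevel (integersHom σ h) (fun x => rfl) _ hg
    · exact (he.mem_loc_iff h3 rfl (fun _ => mt (ht u).1 htu) (fun _ => htu) (haux u).symm g).2 hg

/-- Descent levels are local levels. -/
theorem isLocalLevel_loc (D : LevelData K) : IsLocalLevel D.loc := ⟨D.loc_le, D.eventually_full⟩

end Fermat.Agent.LT.Tame

end
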