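import Fermat.Agent.LT.Tame.Torus
import Mathlib.RingTheory.Valuation.ValuationRing

/-!
# Transitivity of the torus level on the orbits of the maximal compact

Over a valuation ring every element of `PGL₂` of the fraction field has, up to the maximal compact,
a lower triangular stabiliser; hence the torus level has the same orbits on cosets as `PGL₂(A)`.
-/

set_option autoImplicit false

noncomputable section

namespace Fermat.Agent.LT.Tame

open Matrix IsLocalRing
open scoped MatrixGroups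

variable {A : Type*} [CommRing A] [IsDomain A] [ValuationRing A]
  (L : Type*) [Field L] [Algebra A L] [IsFractionRing A L]

/-- The maximal compact level. -/
def fullLevel : Subgroup PGL(2, L) := levelOf (A := A) L ⊤

theorem toPGL_mem_fullLevel (M : GL (Fin 2) A) : toPGL L M ∈ fullLevel (A := A) L :=
  (mem_levelOf L).2 ⟨M, Subgroup.mem_top _, rfl⟩

/-- A matrix over `L` can be scaled to be integral with some entry equal to one. -/
theorem exists_scale (G : GL (Fin 2) L) :
    ∃ (c : L) (i₀ k₀ : Fin 2) (M : Matrix (Fin 2) (Fin 2) A), c ≠ 0 ∧ M i₀ k₀ = 1 ∧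
      M.map (algebraMap A L) = c • (G : Matrix (Fin 2) (Fin 2) L) := by
  set v := ValuationRing.valuation A L
  obtain ⟨⟨i₀, k₀⟩, -, hmax⟩ := Finset.exists_max_image (Finset.univ : Finset (Fin 2 × Fin 2))
    (fun p => v ((G : Matrix (Fin 2) (Fin 2) L) p.1 p.2)) Finset.univ_nonempty
  set m := (G : Matrix (Fin 2) (Fin 2) L) i₀ k₀
  have hm : m ≠ 0 := fun h0 => G.isUnit.ne_zero (by
    ext i k
    have := hmax (i, k) (Finset.mem_univ _)
    rw [show v m = 0 by rw [h0, map_zero], le_zero_iff, map_eq_zero] at this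
    simpa using this)
  have hint : ∀ i k, ∃ a, algebraMap A L a = m⁻¹ * (G : Matrix (Fin 2) (Fin 2) L) i k := by
    intro i k
    rw [← ValuationRing.mem_integer_iff, Valuation.mem_integer_iff, map_mul, map_inv₀,
      inv_mul_le_one₀ (zero_lt_iff.2 ((Valuation.ne_zero_iff _).2 hm))]
    exact hmax (i, k) (Finset.mem_univ _)
  choose M hM using hint
  refine ⟨m⁻¹, i₀, k₀, Matrix.of M, inv_ne_zero hm,
    IsFractionRing.injective A L (by rw [Matrix.of_apply, hM, map_one, inv_mul_cancel₀ hm]), ?_⟩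
  ext i k
  simp [hM]

/-- The permutation matrix sending the second basis vector to the `i`-th. -/
def toSecond : Fin 2 → GL (Fin 2) A
  | 0 => ⟨!![0, 1; 1, 0], !![0, 1; 1, 0], by simp [Matrix.one_fin_two], by simp [Matrix.one_fin_two]⟩
  | 1 => 1

theorem toSecond_mul_self (i : Fin 2) : toSecond (A := A) i * toSecond i = 1 := by
  fin_cases i
  · exact Units.ext (by simp [toSecond, Matrix.one_fin_two])
  · exact one_mul _

/-- Every coset has, up to the maximal compact, a lower triangular stabiliser. -/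
theorem exists_lower_stab (g : PGL(2, L)) :
    ∃ k : GL (Fin 2) A, ∀ s : GL (Fin 2) A, (s : Matrix (Fin 2) (Fin 2) A) 0 1 = 0 →
      g⁻¹ * toPGL L (k * s * k⁻¹) * g ∈ fullLevel (A := A) L := by
  induction g using ProjGenLinGroup.induction_on with | mk G =>
  obtain ⟨c, i₀, k₀, M, hc, hM1, hMG⟩ := exists_scale (A := A) L G
  set N : Matrix (Fin 2) (Fin 2) A :=
    (toSecond i₀ : GL (Fin 2) A).val * M * (toSecond k₀ : GL (Fin 2) A).val with hN
  have hN11 : N 1 1 = 1 := by
    rw [hN]
    fin_cases i₀ <;> fin_cases k₀ <;>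
      simpa [toSecond, Matrix.mul_apply, Matrix.vecMul, dotProduct, Fin.sum_univ_two] using hM1
  set b := N 0 1
  set e := N 1 0
  set d := N 0 0 - b * e with hd
  have hU : IsUnit (det !![(1 : A), b; 0, 1]) := by simp [det_fin_two]
  have hV : IsUnit (det !![(1 : A), 0; e, 1]) := by simp [det_fin_two]
  set U : GL (Fin 2) A := GeneralLinearGroup.mk'' _ hU
  set V : GL (Fin 2) A := GeneralLinearGroup.mk'' _ hV
  have hUval : (U : Matrix (Fin 2) (Fin 2) A) = !![1, b; 0, 1] := rfl
  have hVval : (V : Matrix (Fin 2) (Fin 2) A) = !![1, 0; e, 1] := rfl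
  have hfac : M = (toSecond i₀ * U : GL (Fin 2) A).val * !![d, 0; 0, 1] *
      (V * toSecond k₀ : GL (Fin 2) A).val := by
    have hN' : N = (U : Matrix (Fin 2) (Fin 2) A) * !![d, 0; 0, 1] * (V : Matrix (Fin 2) (Fin 2) A) := by
      rw [hUval, hVval]
      ext i j
      fin_cases i <;> fin_cases j <;> simp [b, e, hd, hN11]
    have h1 : M = (toSecond i₀ : GL (Fin 2) A).val * N * (toSecond k₀ : GL (Fin 2) A).val := by
      rw [hN, ← mul_assoc, ← mul_assoc, ← Units.val_mul, toSecond_mul_self, Units.val_one, one_mul,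
        mul_assoc, ← Units.val_mul, toSecond_mul_self, Units.val_one, mul_one]
    rw [h1, hN']
    simp only [Units.val_mul, mul_assoc]
  have hd0 : d ≠ 0 := by
    intro h0
    have h1 := congrArg det hMG
    rw [det_smul, ← RingHom.mapMatrix_apply, ← RingHom.map_det, hfac, det_mul, det_mul, h0] at h1
    simp [det_fin_two] at h1
    rcases h1 with h1 | h1
    · exact hc h1
    · exact ((Matrix.isUnit_iff_isUnit_det _).1 G.isUnit).ne_zero (by rw [det_fin_two]; linear_combination h1)
  have hdL : algebraMap A L d ≠ 0 := fun h =>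
    hd0 (IsFractionRing.injective A L (by rw [h, map_zero]))
  set D : GL (Fin 2) L := GeneralLinearGroup.mkOfDetNeZero !![algebraMap A L d, 0; 0, 1]
    (by simpa [det_fin_two] using hdL) with hD
  set k : GL (Fin 2) A := toSecond i₀ * U
  set k' : GL (Fin 2) A := V * toSecond k₀
  have hg : ProjGenLinGroup.mk G = toPGL L k * ProjGenLinGroup.mk D * toPGL L k' := by
    rw [toPGL, MonoidHom.comp_apply, MonoidHom.comp_apply, ← map_mul, ← map_mul, mk_eq_mk_iff_smul]
    refine ⟨Units.mk0 c hc, ?_⟩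
    rw [Units.val_mk0, ← hMG, hfac, ← RingHom.mapMatrix_apply, Units.val_mul, Units.val_mul,
      coe_map_algebraMap, coe_map_algebraMap, map_mul (RingHom.mapMatrix _),
      map_mul (RingHom.mapMatrix _)]
    congr 2
    ext i j
    fin_cases i <;> fin_cases j <;> simp [hD]
  refine ⟨k, fun s hs => ?_⟩
  have hS : IsUnit (det !![(s : Matrix (Fin 2) (Fin 2) A) 0 0, 0;
      (s : Matrix (Fin 2) (Fin 2) A) 1 0 * d, (s : Matrix (Fin 2) (Fin 2) A) 1 1]) := by
    have := (Matrix.isUnit_iff_isUnit_det _).1 s.isUnit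
    rw [det_fin_two, hs] at this
    simpa [det_fin_two] using this
  have hconj : (ProjGenLinGroup.mk D)⁻¹ * toPGL L s * ProjGenLinGroup.mk D =
      toPGL L (GeneralLinearGroup.mk'' _ hS) := by
    rw [mul_assoc, inv_mul_eq_iff_eq_mul, toPGL, MonoidHom.comp_apply, MonoidHom.comp_apply,
      ← map_mul, ← map_mul, mk_eq_mk_iff_smul]
    refine ⟨1, ?_⟩
    ext i j
    fin_cases i <;> fin_cases j <;> simp [hD, hs, Matrix.mul_apply, Fin.sum_univ_two, mul_comm]
  have hcalc : (toPGL L k * ProjGenLinGroup.mk D * toPGL L k')⁻¹ * toPGL L (k * s * k⁻¹) *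
      (toPGL L k * ProjGenLinGroup.mk D * toPGL L k') =
      (toPGL L k')⁻¹ * ((ProjGenLinGroup.mk D)⁻¹ * toPGL L s * ProjGenLinGroup.mk D) *
        toPGL L k' := by
    simp only [map_mul, map_inv]; group
  rw [hg, hcalc, hconj]
  exact mul_mem (mul_mem (inv_mem (toPGL_mem_fullLevel L k')) (toPGL_mem_fullLevel L _))
    (toPGL_mem_fullLevel L k')

theorem levelOf_le_fullLevel (H : Subgroup (GL (Fin 2) (ResidueField A))) :
    levelOf L H ≤ fullLevel (A := A) L := fun x hx => by
  obtain ⟨M, -, rfl⟩ := (mem_levelOf L).1 hx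
  exact toPGL_mem_fullLevel L M

/-- Lower triangular elements of `GL₂(A)`. -/
def lowerSubgroup (A : Type*) [CommRing A] : Subgroup (GL (Fin 2) A) where
  carrier := {s | (s : Matrix (Fin 2) (Fin 2) A) 0 1 = 0}
  one_mem' := by simp
  mul_mem' {s t} hs ht := by
    simp only [Set.mem_ofPred_eq] at hs ht ⊢
    simp [Matrix.mul_apply, Fin.sum_univ_two, hs, ht]
  inv_mem' {s} hs := by
    simp only [Set.mem_ofPred_eq] at hs ⊢
    rw [Matrix.coe_units_inv, Matrix.inv_def, adjugate_fin_two]
    simp [hs]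

/-- **Transitivity.** The torus level has the orbits of the maximal compact on cosets. -/
theorem exists_torus_coset_eq {a : ResidueField A} (ha : ∀ t, t ^ 2 - t ≠ a) (g k : PGL(2, L))
    (hk : k ∈ fullLevel (A := A) L) :
    ∃ h ∈ levelOf L (torus a), (h * g)⁻¹ * (k * g) ∈ fullLevel (A := A) L := by
  obtain ⟨K, hK⟩ := exists_lower_stab (A := A) L g
  obtain ⟨M, -, rfl⟩ := (mem_levelOf L).1 hk
  obtain ⟨h₁, s₁, hh₁, hs₁, h1⟩ := exists_torus_mul_lower ha (M * K)
  obtain ⟨h₂, s₂, hh₂, hs₂, h2⟩ := exists_torus_mul_lower ha K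
  refine ⟨toPGL L (h₁ * h₂⁻¹), (mem_levelOf L).2
    ⟨_, by rw [map_mul, map_inv]; exact mul_mem hh₁ (inv_mem hh₂), rfl⟩, ?_⟩
  have hs : s₂⁻¹ * s₁ ∈ lowerSubgroup A := mul_mem (inv_mem (show s₂ ∈ lowerSubgroup A from hs₂)) hs₁
  have hmem := hK _ hs
  have hM : K * (s₂⁻¹ * s₁) * K⁻¹ = (h₁ * h₂⁻¹)⁻¹ * M := by
    rw [h2, show M = h₁ * s₁ * K⁻¹ by rw [← h1, mul_inv_cancel_right], h2]
    group
  rw [hM, map_mul, map_inv] at hmem
  convert hmem using 1
  group

end Fermat.Agent.LT.Tame

end
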