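import Mathlib.GroupTheory.GroupAction.Quotient
import Mathlib.Algebra.BigOperators.Finprod
import Mathlib.Algebra.BigOperators.Ring.Finset
import Mathlib.Algebra.Group.Prod
import Mathlib.Algebra.Field.Defs
import Mathlib.Tactic.Group

/-!
# Matching at completely split places

On `G × G × G` with the cyclic shift, the twisted classes are the classes of `d₁ d₂ d₃`, the
twisted centralisers are the centralisers, and the fixed-coset sum of `f₁ ⊗ f₂ ⊗ f₃` is that of
the convolution `f₁ * f₂ * f₃`.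
-/

set_option autoImplicit false
set_option linter.unusedSectionVars false

namespace Fermat.Agent.LT.Tame

variable {G : Type*} [Group G]

/-- The cyclic shift of `G × G × G`. -/
def shift3 (G : Type*) [Group G] : (G × G × G) ≃* (G × G × G) where
  toFun x := (x.2.1, x.2.2, x.1)
  invFun x := (x.2.2, x.1, x.2.1)
  left_inv _ := rfl
  right_inv _ := rfl
  map_mul' _ _ := rfl

theorem shift3_apply (x : G × G × G) : shift3 G x = (x.2.1, x.2.2, x.1) := rfl

theorem shift3_order (x : G × G × G) : shift3 G (shift3 G (shift3 G x)) = x := rfl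

/-- The product of the coordinates. -/
def prod3 (d : G × G × G) : G := d.1 * d.2.1 * d.2.2

theorem prod3_twConj (d x : G × G × G) :
    prod3 (x⁻¹ * d * shift3 G x) = x.1⁻¹ * prod3 d * x.1 := by
  simp only [prod3, shift3_apply, Prod.fst_mul, Prod.snd_mul, Prod.fst_inv, Prod.snd_inv]
  group

/-- Twisted classes of triples are classes of products. -/
theorem exists_shift_twConj_iff (d d' : G × G × G) :
    (∃ x, x⁻¹ * d * shift3 G x = d') ↔ ∃ a, a⁻¹ * prod3 d * a = prod3 d' := by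
  constructor
  · rintro ⟨x, rfl⟩
    exact ⟨x.1, (prod3_twConj d x).symm⟩
  · rintro ⟨a, ha⟩
    refine ⟨(a, d.1⁻¹ * a * d'.1, d.2.1⁻¹ * d.1⁻¹ * a * d'.1 * d'.2.1), ?_⟩
    have h3 : d'.2.2 = (d'.1 * d'.2.1)⁻¹ * (a⁻¹ * prod3 d * a) := by
      rw [ha]; simp [prod3, mul_assoc]
    simp only [shift3_apply, Prod.ext_iff, Prod.fst_mul, Prod.snd_mul, Prod.fst_inv, Prod.snd_inv]
    refine ⟨by group, by group, ?_⟩
    rw [h3, prod3]
    group

/-- The twisted centraliser of a triple is the centraliser of the product. -/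
def shiftCentralizerEquiv (d : G × G × G) :
    {x : G × G × G // x⁻¹ * d * shift3 G x = d} ≃ {a : G // a⁻¹ * prod3 d * a = prod3 d} where
  toFun x := ⟨x.1.1, by rw [← prod3_twConj, x.2]⟩
  invFun a := ⟨(a.1, d.1⁻¹ * a.1 * d.1, (d.1 * d.2.1)⁻¹ * a.1 * (d.1 * d.2.1)), by
    have h := a.2
    simp only [shift3_apply, Prod.ext_iff, Prod.fst_mul, Prod.snd_mul, Prod.fst_inv, Prod.snd_inv]
    refine ⟨by group, by group, ?_⟩
    calc _ = (d.1 * d.2.1)⁻¹ * ((a.1 : G)⁻¹ * prod3 d * a.1) := by simp only [prod3]; group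
      _ = d.2.2 := by rw [h, prod3, inv_mul_cancel_left]⟩
  left_inv x := by
    have h := x.2
    simp only [shift3_apply, Prod.ext_iff, Prod.fst_mul, Prod.snd_mul, Prod.fst_inv, Prod.snd_inv]
      at h
    apply Subtype.ext
    have h2 : x.1.2.1 = d.1⁻¹ * x.1.1 * d.1 := by
      calc x.1.2.1 = d.1⁻¹ * x.1.1 * (x.1.1⁻¹ * d.1 * x.1.2.1) := by group
        _ = _ := by rw [h.1]
    have h3 : x.1.2.2 = (d.1 * d.2.1)⁻¹ * x.1.1 * (d.1 * d.2.1) := by
      calc x.1.2.2 = d.2.1⁻¹ * x.1.2.1 * (x.1.2.1⁻¹ * d.2.1 * x.1.2.2) := by group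
        _ = _ := by rw [h.2.1, h2]; group
    simp only [Prod.ext_iff]
    exact ⟨trivial, h2.symm, h3.symm⟩
  right_inv a := rfl

section Convolution

variable (K : Subgroup G) {R : Type*} [CommSemiring R]

/-- A function invariant under `K` on both sides. -/
def IsBiInvariant (f : G → R) : Prop := ∀ k ∈ K, ∀ l ∈ K, ∀ g, f (k * g * l) = f g

variable {K}

/-- The invariant kernel on cosets attached to a bi-invariant function. -/
def cosetKernel {f : G → R} (hf : IsBiInvariant K f) : G ⧸ K → G ⧸ K → R :=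
  Quotient.lift₂ (fun x y => f (x⁻¹ * y)) fun a b a' b' ha hb => by
    have ha' : a⁻¹ * a' ∈ K := QuotientGroup.leftRel_apply.1 ha
    have hb' : b⁻¹ * b' ∈ K := QuotientGroup.leftRel_apply.1 hb
    calc f (a⁻¹ * b) = f ((a⁻¹ * a') * (a'⁻¹ * b') * (b⁻¹ * b')⁻¹) := by congr 1; group
      _ = f (a'⁻¹ * b') := hf _ ha' _ (inv_mem hb') _

@[simp] theorem cosetKernel_mk {f : G → R} (hf : IsBiInvariant K f) (x y : G) :
    cosetKernel hf (x : G ⧸ K) (y : G ⧸ K) = f (x⁻¹ * y) := rfl

theorem cosetKernel_smul {f : G → R} (hf : IsBiInvariant K f) (g : G) (a b : G ⧸ K) :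
    cosetKernel hf (g • a) (g • b) = cosetKernel hf a b := by
  induction a using QuotientGroup.induction_on with
  | _ a =>
    induction b using QuotientGroup.induction_on with
    | _ b =>
      simp only [MulAction.Quotient.smul_coe, smul_eq_mul, cosetKernel_mk]
      congr 1
      group

/-- The convolution in coset counting. -/
noncomputable def heckeConv {f g : G → R} (hf : IsBiInvariant K f) (hg : IsBiInvariant K g)
    (x : G) : R :=
  ∑ᶠ c : G ⧸ K, cosetKernel hf ((1 : G) : G ⧸ K) c * cosetKernel hg c (x : G ⧸ K)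

theorem sum_cosetKernel_mul {f g : G → R} (hf : IsBiInvariant K f) (hg : IsBiInvariant K g)
    (x y : G) :
    ∑ᶠ c : G ⧸ K, cosetKernel hf (x : G ⧸ K) c * cosetKernel hg c (y : G ⧸ K) =
      heckeConv hf hg (x⁻¹ * y) := by
  rw [heckeConv, ← finsum_comp_equiv (MulAction.toPerm x : Equiv.Perm (G ⧸ K))]
  refine finsum_congr fun c => ?_
  simp only [MulAction.toPerm_apply]
  rw [← cosetKernel_smul hf x⁻¹, ← cosetKernel_smul hg x⁻¹ (x • c), inv_smul_smul,
    MulAction.Quotient.smul_coe, MulAction.Quotient.smul_coe, smul_eq_mul, smul_eq_mul,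
    inv_mul_cancel]

theorem isBiInvariant_heckeConv {f g : G → R} (hf : IsBiInvariant K f) (hg : IsBiInvariant K g) :
    IsBiInvariant K (heckeConv hf hg) := by
  intro k hk l hl x
  rw [show k * x * l = k⁻¹⁻¹ * (x * l) by group, ← sum_cosetKernel_mul hf hg,
    show ((k⁻¹ : G) : G ⧸ K) = ((1 : G) : G ⧸ K) from QuotientGroup.eq.2 (by simpa using hk),
    show ((x * l : G) : G ⧸ K) = (x : G ⧸ K) from QuotientGroup.eq.2 (by simpa [mul_assoc] using inv_mem hl)]
  rfl

/-- The support modulo `K` is finite. -/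
def HasFiniteSupportMod {f : G → R} (hf : IsBiInvariant K f) : Prop :=
  (Function.support (cosetKernel hf ((1 : G) : G ⧸ K))).Finite

theorem HasFiniteSupportMod.heckeConv {f g : G → R} {hf : IsBiInvariant K f}
    {hg : IsBiInvariant K g} (hf' : HasFiniteSupportMod hf) (hg' : HasFiniteSupportMod hg) :
    HasFiniteSupportMod (isBiInvariant_heckeConv hf hg) := by
  refine Set.Finite.subset
    (hf'.biUnion fun c _ => hg'.image fun d => c.out • d) ?_
  intro z hz
  induction z using QuotientGroup.induction_on with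
  | _ x =>
    rw [Function.mem_support, cosetKernel_mk, inv_one, one_mul] at hz
    obtain ⟨c, hc⟩ := not_forall.1 fun h => hz (finsum_eq_zero_of_forall_eq_zero h)
    have h1 : cosetKernel hf ((1 : G) : G ⧸ K) c ≠ 0 := left_ne_zero_of_mul hc
    refine Set.mem_biUnion (Function.mem_support.2 h1)
      ⟨c.out⁻¹ • (x : G ⧸ K), ?_, smul_inv_smul _ _⟩
    have h2 := right_ne_zero_of_mul hc
    rw [Function.mem_support]
    rw [← cosetKernel_smul hg c.out⁻¹] at h2
    have hcc : c.out⁻¹ • c = ((1 : G) : G ⧸ K) := by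
      conv_lhs => arg 2; rw [← c.out_eq']
      rw [MulAction.Quotient.smul_coe, smul_eq_mul, inv_mul_cancel]
    rwa [hcc] at h2

theorem finite_support_mul_kernel {f g : G → R} {hf : IsBiInvariant K f}
    (hf' : HasFiniteSupportMod hf) (hg : IsBiInvariant K g) (x : G) (d : G ⧸ K) :
    (Function.support fun c => cosetKernel hf (x : G ⧸ K) c * cosetKernel hg c d).Finite := by
  refine (hf'.image (fun c => x • c)).subset fun c hc => ⟨x⁻¹ • c, ?_, smul_inv_smul _ _⟩
  have h := left_ne_zero_of_mul hc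
  rw [← cosetKernel_smul hf x⁻¹] at h
  rw [MulAction.Quotient.smul_coe, smul_eq_mul, inv_mul_cancel] at h
  exact h

/-- **Split matching.** Summing `f₁ ⊗ f₂ ⊗ f₃` over the last two coordinates gives the
convolution at the product. -/
theorem sum_shift_kernel {f₁ f₂ f₃ : G → R} (h₁ : IsBiInvariant K f₁) (h₂ : IsBiInvariant K f₂)
    (h₃ : IsBiInvariant K f₃) (hs₂ : HasFiniteSupportMod h₂) (d : G × G × G) (x₁ : G) :
    (∑ᶠ c₂ : G ⧸ K, ∑ᶠ c₃ : G ⧸ K,
        cosetKernel h₁ (x₁ : G ⧸ K) (d.1 • c₂) * (cosetKernel h₂ c₂ (d.2.1 • c₃) *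
          cosetKernel h₃ c₃ ((d.2.2 * x₁ : G) : G ⧸ K))) =
      heckeConv h₁ (isBiInvariant_heckeConv h₂ h₃) (x₁⁻¹ * prod3 d * x₁) := by
  have inner : ∀ y : G, (∑ᶠ c₃ : G ⧸ K, cosetKernel h₂ (y : G ⧸ K) (d.2.1 • c₃) *
      cosetKernel h₃ c₃ ((d.2.2 * x₁ : G) : G ⧸ K)) =
      cosetKernel (isBiInvariant_heckeConv h₂ h₃) (y : G ⧸ K)
        ((d.2.1 * d.2.2 * x₁ : G) : G ⧸ K) := by
    intro y
    rw [cosetKernel_mk, ← sum_cosetKernel_mul h₂ h₃,
      ← finsum_comp_equiv (MulAction.toPerm d.2.1 : Equiv.Perm (G ⧸ K))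
        (f := fun c => cosetKernel h₂ (y : G ⧸ K) c *
          cosetKernel h₃ c ((d.2.1 * d.2.2 * x₁ : G) : G ⧸ K))]
    refine finsum_congr fun c => ?_
    simp only [MulAction.toPerm_apply]
    congr 1
    rw [← cosetKernel_smul h₃ d.2.1 c, MulAction.Quotient.smul_coe, smul_eq_mul, mul_assoc]
  rw [show x₁⁻¹ * prod3 d * x₁ = x₁⁻¹ * (d.1 * (d.2.1 * d.2.2 * x₁)) by rw [prod3]; group,
    ← sum_cosetKernel_mul h₁ (isBiInvariant_heckeConv h₂ h₃),
    ← finsum_comp_equiv (MulAction.toPerm d.1 : Equiv.Perm (G ⧸ K))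
      (f := fun c => cosetKernel h₁ (x₁ : G ⧸ K) c *
        cosetKernel (isBiInvariant_heckeConv h₂ h₃) c
          ((d.1 * (d.2.1 * d.2.2 * x₁) : G) : G ⧸ K))]
  refine finsum_congr fun c₂ => ?_
  induction c₂ using QuotientGroup.induction_on with
  | _ y =>
    simp only [MulAction.toPerm_apply]
    rw [← mul_finsum' _ _ (by
        refine ((hs₂.image fun c => y • c).image fun c => d.2.1⁻¹ • c).subset fun c hc => ?_
        refine ⟨d.2.1 • c, ⟨y⁻¹ • (d.2.1 • c), ?_, smul_inv_smul _ _⟩, inv_smul_smul _ _⟩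
        have h := left_ne_zero_of_mul hc
        rw [← cosetKernel_smul h₂ y⁻¹, MulAction.Quotient.smul_coe, smul_eq_mul,
          inv_mul_cancel] at h
        exact h),
      inner y, ← cosetKernel_smul (isBiInvariant_heckeConv h₂ h₃) d.1 (y : G ⧸ K),
      MulAction.Quotient.smul_coe, MulAction.Quotient.smul_coe, smul_eq_mul, smul_eq_mul]

end Convolution

end Fermat.Agent.LT.Tame
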