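import Fermat.Agent.LT.Tame.LKerMatch
import Fermat.Agent.LT.Tame.RestrictedProd

/-!
# Local matchings on the cosets over one place

The diagonal function of `δ ∘ σ` on the product of the coset spaces over one place below is
matched with the diagonal function of `γ`, at completely split and at tame places.
-/

set_option autoImplicit false

noncomputable section

namespace Fermat.Agent.LT.Tame

open IsDedekindDomain IsDedekindDomain.HeightOneSpectrum NumberField Matrix
open Fermat.Agent.LT.Descent Fermat.Agent.LT.Adelic Fermat.Agent.LT.Geom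
open scoped MatrixGroups

variable {K K' : Type*} [Field K] [NumberField K] [Field K'] [NumberField K'] [Algebra K K']
  {σ : K' ≃ₐ[K] K'} {v : HeightOneSpectrum (𝓞 K)} {w : HeightOneSpectrum (𝓞 K')}
  {V : ∀ u : HeightOneSpectrum (𝓞 K), Subgroup (GL (Fin 2) (u.adicCompletion K))}
  {V' : ∀ u : HeightOneSpectrum (𝓞 K'), Subgroup (GL (Fin 2) (u.adicCompletion K'))}
  (hσ : ∀ u, ∀ g ∈ V' (placePerm σ.toRingEquiv u), GeneralLinearGroup.map
    (completionEquiv σ.toRingEquiv (valuation_apply_placePerm σ.toRingEquiv u)).toRingHom g ∈ V' u)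

theorem pglMap_algebraMap_twist (u : HeightOneSpectrum (𝓞 K')) (δ : PGL(2, K')) :
    pglMap (completionEquiv σ.toRingEquiv
        (valuation_apply_placePerm σ.toRingEquiv u)).toRingHom
      (pglMap (algebraMap K' ((placePerm σ.toRingEquiv u).adicCompletion K')) δ) =
      pglMap (algebraMap K' (u.adicCompletion K')) (pglSigma σ δ) := by
  rw [pglSigma, pglEquiv_apply, pglMap_pglMap, pglMap_pglMap]
  congr 2
  refine RingHom.ext fun x => ?_
  show completionEquiv σ.toRingEquiv (valuation_apply_placePerm σ.toRingEquiv u)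
      (algebraMap K' ((placePerm σ.toRingEquiv u).adicCompletion K') x) =
    algebraMap K' (u.adicCompletion K') (σ x)
  rw [algebraMap_adicCompletion, algebraMap_adicCompletion]
  exact completionEquiv_coe _ _ _

variable (k' : ∀ u, LKer PGL(2, u.adicCompletion K') (LocY V' u))

/-- The diagonal function of `δ ∘ σ` on the cosets over one place below. -/
def twFibreFun (δ : PGL(2, K')) {p : HeightOneSpectrum (𝓞 K') → Prop}
    (hpc : ∀ u, p u → p (placePerm σ.toRingEquiv u)) (z : ∀ j : Subtype p, LocY V' j.1) : ℂ :=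
  ∏ᶠ j : Subtype p, k' j.1 (z j) (pglMap (algebraMap K' (j.1.adicCompletion K')) δ •
    cosetTwist σ.toRingEquiv hσ j.1 (z ⟨placePerm σ.toRingEquiv j.1, hpc j.1 j.2⟩))

theorem locY_yfAut (y : Yf (productLevel V')) (u : HeightOneSpectrum (𝓞 K')) :
    locY V' u (yfAut σ.toRingEquiv (isStableLevel_productLevel σ.toRingEquiv hσ) y) =
      cosetTwist σ.toRingEquiv hσ u (locY V' (placePerm σ.toRingEquiv u) y) := by
  induction y using QuotientGroup.induction_on with
  | _ g => rw [yfAut_mk, locY_mk, locY_mk, cosetTwist_mk, localPGL_gfAut]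

/-- The twisted diagonal function of a product matrix is the product of the local ones. -/
theorem toHKer_apply_twist (hV' : IsLocalLevel V') (k : KerFamily V') (δ : PGL(2, K'))
    (y : Yf (productLevel V')) :
    (k.toHKer hV') y
        (δ • yfAut σ.toRingEquiv (isStableLevel_productLevel σ.toRingEquiv hσ) y) =
      ∏ᶠ u, k.ker u (locY V' u y) (pglMap (algebraMap K' (u.adicCompletion K')) δ •
        cosetTwist σ.toRingEquiv hσ u (locY V' (placePerm σ.toRingEquiv u) y)) :=
  finprod_congr fun u => by rw [locY_pgl_smul, locY_yfAut hσ]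

namespace SplitPlace

theorem emb_comp_algebraMap (P : SplitPlace σ v w) :
    P.emb.comp (algebraMap K (v.adicCompletion K)) =
      (algebraMap K' (w.adicCompletion K')).comp (algebraMap K K') := by
  refine RingHom.ext fun x => ?_
  rw [RingHom.comp_apply, RingHom.comp_apply, algebraMap_adicCompletion, algebraMap_adicCompletion]
  exact P.emb_coe x

theorem pglEquiv'_apply (P : SplitPlace σ v w) (x : PGL(2, v.adicCompletion K)) :
    P.pglEquiv' x = pglMap P.emb x := rfl

/-- The levels over a split place are the level below, carried by the isomorphisms. -/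
def IsSplitLevel (σ : K' ≃ₐ[K] K') (v : HeightOneSpectrum (𝓞 K))
    (V : ∀ u : HeightOneSpectrum (𝓞 K), Subgroup (GL (Fin 2) (u.adicCompletion K)))
    (V' : ∀ u : HeightOneSpectrum (𝓞 K'), Subgroup (GL (Fin 2) (u.adicCompletion K'))) : Prop :=
  ∀ u (Q : SplitPlace σ v u),
    (V' u).map ProjGenLinGroup.mk = ((V v).map ProjGenLinGroup.mk).map Q.pglEquiv'.toMonoidHom

theorem isSplitLevel_of_map
    (h : ∀ u (Q : SplitPlace σ v u), V' u = (V v).map (GeneralLinearGroup.map Q.emb)) :
    IsSplitLevel σ v V V' := fun u Q => by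
  rw [h u Q, Subgroup.map_map, Subgroup.map_map]
  congr 1

variable (P : SplitPlace σ v w) (hL : IsSplitLevel σ v V V')

/-- The coset spaces of `v` and of a place over it. -/
def locEquiv : LocY V v ≃ LocY V' w := cosetEquiv P.pglEquiv' (hL w P)

theorem locEquiv_mk (g : PGL(2, v.adicCompletion K)) :
    P.locEquiv hL (g : LocY V v) = ((pglMap P.emb g : _) : LocY V' w) := rfl

theorem locEquiv_smul (g : PGL(2, v.adicCompletion K)) (c : LocY V v) :
    P.locEquiv hL (g • c) = pglMap P.emb g • P.locEquiv hL c :=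
  cosetEquiv_smul P.pglEquiv' (hL w P) g c

theorem locEquiv_basePt : P.locEquiv hL (basePt V v) = basePt V' w := by
  rw [basePt, locEquiv_mk, map_one]
  rfl

theorem cosetTwist_locEquiv (c : LocY V v) :
    cosetTwist σ.toRingEquiv hσ w (P.next.locEquiv hL c) = P.locEquiv hL c := by
  induction c using QuotientGroup.induction_on with | _ g =>
  rw [locEquiv_mk, locEquiv_mk, cosetTwist_mk, pglMap_pglMap]
  congr 3
  exact RingHom.ext P.completionEquiv_next

variable {p : HeightOneSpectrum (𝓞 K') → Prop}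
  (hp : ∀ u, p u ↔ u = w ∨ u = placePerm σ.toRingEquiv w ∨
    u = placePerm σ.toRingEquiv (placePerm σ.toRingEquiv w))

/-- The three coordinates over a split place. -/
def fibreTriple (z : ∀ j : Subtype p, LocY V' j.1) : LocY V v × LocY V v × LocY V v :=
  ((P.locEquiv hL).symm (z ⟨w, (hp w).2 (Or.inl rfl)⟩),
    (P.next.locEquiv hL).symm (z ⟨_, (hp _).2 (Or.inr (Or.inl rfl))⟩),
    (P.next.next.locEquiv hL).symm (z ⟨_, (hp _).2 (Or.inr (Or.inr rfl))⟩))

theorem fibreTriple_bijective : Function.Bijective (P.fibreTriple hL hp) := by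
  classical
  constructor
  · intro z z' h
    simp only [fibreTriple, Prod.mk.injEq, EmbeddingLike.apply_eq_iff_eq] at h
    funext ⟨u, hu⟩
    rcases (hp u).1 hu with rfl | rfl | rfl
    · exact h.1
    · exact h.2.1
    · exact h.2.2
  · intro c
    set w₁ := placePerm σ.toRingEquiv w
    set w₂ := placePerm σ.toRingEquiv w₁
    let z₀ : ∀ u, LocY V' u := Function.update (Function.update (Function.update (basePt V') w
      (P.locEquiv hL c.1)) w₁ (P.next.locEquiv hL c.2.1)) w₂ (P.next.next.locEquiv hL c.2.2)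
    have h0 : z₀ w = P.locEquiv hL c.1 := by
      simp only [z₀]
      rw [Function.update_of_ne P.moved_twice.symm, Function.update_of_ne P.moved.symm,
        Function.update_self]
    have h1 : z₀ w₁ = P.next.locEquiv hL c.2.1 := by
      simp only [z₀]
      rw [Function.update_of_ne P.next.moved.symm, Function.update_self]
    have h2 : z₀ w₂ = P.next.next.locEquiv hL c.2.2 := Function.update_self ..
    refine ⟨fun j => z₀ j.1, ?_⟩
    refine Prod.ext ?_ (Prod.ext ?_ ?_)
    · show (P.locEquiv hL).symm (z₀ w) = c.1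
      rw [h0, Equiv.symm_apply_apply]
    · show (P.next.locEquiv hL).symm (z₀ w₁) = c.2.1
      rw [h1, Equiv.symm_apply_apply]
    · show (P.next.next.locEquiv hL).symm (z₀ w₂) = c.2.2
      rw [h2, Equiv.symm_apply_apply]

/-- The cosets over a split place are three copies of the cosets below. -/
def fibreEquiv : LocY V v × LocY V v × LocY V v ≃ (∀ j : Subtype p, LocY V' j.1) :=
  (Equiv.ofBijective _ (P.fibreTriple_bijective hL hp)).symm

theorem fibreTriple_fibreEquiv (c : LocY V v × LocY V v × LocY V v) :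
    P.fibreTriple hL hp (P.fibreEquiv hL hp c) = c :=
  (Equiv.ofBijective _ (P.fibreTriple_bijective hL hp)).apply_symm_apply c

theorem fibreEquiv_apply (c : LocY V v × LocY V v × LocY V v) :
    P.fibreEquiv hL hp c ⟨w, (hp w).2 (Or.inl rfl)⟩ = P.locEquiv hL c.1 ∧
    P.fibreEquiv hL hp c ⟨_, (hp _).2 (Or.inr (Or.inl rfl))⟩ = P.next.locEquiv hL c.2.1 ∧
    P.fibreEquiv hL hp c ⟨_, (hp _).2 (Or.inr (Or.inr rfl))⟩ = P.next.next.locEquiv hL c.2.2 := by
  have h := P.fibreTriple_fibreEquiv hL hp c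
  simp only [fibreTriple, Prod.ext_iff, Equiv.symm_apply_eq] at h
  exact h

theorem fibreEquiv_smul {T : Type*} [Group T] [MulAction T (LocY V v)]
    [MulAction T (∀ j : Subtype p, LocY V' j.1)] (φ : T →* PGL(2, v.adicCompletion K))
    (hT : ∀ (t : T) (y : LocY V v), t • y = φ t • y)
    (hT' : ∀ (t : T) (z : ∀ j : Subtype p, LocY V' j.1) (j : Subtype p)
      (Q : SplitPlace σ v j.1), (t • z) j = pglMap Q.emb (φ t) • z j)
    (t : T) (c : LocY V v × LocY V v × LocY V v) :
    P.fibreEquiv hL hp (t • c) = t • P.fibreEquiv hL hp c := by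
  obtain ⟨e0, e1, e2⟩ := P.fibreEquiv_apply hL hp c
  apply (P.fibreTriple_bijective hL hp).1
  rw [fibreTriple_fibreEquiv]
  simp only [fibreTriple]
  rw [hT' t _ ⟨w, _⟩ P, hT' t _ ⟨_, _⟩ P.next, hT' t _ ⟨_, _⟩ P.next.next, e0, e1, e2]
  simp only [← locEquiv_smul, Equiv.symm_apply_apply, ← hT]
  rfl

/-- The components of `δ` over a split place, read in `K_v`. -/
def splitParts (δ : PGL(2, K')) :
    PGL(2, v.adicCompletion K) × PGL(2, v.adicCompletion K) × PGL(2, v.adicCompletion K) :=
  (P.pglEquiv'.symm (pglMap (algebraMap K' (w.adicCompletion K')) δ),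
    P.next.pglEquiv'.symm (pglMap (algebraMap K' _) δ),
    P.next.next.pglEquiv'.symm (pglMap (algebraMap K' _) δ))

theorem pglMap_emb_symm (x : PGL(2, w.adicCompletion K')) :
    pglMap P.emb (P.pglEquiv'.symm x) = x :=
  P.pglEquiv'.apply_symm_apply x

theorem pglMap_twist_next (x : PGL(2, v.adicCompletion K)) :
    pglMap (completionEquiv σ.toRingEquiv
        (valuation_apply_placePerm σ.toRingEquiv w)).toRingHom (pglMap P.next.emb x) =
      pglMap P.emb x := by
  rw [pglMap_pglMap]
  congr 2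
  exact RingHom.ext P.completionEquiv_next

theorem prod3_splitParts {γ : PGL(2, K)} {δ : PGL(2, K')}
    (hN : Geom.twNorm (pglSigma σ) δ = pglMap (algebraMap K K') γ) :
    prod3 (P.splitParts δ) = pglMap (algebraMap K (v.adicCompletion K)) γ := by
  apply pglMap_injective P.emb
  rw [pglMap_pglMap, P.emb_comp_algebraMap, ← pglMap_pglMap, ← hN, prod3, Geom.twNorm,
    splitParts, map_mul, map_mul, map_mul, map_mul, pglMap_emb_symm, ← pglMap_twist_next,
    pglMap_emb_symm, pglMap_algebraMap_twist, ← pglMap_twist_next P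
      (P.next.next.pglEquiv'.symm _), ← pglMap_twist_next P.next (P.next.next.pglEquiv'.symm _),
    pglMap_emb_symm, pglMap_algebraMap_twist, pglMap_algebraMap_twist]

include P hp in
theorem finprod_fibre {M : Type*} [CommMonoid M] (g : Subtype p → M) :
    ∏ᶠ j, g j = g ⟨w, (hp w).2 (Or.inl rfl)⟩ *
      (g ⟨_, (hp _).2 (Or.inr (Or.inl rfl))⟩ * g ⟨_, (hp _).2 (Or.inr (Or.inr rfl))⟩) := by
  classical
  rw [finprod_eq_prod_of_mulSupport_subset (s := {⟨w, (hp w).2 (Or.inl rfl)⟩,
      ⟨_, (hp _).2 (Or.inr (Or.inl rfl))⟩, ⟨_, (hp _).2 (Or.inr (Or.inr rfl))⟩}) g fun j _ => ?_,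
    Finset.prod_insert, Finset.prod_insert, Finset.prod_singleton]
  · simpa [Subtype.ext_iff] using fun h => P.moved h.symm
  · simpa [Subtype.ext_iff] using
      (⟨fun h => P.moved h.symm, fun h => P.moved_twice h.symm⟩ :
        (w ≠ placePerm σ.toRingEquiv w) ∧
          w ≠ placePerm σ.toRingEquiv (placePerm σ.toRingEquiv w))
  · obtain ⟨u, hu⟩ := j
    rcases (hp u).1 hu with h | h | h <;> simp [h]

theorem twFibreFun_fibreEquiv (δ : PGL(2, K'))
    (hpc : ∀ u, p u → p (placePerm σ.toRingEquiv u)) (c : LocY V v × LocY V v × LocY V v) :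
    twFibreFun hσ k' δ hpc (P.fibreEquiv hL hp c) =
      k' w (P.locEquiv hL c.1) (P.locEquiv hL ((P.splitParts δ).1 • c.2.1)) *
        (k' _ (P.next.locEquiv hL c.2.1) (P.next.locEquiv hL ((P.splitParts δ).2.1 • c.2.2)) *
          k' _ (P.next.next.locEquiv hL c.2.2)
            (P.next.next.locEquiv hL ((P.splitParts δ).2.2 • c.1))) := by
  obtain ⟨e0, e1, e2⟩ := P.fibreEquiv_apply hL hp c
  have hcyc : ∀ (u : HeightOneSpectrum (𝓞 K')) (hu : p u) (Q : SplitPlace σ v u), u = w →
      P.fibreEquiv hL hp c ⟨u, hu⟩ = Q.locEquiv hL c.1 := by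
    intro u hu Q h
    subst h
    exact e0
  rw [twFibreFun, P.finprod_fibre hp, e0, e1, e2]
  dsimp only
  rw [hcyc _ _ P.next.next.next (placePerm_cube σ.toRingEquiv P.order_three w),
    cosetTwist_locEquiv hσ P hL, cosetTwist_locEquiv hσ P.next hL,
    cosetTwist_locEquiv hσ P.next.next hL]
  simp only [locEquiv_smul, splitParts, pglMap_emb_symm]

include P hL in
/-- **Fibre matching at a split place.** -/
theorem hasFibreMatch_ker {k l₀ l₁ l₂ : LKer PGL(2, v.adicCompletion K) (LocY V v)}
    (hk : k = l₀.comp (l₁.comp l₂))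
    (h₀ : ∀ a c, k' w (P.locEquiv hL a) (P.locEquiv hL c) = l₀ a c)
    (h₁ : ∀ a c, k' _ (P.next.locEquiv hL a) (P.next.locEquiv hL c) = l₁ a c)
    (h₂ : ∀ a c, k' _ (P.next.next.locEquiv hL a) (P.next.next.locEquiv hL c) = l₂ a c)
    {γ : PGL(2, K)} {δ : PGL(2, K')}
    (hN : Geom.twNorm (pglSigma σ) δ = pglMap (algebraMap K K') γ)
    (hpc : ∀ u, p u → p (placePerm σ.toRingEquiv u))
    (hp : ∀ u, p u ↔ u = w ∨ u = placePerm σ.toRingEquiv w ∨
      u = placePerm σ.toRingEquiv (placePerm σ.toRingEquiv w))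
    {T : Type*} [Group T] [MulAction T (LocY V v)] [MulAction T (∀ j : Subtype p, LocY V' j.1)]
    (φ : T →* PGL(2, v.adicCompletion K)) (hT : ∀ (t : T) (y : LocY V v), t • y = φ t • y)
    (hT' : ∀ (t : T) (z : ∀ j : Subtype p, LocY V' j.1) (j : Subtype p)
      (Q : SplitPlace σ v j.1), (t • z) j = pglMap Q.emb (φ t) • z j) :
    HasFibreMatch T (fun y => k y (pglMap (algebraMap K (v.adicCompletion K)) γ • y))
      (twFibreFun hσ k' δ hpc) :=
  hasFibreMatch_of_equiv (P.fibreEquiv hL hp) (P.fibreEquiv_smul hL hp φ hT hT')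
    (hasFibreMatch_split_lker hk (P.splitParts δ) (P.prod3_splitParts hN)) fun c => by
    rw [P.twFibreFun_fibreEquiv hσ k' hL hp δ hpc c, h₀, h₁, h₂]

include P hL in
/-- **At a split place with trivial matrices and integral `δ` base point goes to base point.** -/
theorem hasBaseMatch_one
    {γ : PGL(2, K)} {δ : PGL(2, K')}
    (hN : Geom.twNorm (pglSigma σ) δ = pglMap (algebraMap K K') γ)
    (hint : ∀ u, p u → pglMap (algebraMap K' (u.adicCompletion K')) δ ∈
      (V' u).map ProjGenLinGroup.mk)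
    (hk' : ∀ u, p u → k' u = LKer.one _ _)
    (hpc : ∀ u, p u → p (placePerm σ.toRingEquiv u))
    (hp : ∀ u, p u ↔ u = w ∨ u = placePerm σ.toRingEquiv w ∨
      u = placePerm σ.toRingEquiv (placePerm σ.toRingEquiv w))
    {T : Type*} [Group T] [MulAction T (LocY V v)] [MulAction T (∀ j : Subtype p, LocY V' j.1)]
    (φ : T →* PGL(2, v.adicCompletion K)) (hT : ∀ (t : T) (y : LocY V v), t • y = φ t • y)
    (hT' : ∀ (t : T) (z : ∀ j : Subtype p, LocY V' j.1) (j : Subtype p)
      (Q : SplitPlace σ v j.1), (t • z) j = pglMap Q.emb (φ t) • z j) :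
    HasBaseMatch T
      (fun y => LKer.one PGL(2, v.adicCompletion K) (LocY V v) y
        (pglMap (algebraMap K (v.adicCompletion K)) γ • y))
      (twFibreFun hσ k' δ hpc) (basePt V v) (fun j => basePt V' j.1) := by
  have hmem : ∀ {u : HeightOneSpectrum (𝓞 K')} (Q : SplitPlace σ v u), p u →
      Q.pglEquiv'.symm (pglMap (algebraMap K' (u.adicCompletion K')) δ) ∈
        (V v).map ProjGenLinGroup.mk := fun {u} Q hu => by
    have h := hint u hu
    rw [hL u Q] at h
    obtain ⟨g, hg, he⟩ := Subgroup.mem_map.1 h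
    rw [← he, MulEquiv.coe_toMonoidHom, Q.pglEquiv'.symm_apply_apply]
    exact hg
  have hone : ∀ {u : HeightOneSpectrum (𝓞 K')} (Q : SplitPlace σ v u) (a c : LocY V v),
      LKer.one PGL(2, u.adicCompletion K') (LocY V' u) (Q.locEquiv hL a) (Q.locEquiv hL c) =
        LKer.one PGL(2, v.adicCompletion K) (LocY V v) a c := fun {u} Q a c => by
    by_cases h : a = c
    · subst h; rw [LKer.one_apply_self, LKer.one_apply_self]
    · rw [LKer.one_apply_ne h, LKer.one_apply_ne fun h' => h ((Q.locEquiv hL).injective h')]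
  have p1 : p (placePerm σ.toRingEquiv w) := (hp _).2 (Or.inr (Or.inl rfl))
  have p2 : p (placePerm σ.toRingEquiv (placePerm σ.toRingEquiv w)) := (hp _).2 (Or.inr (Or.inr rfl))
  have p0 : p w := (hp _).2 (Or.inl rfl)
  have h := hasBaseMatch_of_equiv (P.fibreEquiv hL hp) (P.fibreEquiv_smul hL hp φ hT hT')
    (hasBaseMatch_split_lker (hmem P p0) (hmem P.next p1) (hmem P.next.next p2)
      (P.prod3_splitParts hN) (T := T)) (f'' := twFibreFun hσ k' δ hpc) fun c => by
    rw [P.twFibreFun_fibreEquiv hσ k' hL hp δ hpc c, hk' _ p0, hk' _ p1, hk' _ p2, hone, hone,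
      hone]
  have hb : P.fibreEquiv hL hp (((1 : PGL(2, v.adicCompletion K)) : LocY V v),
      ((1 : PGL(2, v.adicCompletion K)) : LocY V v), ((1 : PGL(2, v.adicCompletion K)) : LocY V v)) =
      fun j : Subtype p => basePt V' j.1 := by
    apply (P.fibreTriple_bijective hL hp).1
    rw [fibreTriple_fibreEquiv]
    refine Prod.ext ?_ (Prod.ext ?_ ?_) <;> refine ((Equiv.symm_apply_eq _).2 ?_).symm
    · exact (P.locEquiv_basePt hL).symm
    · exact (P.next.locEquiv_basePt hL).symm
    · exact (P.next.next.locEquiv_basePt hL).symm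
  rwa [hb] at h

end SplitPlace

namespace TamePlace

theorem placePerm_eq (P : TamePlace σ v w) : placePerm σ.toRingEquiv w = w :=
  HeightOneSpectrum.ext (Ideal.ext fun r => by
    rw [mem_placePerm]
    exact ⟨fun h => by simpa using Ideal.sub_mem _ h (P.residue_trivial r),
      fun h => by simpa using Ideal.add_mem _ h (P.residue_trivial r)⟩)

theorem emb_comp_algebraMap (P : TamePlace σ v w) :
    P.emb.comp (algebraMap K (v.adicCompletion K)) =
      (algebraMap K' (w.adicCompletion K')).comp (algebraMap K K') := by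
  refine RingHom.ext fun x => ?_
  rw [RingHom.comp_apply, RingHom.comp_apply, algebraMap_adicCompletion, algebraMap_adicCompletion]
  exact P.emb_coe x

theorem pglEquiv_aut_algebraMap (P : TamePlace σ v w) (δ : PGL(2, K')) :
    pglEquiv P.aut (pglMap (algebraMap K' (w.adicCompletion K')) δ) =
      pglMap (algebraMap K' (w.adicCompletion K')) (pglSigma σ δ) := by
  rw [pglSigma, pglEquiv_apply, pglEquiv_apply, pglMap_pglMap, pglMap_pglMap]
  congr 2
  refine RingHom.ext fun x => ?_
  show P.aut (algebraMap K' (w.adicCompletion K') x) = algebraMap K' (w.adicCompletion K') (σ x)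
  rw [algebraMap_adicCompletion]
  exact P.aut_coe x

variable (P : TamePlace σ v w) {p : HeightOneSpectrum (𝓞 K') → Prop} (hp : ∀ u, p u ↔ u = w)

include P hp in
theorem twistCoset_fixed (z : ∀ j : Subtype p, LocY V' j.1) (hpw : p (placePerm σ.toRingEquiv w))
    (x : PGL(2, w.adicCompletion K'))
    (hx : z ⟨w, (hp w).2 rfl⟩ = (x : LocY V' w)) :
    cosetTwist σ.toRingEquiv hσ w (z ⟨_, hpw⟩) = ((pglEquiv P.aut x : _) : LocY V' w) := by
  suffices key : ∀ (u : HeightOneSpectrum (𝓞 K')) (hu : u = w) (hpu : p u)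
      (hv : ∀ a, w.valuation K' (σ.toRingEquiv a) = u.valuation K' a)
      (hmap : ∀ g ∈ V' u, GeneralLinearGroup.map
        (completionEquiv σ.toRingEquiv hv).toRingHom g ∈ V' w) (g : PGL(2, u.adicCompletion K')),
      z ⟨u, hpu⟩ = (g : LocY V' u) →
        ((pglMap (completionEquiv σ.toRingEquiv hv).toRingHom g : _) : LocY V' w) =
          ((pglEquiv P.aut x : _) : LocY V' w) by
    obtain ⟨g, hg⟩ := QuotientGroup.mk_surjective (z ⟨_, hpw⟩)
    rw [← hg, cosetTwist_mk]
    exact key _ P.placePerm_eq hpw _ (hσ w) g hg.symm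
  rintro u hu hpu hv hmap g hg
  subst u
  have hgx : (g : LocY V' w) = (x : LocY V' w) := hg.symm.trans hx
  rw [QuotientGroup.eq] at hgx ⊢
  obtain ⟨γ, hγ, he⟩ := Subgroup.mem_map.1 hgx
  refine Subgroup.mem_map.2 ⟨GeneralLinearGroup.map (completionEquiv σ.toRingEquiv hv).toRingHom γ,
    hmap γ hγ, ?_⟩
  rw [← pglMap_mk, he, map_mul, map_inv]
  rfl

/-- The cosets over a tame place are the cosets at the place above. -/
def fibreEval (z : ∀ j : Subtype p, LocY V' j.1) : LocY V' w := z ⟨w, (hp w).2 rfl⟩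

include hp in
theorem fibreEval_bijective : Function.Bijective (fibreEval (V' := V') hp) := by
  classical
  refine ⟨fun z z' h => funext fun ⟨u, hu⟩ => ?_,
    fun c => ⟨fun j => Function.update (basePt V') w c j.1, Function.update_self ..⟩⟩
  obtain rfl := (hp u).1 hu
  exact h

/-- The inverse of `fibreEval`. -/
def fibrePoint : LocY V' w ≃ (∀ j : Subtype p, LocY V' j.1) :=
  (Equiv.ofBijective _ (fibreEval_bijective (V' := V') hp)).symm

theorem fibrePoint_apply (c : LocY V' w) : fibrePoint hp c ⟨w, (hp w).2 rfl⟩ = c :=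
  (Equiv.ofBijective _ (fibreEval_bijective (V' := V') hp)).apply_symm_apply c

/-- The tame matching at levels given up to equality. -/
theorem hasFibreMatch_of_eq {a : IsLocalRing.ResidueField (v.adicCompletionIntegers K)}
    (ha : ∀ t, t ^ 2 - t ≠ a) (hq : Ideal.absNorm v.asIdeal % 3 = 1)
    {H : Subgroup PGL(2, v.adicCompletion K)} (hH : H = levelOf (v.adicCompletion K) (torus a))
    {H' : Subgroup PGL(2, w.adicCompletion K')}
    (hH' : H' = levelOf (w.adicCompletion K') (torus (IsLocalRing.ResidueField.map P.embInt a)))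
    {γ : PGL(2, v.adicCompletion K)} (h0 : classInv γ ≠ 0) (h4 : classInv γ ≠ 4)
    {δ : PGL(2, w.adicCompletion K')} (hN : twNorm (pglEquiv P.aut) δ = P.pglEmb γ)
    {T : Type*} [Group T] [MulAction T (PGL(2, v.adicCompletion K) ⧸ H)]
    [MulAction T (PGL(2, w.adicCompletion K') ⧸ H')] (φ : T →* PGL(2, v.adicCompletion K))
    (hφ : ∀ t, Commute (φ t) γ)
    (hT : ∀ (t : T) (y : PGL(2, v.adicCompletion K) ⧸ H), t • y = φ t • y)
    (hT' : ∀ (t : T) (y : PGL(2, w.adicCompletion K') ⧸ H'), t • y = pglMap P.emb (φ t) • y)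
    (r : ℂ) :
    HasFibreMatch T (Set.indicator {y : PGL(2, v.adicCompletion K) ⧸ H | γ • y = y} fun _ => r)
      (Set.indicator (twFixCosets (pglEquiv P.aut) H' δ) fun _ => r) ∧
    ∀ k ∈ H', pglEquiv P.aut k ∈ H' := by
  subst hH hH'
  refine ⟨P.hasFibreMatch ha hq h0 h4 hN φ hφ (fun t g => ?_) (fun t g => ?_) r,
    (P.isTameLevel ha hq).stable⟩
  · rw [hT, MulAction.Quotient.smul_coe, smul_eq_mul]
  · rw [hT', MulAction.Quotient.smul_coe, smul_eq_mul]
    rfl

include P in
/-- **Fibre matching at a tame place.** -/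
theorem hasFibreMatch_ker {a : IsLocalRing.ResidueField (v.adicCompletionIntegers K)}
    (ha : ∀ t, t ^ 2 - t ≠ a) (hq : Ideal.absNorm v.asIdeal % 3 = 1)
    (hV : (V v).map ProjGenLinGroup.mk = levelOf (v.adicCompletion K) (torus a))
    (hV' : (V' w).map ProjGenLinGroup.mk =
      levelOf (w.adicCompletion K') (torus (IsLocalRing.ResidueField.map P.embInt a)))
    {k : LKer PGL(2, v.adicCompletion K) (LocY V v)} (hk : k = LKer.one _ _)
    (hk' : k' w = LKer.one _ _)
    {γ : PGL(2, K)} (h0 : classInv γ ≠ 0) (h4 : classInv γ ≠ 4) {δ : PGL(2, K')}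
    (hN : Geom.twNorm (pglSigma σ) δ = pglMap (algebraMap K K') γ)
    (hpc : ∀ u, p u → p (placePerm σ.toRingEquiv u)) (hp : ∀ u, p u ↔ u = w)
    {T : Type*} [Group T] [MulAction T (LocY V v)] [MulAction T (∀ j : Subtype p, LocY V' j.1)]
    (φ : T →* PGL(2, v.adicCompletion K))
    (hφ : ∀ t, Commute (φ t) (pglMap (algebraMap K (v.adicCompletion K)) γ))
    (hT : ∀ (t : T) (y : LocY V v), t • y = φ t • y)
    (hT' : ∀ (t : T) (z : ∀ j : Subtype p, LocY V' j.1) (j : Subtype p)
      (Q : TamePlace σ v j.1), (t • z) j = pglMap Q.emb (φ t) • z j) :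
    HasFibreMatch T (fun y => k y (pglMap (algebraMap K (v.adicCompletion K)) γ • y))
      (twFibreFun hσ k' δ hpc) := by
  classical
  set γv := pglMap (algebraMap K (v.adicCompletion K)) γ
  set δw := pglMap (algebraMap K' (w.adicCompletion K')) δ
  have hN' : twNorm (pglEquiv P.aut) δw = P.pglEmb γv := by
    rw [twNorm, pglEquiv_aut_algebraMap, pglEquiv_aut_algebraMap, ← map_mul, ← map_mul,
      show δ * pglSigma σ δ * pglSigma σ (pglSigma σ δ) = pglMap (algebraMap K K') γ from hN,
      pglEmb, pglMap_pglMap, pglMap_pglMap, emb_comp_algebraMap]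
  have hc0 : classInv γv ≠ 0 := by rw [classInv_pglMap]; exact (map_ne_zero _).2 h0
  have hc4 : classInv γv ≠ 4 := fun h => h4 ((algebraMap K (v.adicCompletion K)).injective (by
    rw [map_ofNat]; rwa [classInv_pglMap] at h))
  let _ : MulAction T (PGL(2, w.adicCompletion K') ⧸ (V' w).map ProjGenLinGroup.mk) :=
    MulAction.compHom _ ((pglMap P.emb).comp φ)
  obtain ⟨hmatch, hstable⟩ := P.hasFibreMatch_of_eq ha hq hV hV' hc0 hc4 hN' φ hφ hT
    (fun _ _ => rfl) 1
  have hfun : (fun y => k y (γv • y)) =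
      Set.indicator {y : LocY V v | γv • y = y} fun _ => (1 : ℂ) := by
    funext y
    rw [hk]
    by_cases h : γv • y = y
    · rw [Set.indicator_of_mem (show y ∈ {y : LocY V v | γv • y = y} from h), h, LKer.one_apply_self]
    · rw [Set.indicator_of_notMem (show y ∉ {y : LocY V v | γv • y = y} from h),
        LKer.one_apply_ne (Ne.symm h)]
  rw [hfun]
  refine hasFibreMatch_of_equiv (fibrePoint hp) (fun t c => ?_) hmatch fun c => ?_
  · refine (fibreEval_bijective hp).1 ?_
    show fibrePoint hp (t • c) ⟨w, _⟩ = (t • fibrePoint hp c) ⟨w, _⟩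
    rw [fibrePoint_apply, hT' t _ ⟨w, _⟩ P, fibrePoint_apply]
    rfl
  · induction c using QuotientGroup.induction_on with | _ x =>
    have hw : ∀ j : Subtype p, j = ⟨w, (hp w).2 rfl⟩ := fun j => Subtype.ext ((hp j.1).1 j.2)
    rw [twFibreFun, finprod_eq_single _ (⟨w, (hp w).2 rfl⟩ : Subtype p)
      fun j hj => absurd (hw j) hj, fibrePoint_apply,
      P.twistCoset_fixed hσ hp _ _ x (fibrePoint_apply hp _), hk']
    have hiff : (x : LocY V' w) = δw • ((pglEquiv P.aut x : _) : LocY V' w) ↔
        (x : LocY V' w) ∈ twFixCosets (pglEquiv P.aut) ((V' w).map ProjGenLinGroup.mk) δw := by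
      rw [mk_mem_twFixCosets hstable, MulAction.Quotient.smul_coe, smul_eq_mul, QuotientGroup.eq,
        mul_assoc]
    by_cases h : (x : LocY V' w) ∈ twFixCosets (pglEquiv P.aut) ((V' w).map ProjGenLinGroup.mk) δw
    · rw [Set.indicator_of_mem h, ← hiff.2 h, LKer.one_apply_self]
    · rw [Set.indicator_of_notMem h, LKer.one_apply_ne fun h' => h (hiff.1 h')]

end TamePlace

end Fermat.Agent.LT.Tame

end
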