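import Mathlib.GroupTheory.Coset.Basic
import Mathlib.GroupTheory.GroupAction.Quotient
import Mathlib.GroupTheory.QuotientGroup.Defs
import Mathlib.Algebra.Group.Subgroup.Ker
import Mathlib.Tactic.Group

/-!
# Twisted conjugacy on a level with bijective cubing

`σ` is an automorphism of order dividing three of a group `G` and `K` a `σ`-stable subgroup on
which cubing is bijective, compatibly with conjugation, and with trivial `H¹(⟨σ⟩, K)`. Then
twisted conjugacy classes meeting `K` are the conjugacy classes of fixed elements meeting `K`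
(through cubing), with the same centralisers and the same fixed cosets. This is the local
matching `1_K ↔ c • 1_{K^σ}` at a tame place.
-/

set_option autoImplicit false

namespace Fermat.Agent.LT.Tame

variable {G : Type*} [Group G]

/-- The fixed subgroup of an automorphism. -/
def fixedSubgroup (σ : G ≃* G) : Subgroup G := σ.toMonoidHom.eqLocus (MonoidHom.id G)

theorem mem_fixedSubgroup {σ : G ≃* G} {x : G} : x ∈ fixedSubgroup σ ↔ σ x = x := Iff.rfl

/-- Hypotheses on a level at a tame place. -/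
structure IsTameLevel (σ : G ≃* G) (K : Subgroup G) : Prop where
  stable : ∀ k ∈ K, σ k ∈ K
  order_three : ∀ x, σ (σ (σ x)) = x
  exists_root : ∀ k ∈ K, ∃ r ∈ K, r ^ 3 = k
  eq_of_pow_eq : ∀ u ∈ K, ∀ v ∈ K, u ^ 3 = v ^ 3 → u = v
  root_conj : ∀ u ∈ K, ∀ x : G, x⁻¹ * u ^ 3 * x ∈ K → x⁻¹ * u * x ∈ K
  exists_h1 : ∀ e ∈ K, e * σ e * σ (σ e) = 1 → ∃ x ∈ K, e = x * (σ x)⁻¹

variable {σ : G ≃* G} {K : Subgroup G}

/-- The norm `δ σ(δ) σ²(δ)`. -/
def twNorm (σ : G ≃* G) (δ : G) : G := δ * σ δ * σ (σ δ)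

theorem twNorm_fixed {u : G} (hu : σ u = u) : twNorm σ u = u ^ 3 := by
  rw [twNorm, hu, hu, pow_succ, sq]

theorem twNorm_twConj (hσ : ∀ x, σ (σ (σ x)) = x) (δ x : G) :
    twNorm σ (x⁻¹ * δ * σ x) = x⁻¹ * twNorm σ δ * x := by
  simp only [twNorm, map_mul, map_inv, hσ]
  group

namespace IsTameLevel

variable (h : IsTameLevel σ K)
include h

theorem eq_conj_of_pow {u v x : G} (hu : u ∈ K) (hv : v ∈ K) (he : x⁻¹ * u ^ 3 * x = v ^ 3) :
    x⁻¹ * u * x = v := by
  refine h.eq_of_pow_eq _ (h.root_conj u hu x (he ▸ pow_mem hv 3)) _ hv ?_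
  rw [← he]
  simpa only [inv_inv] using (conj_pow (a := x⁻¹) (b := u) (i := 3))

/-- Every element of the level is twisted conjugate, within the level, to a fixed one. -/
theorem exists_twConj_fixed {δ : G} (hδ : δ ∈ K) :
    ∃ x ∈ K, σ (x⁻¹ * δ * σ x) = x⁻¹ * δ * σ x := by
  have h1 := h.stable δ hδ
  have h2 := h.stable _ h1
  obtain ⟨u, hu, hu3⟩ := h.exists_root (twNorm σ δ) (mul_mem (mul_mem hδ h1) h2)
  have hσu : σ u = δ⁻¹ * u * δ := by
    refine h.eq_of_pow_eq _ (h.stable u hu) _ (mul_mem (mul_mem (inv_mem hδ) hu) hδ) ?_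
    rw [← map_pow, hu3,
      show (δ⁻¹ * u * δ) ^ 3 = δ⁻¹ * u ^ 3 * δ by
        simpa only [inv_inv] using (conj_pow (a := δ⁻¹) (b := u) (i := 3)),
      hu3, twNorm, map_mul, map_mul, h.order_three]
    group
  set e := u⁻¹ * δ
  have he : e ∈ K := mul_mem (inv_mem hu) hδ
  have hnorm : e * σ e * σ (σ e) = 1 := by
    simp only [e, map_mul, map_inv, hσu]
    have : u⁻¹ * δ * (δ⁻¹ * u * δ)⁻¹ * σ δ *
        (((σ δ)⁻¹ * (δ⁻¹ * u * δ) * σ δ)⁻¹ * σ (σ δ)) = (u ^ 3)⁻¹ * twNorm σ δ := by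
      simp only [twNorm]; group
    simpa [map_mul, map_inv, hσu, mul_assoc, hu3] using this
  obtain ⟨x, hx, hex⟩ := h.exists_h1 e he hnorm
  refine ⟨x, hx, ?_⟩
  have hδ' : δ = u * x * (σ x)⁻¹ := by
    rw [mul_assoc, ← hex]; simp [e]
  have hfix : x⁻¹ * δ * σ x = x⁻¹ * u * x := by rw [hδ']; group
  rw [hfix]
  simp only [map_mul, map_inv, hσu]
  rw [hδ']
  group

/-- Twisted conjugacy between fixed elements of the level is conjugacy by fixed elements. -/
theorem twConj_iff {u u' x : G} (hu : u ∈ K) (hu' : u' ∈ K) (hσu : σ u = u) (hσu' : σ u' = u') :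
    x⁻¹ * u * σ x = u' ↔ σ x = x ∧ x⁻¹ * u ^ 3 * x = u' ^ 3 := by
  constructor
  · intro he
    have hN : x⁻¹ * u ^ 3 * x = u' ^ 3 := by
      rw [← twNorm_fixed hσu, ← twNorm_fixed hσu', ← he, twNorm_twConj h.order_three]
    have hc := h.eq_conj_of_pow hu hu' hN
    refine ⟨?_, hN⟩
    rw [← hc] at he
    exact mul_left_cancel he
  · rintro ⟨hx, hN⟩
    rw [hx, h.eq_conj_of_pow hu hu' hN]

/-- The twisted centraliser of a fixed element of the level is the fixed centraliser of its cube. -/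
theorem twCentralizer_iff {u x : G} (hu : u ∈ K) (hσu : σ u = u) :
    x⁻¹ * u * σ x = u ↔ σ x = x ∧ x⁻¹ * u ^ 3 * x = u ^ 3 :=
  h.twConj_iff hu hu hσu hσu

theorem conj_mem_iff_pow {u : G} (hu : u ∈ K) (y : G) :
    y⁻¹ * u * y ∈ K ↔ y⁻¹ * u ^ 3 * y ∈ K := by
  refine ⟨fun hm => ?_, h.root_conj u hu y⟩
  have := pow_mem hm 3
  rwa [show (y⁻¹ * u * y) ^ 3 = y⁻¹ * u ^ 3 * y by
    simpa only [inv_inv] using (conj_pow (a := y⁻¹) (b := u) (i := 3))] at this

/-- A coset fixed by `u ∘ σ` contains a fixed representative, fixed by `u ^ 3`. -/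
theorem exists_fixed_rep {u x : G} (hu : u ∈ K) (hσu : σ u = u) (hx : x⁻¹ * u * σ x ∈ K) :
    ∃ y : G, σ y = y ∧ x⁻¹ * y ∈ K ∧ y⁻¹ * u ^ 3 * y ∈ K := by
  obtain ⟨k, hk, hfix⟩ := h.exists_twConj_fixed hx
  have he : (x * k)⁻¹ * u * σ (x * k) = k⁻¹ * (x⁻¹ * u * σ x) * σ k := by
    rw [map_mul]; group
  have hm : k⁻¹ * (x⁻¹ * u * σ x) * σ k ∈ K :=
    mul_mem (mul_mem (inv_mem hk) hx) (h.stable k hk)
  obtain ⟨hσ, hN⟩ := (h.twConj_iff hu hm hσu hfix).1 he
  exact ⟨x * k, hσ, by simpa using hk, hN ▸ pow_mem hm 3⟩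

/-- A fixed element which is conjugate by a fixed element into the level is a norm. -/
theorem exists_norm_of_conj_mem {γ y : G} (hγ : σ γ = γ) (hy : σ y = y)
    (hm : y⁻¹ * γ * y ∈ K) : ∃ v : G, σ v = v ∧ y⁻¹ * v * y ∈ K ∧ twNorm σ v = γ := by
  obtain ⟨r, hr, hr3⟩ := h.exists_root _ hm
  have hσr : σ r = r := h.eq_of_pow_eq _ (h.stable r hr) _ hr (by
    rw [← map_pow, hr3]; simp [hγ, hy])
  have hv : σ (y * r * y⁻¹) = y * r * y⁻¹ := by simp [hy, hσr]
  refine ⟨y * r * y⁻¹, hv, by simpa [mul_assoc] using hr, ?_⟩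
  rw [twNorm_fixed hv, conj_pow, hr3]
  group

end IsTameLevel

section Cosets

variable (σ K)

/-- The fixed part of the level. -/
abbrev fixedLevel : Subgroup (fixedSubgroup σ) := K.subgroupOf (fixedSubgroup σ)

/-- Inclusion of the cosets of the fixed part. -/
def fixedCosetMap : fixedSubgroup σ ⧸ fixedLevel σ K → G ⧸ K :=
  Quotient.map' Subtype.val fun a b hab => by
    rw [QuotientGroup.leftRel_apply, Subgroup.mem_subgroupOf] at hab
    rw [QuotientGroup.leftRel_apply]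
    simpa using hab

@[simp] theorem fixedCosetMap_mk (y : fixedSubgroup σ) :
    fixedCosetMap σ K (y : fixedSubgroup σ ⧸ fixedLevel σ K) = ((y : G) : G ⧸ K) := rfl

theorem fixedCosetMap_smul (g : fixedSubgroup σ) (c : fixedSubgroup σ ⧸ fixedLevel σ K) :
    fixedCosetMap σ K (g • c) = (g : G) • fixedCosetMap σ K c := by
  induction c using QuotientGroup.induction_on with
  | _ y => rfl

theorem fixedCosetMap_injective : Function.Injective (fixedCosetMap σ K) := by
  intro a b hab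
  induction a using QuotientGroup.induction_on with
  | _ a =>
    induction b using QuotientGroup.induction_on with
    | _ b =>
      simp only [fixedCosetMap_mk, QuotientGroup.eq] at hab
      exact QuotientGroup.eq.2 (Subgroup.mem_subgroupOf.2 (by simpa using hab))

variable {σ K}

/-- The fixed cosets of `x ↦ δ σ(x)`. -/
def twFixCosets (σ : G ≃* G) (K : Subgroup G) (δ : G) : Set (G ⧸ K) :=
  {c | ∃ x : G, (x : G ⧸ K) = c ∧ x⁻¹ * δ * σ x ∈ K}

theorem mk_mem_twFixCosets (hK : ∀ k ∈ K, σ k ∈ K) (δ x : G) :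
    (x : G ⧸ K) ∈ twFixCosets σ K δ ↔ x⁻¹ * δ * σ x ∈ K := by
  refine ⟨?_, fun hx => ⟨x, rfl, hx⟩⟩
  rintro ⟨y, hy, hm⟩
  obtain ⟨k, hk, rfl⟩ : ∃ k ∈ K, x = y * k :=
    ⟨y⁻¹ * x, QuotientGroup.eq.1 hy, by group⟩
  have : (y * k)⁻¹ * δ * σ (y * k) = k⁻¹ * (y⁻¹ * δ * σ y) * σ k := by rw [map_mul]; group
  rw [this]
  exact mul_mem (mul_mem (inv_mem hk) hm) (hK k hk)

theorem smul_mem_twFixCosets_twConj (δ x : G) (c : G ⧸ K) :
    x • c ∈ twFixCosets σ K δ ↔ c ∈ twFixCosets σ K (x⁻¹ * δ * σ x) := by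
  constructor
  · rintro ⟨y, hy, hm⟩
    refine ⟨x⁻¹ * y, by
      rw [show ((x⁻¹ * y : G) : G ⧸ K) = x⁻¹ • (y : G ⧸ K) from rfl, hy, inv_smul_smul], ?_⟩
    convert hm using 1
    rw [map_mul, map_inv]; group
  · rintro ⟨y, rfl, hm⟩
    refine ⟨x * y, rfl, ?_⟩
    convert hm using 1
    rw [map_mul]; group

/-- **Tame matching.** The cosets fixed by `u ∘ σ` are the fixed cosets fixed by `u ^ 3`. -/
theorem IsTameLevel.twFixCosets_eq (h : IsTameLevel σ K) {u : G} (hu : u ∈ K) (hσu : σ u = u) :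
    twFixCosets σ K u =
      fixedCosetMap σ K '' {c | (⟨u, hσu⟩ : fixedSubgroup σ) ^ 3 • c = c} := by
  ext c
  induction c using QuotientGroup.induction_on with
  | _ x =>
    rw [mk_mem_twFixCosets h.stable]
    constructor
    · intro hx
      obtain ⟨y, hy, hxy, hN⟩ := h.exists_fixed_rep hu hσu hx
      refine ⟨((⟨y, hy⟩ : fixedSubgroup σ) : fixedSubgroup σ ⧸ fixedLevel σ K), ?_, ?_⟩
      · show (_ • _ : fixedSubgroup σ ⧸ fixedLevel σ K) = _
        rw [MulAction.Quotient.smul_coe, QuotientGroup.eq, Subgroup.mem_subgroupOf]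
        simpa [mul_assoc] using inv_mem hN
      · rw [fixedCosetMap_mk, QuotientGroup.eq]
        simpa using inv_mem hxy
    · rintro ⟨c, hc, he⟩
      induction c using QuotientGroup.induction_on with
      | _ y =>
        rw [Set.mem_ofPred_eq, MulAction.Quotient.smul_coe, QuotientGroup.eq,
          Subgroup.mem_subgroupOf] at hc
        have hN : (y : G)⁻¹ * u ^ 3 * y ∈ K := by simpa [mul_assoc] using inv_mem hc
        rw [← mk_mem_twFixCosets h.stable]
        rw [← he, fixedCosetMap_mk]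
        refine ⟨y, rfl, ?_⟩
        rw [show σ (y : G) = y from y.2]
        exact (h.conj_mem_iff_pow hu _).2 hN

/-- The bijection of fixed cosets underlying the matching of orbital integrals. -/
noncomputable def IsTameLevel.fixEquiv (h : IsTameLevel σ K) {u : G} (hu : u ∈ K) (hσu : σ u = u) :
    {c : fixedSubgroup σ ⧸ fixedLevel σ K // (⟨u, hσu⟩ : fixedSubgroup σ) ^ 3 • c = c} ≃
      twFixCosets σ K u :=
  (Equiv.Set.image (fixedCosetMap σ K) _ (fixedCosetMap_injective σ K)).trans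
    (Equiv.setCongr (h.twFixCosets_eq hu hσu).symm)

theorem IsTameLevel.fixEquiv_apply (h : IsTameLevel σ K) {u : G} (hu : u ∈ K) (hσu : σ u = u)
    (c : {c : fixedSubgroup σ ⧸ fixedLevel σ K // (⟨u, hσu⟩ : fixedSubgroup σ) ^ 3 • c = c}) :
    (h.fixEquiv hu hσu c : G ⧸ K) = fixedCosetMap σ K c := rfl

end Cosets

end Fermat.Agent.LT.Tame
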