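import Fermat.Agent.LT.Geom.TwistedClasses
import Fermat.Agent.LT.Tame.Abstract

/-!
# Uniqueness of twisted classes over a regular norm

Over any cubic cyclic extension (local or global, split or elliptic torus) two twisted classes
with the same regular norm are twisted conjugate, and regular centralisers are commutative.
-/

set_option autoImplicit false

noncomputable section

namespace Fermat.Agent.LT.Tame

open Matrix
open scoped MatrixGroups

variable {F : Type*} [Field F]

/-- `diag(a, 1)` in `GL₂`. -/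
def diagGL : Fˣ →* GL (Fin 2) F where
  toFun a := ⟨!![(a : F), 0; 0, 1], !![((a⁻¹ : Fˣ) : F), 0; 0, 1],
    by ext i j; fin_cases i <;> fin_cases j <;> simp,
    by ext i j; fin_cases i <;> fin_cases j <;> simp⟩
  map_one' := Units.ext (by simp [Matrix.one_fin_two])
  map_mul' a b := Units.ext (by simp)

@[simp] theorem coe_diagGL (a : Fˣ) :
    (diagGL a : Matrix (Fin 2) (Fin 2) F) = !![(a : F), 0; 0, 1] := rfl

/-- `diag(a, 1)` in `PGL₂`. -/
def diagPGL : Fˣ →* PGL(2, F) := ProjGenLinGroup.mk.comp diagGL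

theorem diagPGL_injective : Function.Injective (diagPGL (F := F)) := by
  intro a b h
  simp only [diagPGL, MonoidHom.comp_apply, ProjGenLinGroup.mk_eq_mk_iff] at h
  obtain ⟨u, hu⟩ := h
  have h0 := congrArg (fun y : GL (Fin 2) F => (y : Matrix (Fin 2) (Fin 2) F) 0 0) hu
  have h1 := congrArg (fun y : GL (Fin 2) F => (y : Matrix (Fin 2) (Fin 2) F) 1 1) hu
  simp [Matrix.mul_apply] at h0 h1
  rw [h1, Units.val_one, mul_one] at h0
  exact Units.ext h0

theorem classInv_diagPGL (a : Fˣ) :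
    Geom.classInv (diagPGL a) = ((a : F) + 1) ^ 2 / a := by
  rw [diagPGL, MonoidHom.comp_apply, Geom.classInv_mk, Geom.matInv]
  simp [Matrix.trace_fin_two, Matrix.det_fin_two]

theorem pglMap_diagPGL {F' : Type*} [Field F'] (f : F →+* F') (a : Fˣ) :
    Geom.pglMap f (diagPGL a) = diagPGL (Units.map f.toMonoidHom a) := by
  rw [diagPGL, MonoidHom.comp_apply, Geom.pglMap_mk, diagPGL, MonoidHom.coe_mk,
    OneHom.coe_mk]
  refine congrArg _ (Units.ext ?_)
  ext i j
  fin_cases i <;> fin_cases j <;> simp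

/-- The centraliser of a regular diagonal class is the diagonal torus. -/
theorem exists_eq_diagPGL {r : Fˣ} (h1 : (r : F) ≠ 1) (h2 : (r : F) ≠ -1) {g : PGL(2, F)}
    (h : Commute g (diagPGL r)) : ∃ a, diagPGL a = g := by
  induction g using ProjGenLinGroup.induction_on with | mk M =>
  have e := h.eq
  rw [diagPGL, MonoidHom.comp_apply, ← map_mul, ← map_mul,
    ProjGenLinGroup.mk_eq_mk_iff] at e
  obtain ⟨u, hu⟩ := e
  set a := (M : Matrix (Fin 2) (Fin 2) F) 0 0 with ha
  set b := (M : Matrix (Fin 2) (Fin 2) F) 0 1 with hb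
  set c := (M : Matrix (Fin 2) (Fin 2) F) 1 0 with hc
  set d := (M : Matrix (Fin 2) (Fin 2) F) 1 1 with hd
  have hent : ∀ i j, ((M : Matrix (Fin 2) (Fin 2) F) * !![(r : F), 0; 0, 1]) i j * (u : F) =
      (!![(r : F), 0; 0, 1] * (M : Matrix (Fin 2) (Fin 2) F)) i j := fun i j => by
    have := congrArg (fun y : GL (Fin 2) F => (y : Matrix (Fin 2) (Fin 2) F) i j) hu
    fin_cases i <;> fin_cases j <;> simpa [Matrix.mul_apply, mul_comm, mul_left_comm] using this
  have e00 : a * r * u = r * a := by simpa [Matrix.mul_apply] using hent 0 0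
  have e01 : b * u = r * b := by simpa [Matrix.mul_apply] using hent 0 1
  have e10 : c * r * u = c := by simpa [Matrix.mul_apply] using hent 1 0
  have e11 : d * u = d := by simpa [Matrix.mul_apply] using hent 1 1
  have hdet : a * d - b * c ≠ 0 := by
    have := ((Matrix.isUnit_iff_isUnit_det (M : Matrix (Fin 2) (Fin 2) F)).1 M.isUnit).ne_zero
    rwa [Matrix.det_fin_two] at this
  have hd0 : d ≠ 0 := by
    intro hd0
    rw [hd0, mul_zero, zero_sub, neg_ne_zero, mul_ne_zero_iff] at hdet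
    have hu1 : (r : F) * u = 1 := mul_left_cancel₀ hdet.2 (by rw [← mul_assoc, e10, mul_one])
    have hu2 : (u : F) = r := mul_left_cancel₀ hdet.1 (by rw [e01, mul_comm])
    rw [hu2] at hu1
    rcases mul_self_eq_one_iff.1 hu1 with hr | hr
    · exact h1 hr
    · exact h2 hr
  have hu : (u : F) = 1 := mul_left_cancel₀ hd0 (by rw [e11, mul_one])
  have hb0 : b = 0 := by
    rw [hu, mul_one] at e01
    by_contra hb0
    exact h1 (mul_right_cancel₀ hb0 (by rw [← e01, one_mul]))
  have hc0 : c = 0 := by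
    rw [hu, mul_one] at e10
    by_contra hc0
    exact h1 (mul_left_cancel₀ hc0 (by rw [e10, mul_one]))
  have ha0 : a ≠ 0 := by
    intro ha0; exact hdet (by rw [ha0, hb0, zero_mul, zero_mul, sub_zero])
  refine ⟨Units.mk0 (a / d) (div_ne_zero ha0 hd0), ?_⟩
  rw [diagPGL, MonoidHom.comp_apply, ProjGenLinGroup.mk_eq_mk_iff]
  refine ⟨Units.mk0 d hd0, Units.ext ?_⟩
  ext i j
  fin_cases i <;> fin_cases j <;>
    simp [Matrix.mul_apply, ← ha, ← hb, ← hc, ← hd, hb0, hc0, div_mul_cancel₀ _ hd0]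

/-- Regular centralisers are commutative. -/
theorem commute_of_commute_regular {g : PGL(2, F)} (h0 : Geom.classInv g ≠ 0)
    (h4 : Geom.classInv g ≠ 4) {a b : PGL(2, F)} (ha : Commute a g) (hb : Commute b g) :
    Commute a b := by
  obtain ⟨p, hp⟩ := isConj_iff.1 (Geom.isConj_classRep h0 h4 rfl)
  have key : ∀ {x : PGL(2, F)}, Commute x g →
      p * x * p⁻¹ ∈ Geom.torus (Geom.classInv g) := fun {x} hx => by
    refine (Geom.mem_centralizer_classRep_iff h0 _).1 ?_
    rw [← hp]
    calc p * x * p⁻¹ * (p * g * p⁻¹) = p * (x * g) * p⁻¹ := by group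
      _ = p * g * p⁻¹ * (p * x * p⁻¹) := by rw [hx.eq]; group
  obtain ⟨x₁, x₂, gx, hgx, hx⟩ := key ha
  obtain ⟨y₁, y₂, gy, hgy, hy⟩ := key hb
  have hxy : p * a * p⁻¹ * (p * b * p⁻¹) = p * b * p⁻¹ * (p * a * p⁻¹) := by
    rw [hx, hy, ← map_mul, ← map_mul]
    refine congrArg _ (Units.ext ?_)
    rw [Units.val_mul, Units.val_mul, hgx, hgy]
    exact Geom.torusMat_mul_comm _ _ _ _ _
  show a * b = b * a
  calc a * b = p⁻¹ * (p * a * p⁻¹ * (p * b * p⁻¹)) * p := by group
    _ = p⁻¹ * (p * b * p⁻¹ * (p * a * p⁻¹)) * p := by rw [hxy]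
    _ = b * a := by group

section Twisted

variable {K K' : Type*} [Field K] [CharZero K] [Field K'] [Algebra K K'] (σ : K' ≃ₐ[K] K')
  (hfix : ∀ x : K', σ x = x → x ∈ Set.range (algebraMap K K'))
  (hne : σ ≠ 1) (hσ : ∀ x, σ (σ (σ x)) = x)

theorem pglSigma_diagPGL (a : K'ˣ) :
    Geom.pglSigma σ (diagPGL a) = diagPGL (Units.map σ.toRingEquiv.toRingHom.toMonoidHom a) := by
  rw [Geom.pglSigma, Geom.pglEquiv_apply, pglMap_diagPGL]

include hne hσ in
/-- Twisted uniqueness in the split torus: Hilbert 90. -/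
theorem exists_twConj_of_twNorm_eq_diag {r : Kˣ} (h1 : (r : K) ≠ 1) (h2 : (r : K) ≠ -1)
    {δ δ' : PGL(2, K')} (h : twNorm (Geom.pglSigma σ) δ = Geom.pglMap (algebraMap K K') (diagPGL r))
    (h' : twNorm (Geom.pglSigma σ) δ' = Geom.pglMap (algebraMap K K') (diagPGL r)) :
    ∃ x, δ' = x⁻¹ * δ * Geom.pglSigma σ x := by
  set r' : K'ˣ := Units.map (algebraMap K K').toMonoidHom r
  rw [pglMap_diagPGL] at h h'
  have hr1 : (r' : K') ≠ 1 := fun e => h1 ((algebraMap K K').injective (e.trans (map_one _).symm))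
  have hr2 : (r' : K') ≠ -1 := fun e =>
    h2 ((algebraMap K K').injective (e.trans (by rw [map_neg, map_one])))
  set s : K'ˣ →* K'ˣ := Units.map σ.toRingEquiv.toRingHom.toMonoidHom
  have hs : ∀ a, Geom.pglSigma σ (diagPGL a) = diagPGL (s a) := pglSigma_diagPGL σ
  have hσr : Geom.pglSigma σ (diagPGL r') = diagPGL r' := by
    rw [hs]; exact congrArg _ (Units.ext (σ.commutes _))
  have hmem : ∀ {x : PGL(2, K')}, twNorm (Geom.pglSigma σ) x = diagPGL r' → ∃ a, diagPGL a = x :=
    fun {x} hx => exists_eq_diagPGL hr1 hr2 (Geom.commute_of_apply_twNorm (Geom.pglSigma σ)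
      (Geom.pglSigma_cube σ hσ) (δ := x)
      ((congrArg (Geom.pglSigma σ) hx).trans (hσr.trans hx.symm)) |> fun hc =>
        (hx ▸ hc : Commute x (diagPGL r')))
  obtain ⟨a, rfl⟩ := hmem h
  obtain ⟨b, rfl⟩ := hmem h'
  rw [twNorm, hs, hs, ← map_mul, ← map_mul, diagPGL_injective.eq_iff] at h h'
  set e := b / a with he
  have hNe : e * s e * s (s e) = 1 := by
    have hh := congrArg₂ (fun x y => x / y) h' h
    simp only [div_self'] at hh
    rw [← hh, he, map_div, map_div]
    simp only [div_eq_mul_inv, mul_inv, mul_comm, mul_left_comm, mul_assoc]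
  obtain ⟨y, hy⟩ := Geom.exists_eval_ne_zero σ hne hσ (e : K') ((e : K') * σ (e : K'))
  set w := y + (e : K') * σ y + (e : K') * σ (e : K') * σ (σ y)
  have hNe' : (e : K') * σ e * σ (σ e) = 1 := congrArg Units.val hNe
  have hw : (e : K') * σ w = w := by
    simp only [w, map_add, map_mul, hσ]
    linear_combination y * hNe'
  set t : K'ˣ := (Units.mk0 w hy)⁻¹
  refine ⟨diagPGL t, ?_⟩
  rw [hs, ← map_inv, ← map_mul, ← map_mul, diagPGL_injective.eq_iff]
  have hst : e = t⁻¹ * s t := by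
    rw [eq_inv_mul_iff_mul_eq]
    refine Units.ext ?_
    have hσw : σ w ≠ 0 := fun e0 => hy (by rw [← hw, e0, mul_zero])
    show ((Units.mk0 w hy)⁻¹ : K'ˣ).1 * (e : K') = σ ((Units.mk0 w hy)⁻¹ : K'ˣ).1
    rw [Units.val_inv_eq_inv_val, Units.val_mk0, map_inv₀]
    field_simp
    linear_combination hw
  rw [mul_right_comm, ← hst, he, div_mul_cancel]

include hfix hne hσ in
/-- **At most one twisted class over a regular norm.** -/
theorem exists_twConj_of_twNorm_eq {γ : PGL(2, K)} (h0 : Geom.classInv γ ≠ 0)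
    (h4 : Geom.classInv γ ≠ 4) {δ δ' : PGL(2, K')}
    (h : twNorm (Geom.pglSigma σ) δ = Geom.pglMap (algebraMap K K') γ)
    (h' : twNorm (Geom.pglSigma σ) δ' = Geom.pglMap (algebraMap K K') γ) :
    ∃ x, δ' = x⁻¹ * δ * Geom.pglSigma σ x := by
  set c := Geom.classInv γ with hc
  by_cases hns : IsSquare (c ^ 2 - 4 * c)
  · obtain ⟨s, hs⟩ := hns
    have hs0 : s ≠ 0 := by
      rintro rfl
      have h5 : c * (c - 4) = 0 := by linear_combination hs
      rcases mul_eq_zero.1 h5 with h5 | h5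
      · exact h0 h5
      · exact h4 (sub_eq_zero.1 h5)
    have hp : (c + s) / 2 * ((c - s) / 2) = c := by
      field_simp
      linear_combination hs
    have hp1 : (c + s) / 2 ≠ 0 := fun e => h0 (by rw [← hp, e, zero_mul])
    have hp2 : (c - s) / 2 ≠ 0 := fun e => h0 (by rw [← hp, e, mul_zero])
    set r : Kˣ := Units.mk0 ((c + s) / 2 / ((c - s) / 2)) (div_ne_zero hp1 hp2)
    have hr1 : (r : K) ≠ 1 := fun e => hs0 (by
      have e' := (div_eq_one_iff_eq hp2).1 e
      linear_combination e')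
    have hr2 : (r : K) ≠ -1 := fun e => h0 (by
      have e' := (div_eq_iff hp2).1 e
      linear_combination e')
    have hcr : Geom.classInv (diagPGL r) = c := by
      rw [classInv_diagPGL]
      simp only [r, Units.val_mk0]
      have h21 : c - s ≠ 0 := fun e => hp2 (by rw [e, zero_div])
      have h11 : c + s ≠ 0 := fun e => hp1 (by rw [e, zero_div])
      field_simp
      linear_combination (-c) * hs
    obtain ⟨p, hpd⟩ := isConj_iff.1 (Geom.isConj_of_classInv_eq (γ := γ) (γ' := diagPGL r)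
      hcr.symm h0 h4)
    set q := Geom.pglMap (algebraMap K K') p with hq
    have hσq : Geom.pglSigma σ q = q := Geom.pglSigma_pglMap σ p
    have hN : ∀ {d : PGL(2, K')}, twNorm (Geom.pglSigma σ) d = Geom.pglMap (algebraMap K K') γ →
        twNorm (Geom.pglSigma σ) (q * d * q⁻¹) = Geom.pglMap (algebraMap K K') (diagPGL r) := by
      intro d hd
      rw [← hpd, map_mul, map_mul, map_inv, ← hq, ← hd]
      simp only [twNorm, map_mul, map_inv, hσq]
      group
    obtain ⟨x, hx⟩ := exists_twConj_of_twNorm_eq_diag σ hne hσ hr1 hr2 (hN h) (hN h')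
    refine ⟨q⁻¹ * x * q, ?_⟩
    rw [map_mul, map_mul, map_inv, hσq,
      show δ' = q⁻¹ * (q * δ' * q⁻¹) * q by group, hx]
    group
  · obtain ⟨g, hg⟩ := Geom.exists_twConj_eq σ hfix hne hσ h0 h4 hns
      (δ := δ) (δ' := δ') (by rw [show Geom.twNorm (Geom.pglSigma σ) δ = _ from h, Geom.classInv_pglMap])
      (by rw [show Geom.twNorm (Geom.pglSigma σ) δ' = _ from h', Geom.classInv_pglMap])
    refine ⟨g⁻¹, ?_⟩
    rw [← hg, Geom.twConj, map_inv, inv_inv]

end Twisted

end Fermat.Agent.LT.Tame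

end
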