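import Fermat.Agent.LT.Tame.Torus

/-!
# The fixed points of a tame level

For a local extension with trivial residue extension, an element of `PGL₂` of the small field lies
in a level upstairs iff it lies in the level downstairs.
-/

set_option autoImplicit false

noncomputable section

namespace Fermat.Agent.LT.Tame

open Matrix IsLocalRing
open scoped MatrixGroups

variable {A₀ A L₀ L : Type*} [CommRing A₀] [IsLocalRing A₀] [CommRing A] [IsLocalRing A]
  [Field L₀] [Algebra A₀ L₀] [IsFractionRing A₀ L₀] [Field L] [Algebra A L] [IsFractionRing A L]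
  (f : A₀ →+* A) [IsLocalHom f] (j : L₀ →+* L)

theorem residue_comp_map (M : GL (Fin 2) A₀) :
    GeneralLinearGroup.map (residue A) (GeneralLinearGroup.map f M) =
      GeneralLinearGroup.map (ResidueField.map f) (GeneralLinearGroup.map (residue A₀) M) := by
  ext i k
  simp [ResidueField.map_residue]

variable (hcompat : ∀ a, j (algebraMap A₀ L₀ a) = algebraMap A L (f a))
  (hcap : ∀ x : L₀, (∃ a, algebraMap A L a = j x) → ∃ a₀, algebraMap A₀ L₀ a₀ = x)

include hcompat hcap in
/-- **Descent of levels.** -/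
theorem mem_levelOf_pglMap_iff {H₀ : Subgroup (GL (Fin 2) (ResidueField A₀))}
    (hZ : Subgroup.center (GL (Fin 2) (ResidueField A₀)) ≤ H₀) (g : PGL(2, L₀)) :
    Geom.pglMap j g ∈ levelOf L (H₀.map (GeneralLinearGroup.map (ResidueField.map f))) ↔
      g ∈ levelOf L₀ H₀ := by
  constructor
  · induction g using ProjGenLinGroup.induction_on with | mk G =>
    intro hg
    obtain ⟨M, hM, hMg⟩ := (mem_levelOf L).1 hg
    rw [Geom.pglMap_mk, toPGL, MonoidHom.comp_apply, eq_comm, mk_eq_mk_iff_smul] at hMg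
    obtain ⟨c, hc⟩ := hMg
    obtain ⟨i₀, k₀, hu⟩ : ∃ i k, IsUnit ((M : Matrix (Fin 2) (Fin 2) A) i k) := by
      by_contra hcon
      simp only [not_exists] at hcon
      have hm : ∀ i k, residue A ((M : Matrix (Fin 2) (Fin 2) A) i k) = 0 := fun i k =>
        (residue_eq_zero_iff _).2 ((mem_maximalIdeal _).2 (hcon i k))
      have hd : IsUnit (det (GeneralLinearGroup.map (residue A) M :
          Matrix (Fin 2) (Fin 2) (ResidueField A))) :=
        (Matrix.isUnit_iff_isUnit_det _).1 (Units.isUnit _)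
      rw [show det (GeneralLinearGroup.map (residue A) M : Matrix (Fin 2) (Fin 2) (ResidueField A))
        = 0 by simp [det_fin_two, hm]] at hd
      exact not_isUnit_zero hd
    obtain ⟨u, hu⟩ := hu
    set x := fun i k => (G : Matrix (Fin 2) (Fin 2) L₀) i k / (G : Matrix (Fin 2) (Fin 2) L₀) i₀ k₀
    have hent : ∀ i k, algebraMap A L ((M : Matrix (Fin 2) (Fin 2) A) i k) =
        (c : L) * j ((G : Matrix (Fin 2) (Fin 2) L₀) i k) := fun i k => by
      simpa using congrFun (congrFun hc i) k
    have hG0 : j ((G : Matrix (Fin 2) (Fin 2) L₀) i₀ k₀) ≠ 0 := fun h0 => by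
      have := hent i₀ k₀
      rw [h0, mul_zero, ← hu] at this
      exact (u.isUnit.map (algebraMap A L)).ne_zero this
    have hj : ∀ i k, j (x i k) = algebraMap A L (↑u⁻¹ * (M : Matrix (Fin 2) (Fin 2) A) i k) := by
      intro i k
      rw [map_mul, map_units_inv, hu, hent, hent, map_div₀]
      field_simp
    choose M₀ hM₀ using fun i k => hcap (x i k) ⟨_, (hj i k).symm⟩
    have hf : (Matrix.of M₀).map f = (↑u⁻¹ : A) • (M : Matrix (Fin 2) (Fin 2) A) := by
      ext i k
      apply IsFractionRing.injective A L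
      simp only [Matrix.map_apply, Matrix.of_apply, Matrix.smul_apply, smul_eq_mul]
      rw [← hcompat, hM₀, hj]
    have hdet : IsUnit (det (Matrix.of M₀)) := isUnit_of_map_unit f _ (by
      rw [RingHom.map_det, RingHom.mapMatrix_apply, hf, det_smul]
      exact (u⁻¹.isUnit.pow _).mul ((Matrix.isUnit_iff_isUnit_det _).1 M.isUnit))
    refine (mem_levelOf L₀).2 ⟨GeneralLinearGroup.mk'' _ hdet, ?_, ?_⟩
    · obtain ⟨h₀, hh₀, hMh⟩ := Subgroup.mem_map.1 hM
      set ι := ResidueField.map f
      have hu' : residue A (u : A) = ι ((h₀ : Matrix (Fin 2) (Fin 2) _) i₀ k₀) := by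
        rw [hu]
        exact (congrArg (fun y : GL (Fin 2) (ResidueField A) =>
          (y : Matrix (Fin 2) (Fin 2) (ResidueField A)) i₀ k₀) hMh).symm
      have h00 : (h₀ : Matrix (Fin 2) (Fin 2) (ResidueField A₀)) i₀ k₀ ≠ 0 := fun h0 => by
        rw [h0, map_zero] at hu'
        exact (u.isUnit.map (residue A)).ne_zero hu'
      set z : GL (Fin 2) (ResidueField A₀) :=
        GeneralLinearGroup.scalar (Fin 2) (Units.mk0 _ h00)⁻¹
      have hz : z ∈ H₀ := hZ (by
        rw [GeneralLinearGroup.center_eq_range_scalar]; exact ⟨_, rfl⟩)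
      convert H₀.mul_mem hz hh₀
      refine Units.ext (Matrix.ext fun i k => ι.injective ?_)
      have h1 : ι (residue A₀ (M₀ i k)) =
          residue A (↑u⁻¹ : A) * ι ((h₀ : Matrix (Fin 2) (Fin 2) _) i k) := by
        rw [ResidueField.map_residue, show f (M₀ i k) = _ from congrFun (congrFun hf i) k,
          Matrix.smul_apply, smul_eq_mul, map_mul]
        congr 1
        exact (congrArg (fun y : GL (Fin 2) (ResidueField A) =>
          (y : Matrix (Fin 2) (Fin 2) (ResidueField A)) i k) hMh).symm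
      rw [map_units_inv, hu', ← map_inv₀, ← map_mul] at h1
      refine h1.trans ?_
      simp [z, Matrix.mul_apply, GeneralLinearGroup.scalar, Fin.sum_univ_two]
      fin_cases i <;> simp
    · rw [toPGL, MonoidHom.comp_apply, eq_comm, mk_eq_mk_iff_smul]
      have hG : (G : Matrix (Fin 2) (Fin 2) L₀) i₀ k₀ ≠ 0 := fun h0 => hG0 (by rw [h0, map_zero])
      refine ⟨(Units.mk0 _ hG)⁻¹, ?_⟩
      ext i k
      simp only [coe_map_algebraMap, RingHom.mapMatrix_apply, Matrix.map_apply, Matrix.smul_apply,
        smul_eq_mul, Units.val_inv_eq_inv_val, Units.val_mk0]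
      rw [show (GeneralLinearGroup.mk'' _ hdet : Matrix (Fin 2) (Fin 2) A₀) i k = M₀ i k from rfl,
        hM₀]
      exact (div_eq_inv_mul _ _)
  · intro hg
    obtain ⟨M₀, hM₀, rfl⟩ := (mem_levelOf L₀).1 hg
    refine (mem_levelOf L).2 ⟨GeneralLinearGroup.map f M₀, ?_, ?_⟩
    · rw [residue_comp_map]; exact Subgroup.mem_map_of_mem _ hM₀
    · simp only [toPGL, MonoidHom.comp_apply, Geom.pglMap_mk]
      congr 1
      ext i k
      simp [hcompat]

theorem center_le_torus {k : Type*} [Field k] (a : k) :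
    Subgroup.center (GL (Fin 2) k) ≤ torus a := by
  rw [GeneralLinearGroup.center_eq_range_scalar]
  rintro _ ⟨c, rfl⟩
  refine ⟨c, 0, ?_⟩
  ext i j
  fin_cases i <;> fin_cases j <;> simp [torusMat, GeneralLinearGroup.scalar]

theorem map_torus {k k' : Type*} [Field k] [Field k'] (ι : k →+* k')
    (hι : Function.Surjective ι) (a : k) :
    (torus a).map (GeneralLinearGroup.map ι) = torus (ι a) := by
  ext g
  constructor
  · rintro ⟨h, ⟨x, y, hxy⟩, rfl⟩
    refine ⟨ι x, ι y, ?_⟩
    ext i j
    fin_cases i <;> fin_cases j <;> simp [torusMat, hxy]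
  · rintro ⟨x, y, hxy⟩
    obtain ⟨x, rfl⟩ := hι x
    obtain ⟨y, rfl⟩ := hι y
    have hd : IsUnit (det (torusMat a x y)) := isUnit_of_map_unit ι _ (by
      rw [RingHom.map_det, show ι.mapMatrix (torusMat a x y) = torusMat (ι a) (ι x) (ι y) by
        ext i j; fin_cases i <;> fin_cases j <;> simp [torusMat], ← hxy]
      exact (Matrix.isUnit_iff_isUnit_det _).1 g.isUnit)
    refine ⟨GeneralLinearGroup.mk'' _ hd, ⟨x, y, rfl⟩, ?_⟩
    ext i j
    rw [hxy]
    fin_cases i <;> fin_cases j <;> simp [torusMat]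

include hcompat hcap in
/-- The torus level upstairs meets `PGL₂(L₀)` in the torus level downstairs. -/
theorem mem_levelOf_torus_pglMap_iff (hres : Function.Surjective (ResidueField.map f))
    (a : ResidueField A₀) (g : PGL(2, L₀)) :
    Geom.pglMap j g ∈ levelOf L (torus (ResidueField.map f a)) ↔ g ∈ levelOf L₀ (torus a) := by
  rw [← map_torus _ hres]
  exact mem_levelOf_pglMap_iff f j hcompat hcap (center_le_torus a) g

end Fermat.Agent.LT.Tame

end
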