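import Fermat.Agent.LT.Tame.Abstract
import Mathlib.Algebra.Group.Int.Defs
import Mathlib.RingTheory.Coprime.Lemmas
import Mathlib.RingTheory.Int.Basic

/-!
# Enlarging a tame level by a group of order prime to three
-/

set_option autoImplicit false

namespace Fermat.Agent.LT.Tame

variable {G : Type*} [Group G] {σ : G ≃* G} {K₁ K : Subgroup G} {m : ℕ}

/-- If `K` contains a tame level `K₁` normally, `σ` is trivial on `K/K₁` and the exponent of
`K/K₁` is prime to three, then `K` is a tame level. -/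
theorem IsTameLevel.of_finite_index (h : IsTameLevel σ K₁) (hle : K₁ ≤ K) (hm : m.Coprime 3)
    (hpow : ∀ k ∈ K, k ^ m ∈ K₁) (hnormal : ∀ k ∈ K, ∀ a ∈ K₁, k⁻¹ * a * k ∈ K₁)
    (hσK : ∀ k ∈ K, k⁻¹ * σ k ∈ K₁) : IsTameLevel σ K := by
  obtain ⟨i, j, hij⟩ : ∃ i j : ℤ, i * m + j * 3 = 1 := by
    obtain ⟨a, b, hab⟩ := (Nat.isCoprime_iff_coprime.2 hm : IsCoprime (m : ℤ) (3 : ℕ))
    exact ⟨a, b, by exact_mod_cast hab⟩
  have hexp : ∀ g : G, g = (g ^ m) ^ i * (g ^ 3) ^ j := fun g => by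
    rw [← zpow_natCast g m, ← zpow_natCast g 3, ← zpow_mul, ← zpow_mul, ← zpow_add]
    rw [show (m : ℤ) * i + ((3 : ℕ) : ℤ) * j = 1 by push_cast; linarith, zpow_one]
  constructor
  · intro k hk
    simpa using mul_mem hk (hle (hσK k hk))
  · exact h.order_three
  · intro k hk
    obtain ⟨r, hr, hr3⟩ := h.exists_root _ (hpow k hk)
    -- `k = (k ^ m) ^ i * (k ^ 3) ^ j`, so `r ^ i * k ^ j` is a root
    have hc : Commute r k := by
      have hk' : k⁻¹ * r * k = r := by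
        refine h.eq_of_pow_eq _ (hnormal k hk r hr) _ hr ?_
        rw [show (k⁻¹ * r * k) ^ 3 = k⁻¹ * r ^ 3 * k by
          simpa only [inv_inv] using (conj_pow (a := k⁻¹) (b := r) (i := 3)), hr3]
        rw [mul_assoc, ← pow_succ, pow_succ', inv_mul_cancel_left]
      calc r * k = k * (k⁻¹ * r * k) := by group
        _ = k * r := by rw [hk']
    refine ⟨r ^ i * k ^ j, mul_mem (zpow_mem (hle hr) i) (zpow_mem hk j), ?_⟩
    calc (r ^ i * k ^ j) ^ 3 = (r ^ i) ^ 3 * (k ^ j) ^ 3 := (hc.zpow_zpow i j).mul_pow 3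
      _ = (r ^ 3) ^ i * (k ^ 3) ^ j := by
        simp only [← zpow_natCast, ← zpow_mul, mul_comm]
      _ = k := by rw [hr3, ← hexp]
  · intro u hu v hv he
    have hm' : u ^ m = v ^ m := by
      refine h.eq_of_pow_eq _ (hpow u hu) _ (hpow v hv) ?_
      rw [← pow_mul, ← pow_mul, mul_comm, pow_mul, he, ← pow_mul]
    rw [hexp u, hexp v, hm', he]
  · intro u hu x hx
    have hm' : x⁻¹ * u ^ m * x ∈ K₁ := by
      refine h.root_conj _ (hpow u hu) x ?_
      rw [← pow_mul, mul_comm m, pow_mul, show x⁻¹ * (u ^ 3) ^ m * x = (x⁻¹ * u ^ 3 * x) ^ m by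
        simpa only [inv_inv] using ((conj_pow (a := x⁻¹) (b := u ^ 3) (i := m))).symm]
      exact hpow _ hx
    rw [show x⁻¹ * u * x = (x⁻¹ * u ^ m * x) ^ i * (x⁻¹ * u ^ 3 * x) ^ j by
      have h1 : (x⁻¹ * u ^ m * x) ^ i = x⁻¹ * (u ^ m) ^ i * x := by
        simpa only [inv_inv] using (conj_zpow (a := x⁻¹) (b := u ^ m) (i := i))
      have h2 : (x⁻¹ * u ^ 3 * x) ^ j = x⁻¹ * (u ^ 3) ^ j * x := by
        simpa only [inv_inv] using (conj_zpow (a := x⁻¹) (b := u ^ 3) (i := j))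
      rw [h1, h2]
      conv_lhs => rw [hexp u]
      group]
    exact mul_mem (zpow_mem (hle hm') i) (zpow_mem hx j)
  · intro e he hN
    -- `σ` is trivial modulo `K₁`, so `e ^ 3` and hence `e` lies in `K₁`
    have ha := hσK e he
    have hσe : σ e = e * (e⁻¹ * σ e) := by group
    set a := e⁻¹ * σ e
    have hN' : e ^ 3 * ((e⁻¹ * a * e) * a * σ a) = 1 := by
      rw [hσe, map_mul, hσe] at hN
      rw [← hN, show e ^ 3 = e * e * e by rw [pow_succ, sq]]
      group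
    have he3 : e ^ 3 ∈ K₁ := by
      rw [eq_inv_of_mul_eq_one_left hN']
      exact inv_mem (mul_mem (mul_mem (hnormal e he a ha) ha) (h.stable a ha))
    have he1 : e ∈ K₁ := by
      rw [hexp e]
      exact mul_mem (zpow_mem (hpow e he) i) (zpow_mem he3 j)
    obtain ⟨x, hx, hxe⟩ := h.exists_h1 e he1 hN
    exact ⟨x, hle hx, hxe⟩

end Fermat.Agent.LT.Tame
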