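import Fermat.Agent.LT.Tame.Cartan
import Mathlib.GroupTheory.GroupAction.Quotient
import Mathlib.LinearAlgebra.Finsupp.LinearCombination
import Mathlib.Analysis.Complex.Basic

/-!
# Invariants of a tame level in the translates of a spherical vector

If a level has the orbits of a maximal compact on its cosets, an invariant vector in the span of
the translates of a spherical Hecke eigenvector is a multiple of that vector.
-/

set_option autoImplicit false

noncomputable section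

namespace Fermat.Agent.LT.Tame

open MulAction
open scoped Pointwise

variable {G V : Type*} [Group G] [AddCommGroup V] [Module ℂ V] (ρ : G →* (V →ₗ[ℂ] V))
  (K₀ KC : Subgroup G) {φ₀ : V} (hfix : ∀ k ∈ K₀, ρ k φ₀ = φ₀)

include hfix in
theorem apply_out (g : G) : ρ (Quotient.out (g : G ⧸ K₀)) φ₀ = ρ g φ₀ := by
  obtain ⟨k, hk⟩ := QuotientGroup.mk_out_eq_mul K₀ g
  rw [hk, map_mul, Module.End.mul_apply, hfix k k.2]

include hfix in
/-- Averaging over a finite quotient of the small level is a multiple of the orbit sum. -/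
theorem exists_sum_quotient_eq (H : Subgroup KC) [Fintype (KC ⧸ H)] (g : G)
    (hH : ∀ h ∈ H, ((h : G) * g : G ⧸ K₀) = (g : G ⧸ K₀))
    (hle : KC ≤ K₀) (hfin : (orbit K₀ (g : G ⧸ K₀)).Finite)
    (htrans : ∀ k ∈ K₀, ∃ h ∈ KC, (h * g)⁻¹ * (k * g) ∈ K₀) :
    ∃ N : ℕ, ∑ q : KC ⧸ H, ρ ((q.out : G) * g) φ₀ =
      N • ∑ y ∈ hfin.toFinset, ρ y.out φ₀ := by
  classical
  set π : KC ⧸ H → G ⧸ K₀ := fun q => ((q.out : G) * g : G) with hπ
  have hπk : ∀ k : KC, π (k : KC ⧸ H) = ((k : G) * g : G) := fun k => by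
    obtain ⟨h, hh⟩ := QuotientGroup.mk_out_eq_mul H k
    have hmem := hH h h.2
    simp only [hπ, hh, Subgroup.coe_mul]
    rw [QuotientGroup.eq] at hmem ⊢
    simpa [mul_assoc] using hmem
  have hπsmul : ∀ (k : KC) (q : KC ⧸ H), π (k • q) = (k : G) • π q := fun k q => by
    induction q using QuotientGroup.induction_on with
    | _ k' =>
      show π ((k * k' : KC) : KC ⧸ H) = _
      rw [hπk, hπk, Subgroup.coe_mul, mul_assoc]
      rfl
  have himage : Finset.univ.image π = hfin.toFinset := by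
    ext y
    simp only [Finset.mem_image, Finset.mem_univ, true_and, Set.Finite.mem_toFinset, mem_orbit_iff]
    constructor
    · rintro ⟨q, rfl⟩
      exact ⟨⟨q.out, hle q.out.2⟩, rfl⟩
    · rintro ⟨⟨k, hk⟩, rfl⟩
      obtain ⟨h, hh, hhk⟩ := htrans k hk
      exact ⟨((⟨h, hh⟩ : KC) : KC ⧸ H), (hπk _).trans (QuotientGroup.eq.2 hhk)⟩
  set N := (Finset.univ.filter fun q => π q = (g : G ⧸ K₀)).card
  have hfib : ∀ y ∈ Finset.univ.image π, (Finset.univ.filter fun q => π q = y).card = N := by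
    intro y hy
    obtain ⟨q, -, rfl⟩ := Finset.mem_image.1 hy
    refine (Finset.card_bij (fun r _ => q.out • r) (fun r hr => ?_) (fun _ _ _ _ h =>
      smul_left_cancel _ h) fun r hr => ⟨q.out⁻¹ • r, ?_, smul_inv_smul _ _⟩).symm
    · simp only [Finset.mem_filter, Finset.mem_univ, true_and] at hr ⊢
      rw [hπsmul, hr]
      rfl
    · simp only [Finset.mem_filter, Finset.mem_univ, true_and] at hr ⊢
      rw [hπsmul, hr, Subgroup.coe_inv, inv_smul_eq_iff]
      rfl
  refine ⟨N, ?_⟩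
  calc ∑ q : KC ⧸ H, ρ ((q.out : G) * g) φ₀ = ∑ q : KC ⧸ H, ρ (π q).out φ₀ :=
        Finset.sum_congr rfl fun q _ => (apply_out ρ K₀ hfix _).symm
    _ = ∑ y ∈ Finset.univ.image π, (Finset.univ.filter fun q => π q = y).card • ρ y.out φ₀ :=
        Finset.sum_comp (fun y : G ⧸ K₀ => ρ y.out φ₀) π
    _ = _ := by
        rw [← himage, Finset.smul_sum]
        exact Finset.sum_congr rfl fun y hy => by rw [hfib y hy]

include hfix in
/-- **Invariants of a level with full orbits.** -/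
theorem mem_span_of_invariant (hle : KC ≤ K₀)
    (hfin : ∀ g : G, (orbit K₀ (g : G ⧸ K₀)).Finite)
    (htrans : ∀ g : G, ∀ k ∈ K₀, ∃ h ∈ KC, (h * g)⁻¹ * (k * g) ∈ K₀)
    (heigen : ∀ g : G, ∃ c : ℂ, ∑ y ∈ (hfin g).toFinset, ρ y.out φ₀ = c • φ₀)
    {v : V} (hv : v ∈ Submodule.span ℂ (Set.range fun g : G => ρ g φ₀))
    (hinv : ∀ k ∈ KC, ρ k v = v) : v ∈ Submodule.span ℂ {φ₀} := by
  classical
  obtain ⟨c, rfl⟩ := Finsupp.mem_span_range_iff_exists_finsupp.1 hv
  set H : Subgroup KC := ⨅ g ∈ c.support, stabilizer KC (g : G ⧸ K₀) with hH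
  haveI : H.FiniteIndex := by
    refine Subgroup.finiteIndex_iInf' _ fun g _ => ?_
    have hf : (orbit KC (g : G ⧸ K₀)).Finite :=
      (hfin g).subset fun y ⟨k, hk⟩ => ⟨⟨k, hle k.2⟩, hk⟩
    haveI := hf.to_subtype
    haveI := Finite.of_equiv _ (orbitEquivQuotientStabilizer KC (g : G ⧸ K₀))
    exact Subgroup.finiteIndex_of_finite_quotient
  letI : Fintype (KC ⧸ H) := Fintype.ofFinite _
  have hterm : ∀ g ∈ c.support, ∑ q : KC ⧸ H, ρ ((q.out : G) * g) φ₀ ∈ Submodule.span ℂ {φ₀} := by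
    intro g hg
    obtain ⟨N, hN⟩ := exists_sum_quotient_eq ρ K₀ KC hfix H g
      (fun h hh => (Subgroup.mem_iInf.1 (Subgroup.mem_iInf.1 hh g) hg : _)) hle (hfin g) (htrans g)
    obtain ⟨e, he⟩ := heigen g
    rw [hN, he]
    exact Submodule.smul_of_tower_mem _ _
      (Submodule.smul_mem _ _ (Submodule.mem_span_singleton_self φ₀))
  have hsum : (Fintype.card (KC ⧸ H) : ℂ) • (c.sum fun g a => a • ρ g φ₀) =
      ∑ g ∈ c.support, c g • ∑ q : KC ⧸ H, ρ ((q.out : G) * g) φ₀ := by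
    calc (Fintype.card (KC ⧸ H) : ℂ) • (c.sum fun g a => a • ρ g φ₀)
        = ∑ _q : KC ⧸ H, c.sum fun g a => a • ρ g φ₀ := by
          rw [Finset.sum_const, Finset.card_univ, Nat.cast_smul_eq_nsmul]
      _ = ∑ q : KC ⧸ H, ρ (q.out : G) (c.sum fun g a => a • ρ g φ₀) :=
          Finset.sum_congr rfl fun q _ => (hinv _ q.out.2).symm
      _ = _ := by
          simp only [Finsupp.sum, map_sum, map_smul]
          rw [Finset.sum_comm]
          refine Finset.sum_congr rfl fun g _ => ?_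
          rw [Finset.smul_sum]
          simp [map_mul]
  rw [← Submodule.smul_mem_iff (Submodule.span ℂ {φ₀})
    (show (Fintype.card (KC ⧸ H) : ℂ) ≠ 0 by exact_mod_cast Fintype.card_ne_zero), hsum]
  exact Submodule.sum_mem _ fun g hg => Submodule.smul_mem _ _ (hterm g hg)

open scoped MatrixGroups in
/-- The torus level fixes only the spherical line in the span of the translates. -/
theorem mem_span_of_torus_invariant {A : Type*} [CommRing A] [IsDomain A] [ValuationRing A]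
    (L : Type*) [Field L] [Algebra A L] [IsFractionRing A L] {a : IsLocalRing.ResidueField A}
    (ha : ∀ t, t ^ 2 - t ≠ a) (ρ : PGL(2, L) →* (V →ₗ[ℂ] V))
    (hfix : ∀ k ∈ fullLevel (A := A) L, ρ k φ₀ = φ₀)
    (hfin : ∀ g : PGL(2, L), (orbit (fullLevel (A := A) L) (g : PGL(2, L) ⧸ fullLevel (A := A) L)).Finite)
    (heigen : ∀ g : PGL(2, L), ∃ c : ℂ, ∑ y ∈ (hfin g).toFinset, ρ y.out φ₀ = c • φ₀)
    {v : V} (hv : v ∈ Submodule.span ℂ (Set.range fun g : PGL(2, L) => ρ g φ₀))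
    (hinv : ∀ k ∈ levelOf L (torus a), ρ k v = v) : v ∈ Submodule.span ℂ {φ₀} :=
  mem_span_of_invariant ρ (fullLevel (A := A) L) (levelOf L (torus a)) hfix
    (levelOf_le_fullLevel L _) hfin (fun g k hk => exists_torus_coset_eq L ha g k hk) heigen hv hinv

end Fermat.Agent.LT.Tame

end
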