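import Fermat.Agent.LT.Tame.SplitPlace
import Fermat.Agent.LT.Descent.Tensor

/-!
# The split matching for invariant matrices

An invariant matrix on a coset space is the kernel of a bi-invariant function, composition being
convolution; the split matching is restated in these terms.
-/

set_option autoImplicit false

noncomputable section

namespace Fermat.Agent.LT.Tame

open Fermat.Agent.LT.Descent

variable {G : Type*} [Group G] {K : Subgroup G}

/-- The function of an invariant matrix: its row at the base point. -/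
def lkerFun (l : LKer G (G ⧸ K)) : G → ℂ := fun g => l ((1 : G) : G ⧸ K) (g : G ⧸ K)

theorem isBiInvariant_lkerFun (l : LKer G (G ⧸ K)) : IsBiInvariant K (lkerFun l) := by
  intro k hk m hm g
  show l _ _ = l _ _
  have hone : k • ((1 : G) : G ⧸ K) = ((1 : G) : G ⧸ K) := by
    rw [MulAction.Quotient.smul_coe, smul_eq_mul, mul_one]
    exact QuotientGroup.eq.2 (by simpa using hk)
  have hmul : ((k * g * m : G) : G ⧸ K) = k • (g : G ⧸ K) := by
    rw [MulAction.Quotient.smul_coe, smul_eq_mul]
    exact QuotientGroup.eq.2 (by simpa [mul_assoc] using inv_mem hm)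
  conv_lhs => rw [hmul, ← hone]
  rw [l.smul']

theorem cosetKernel_lkerFun (l : LKer G (G ⧸ K)) (a c : G ⧸ K) :
    cosetKernel (isBiInvariant_lkerFun l) a c = l a c := by
  induction a using QuotientGroup.induction_on with | _ x =>
  induction c using QuotientGroup.induction_on with | _ y =>
  rw [cosetKernel_mk, lkerFun, ← l.smul' x, MulAction.Quotient.smul_coe,
    MulAction.Quotient.smul_coe, smul_eq_mul, smul_eq_mul, mul_one, mul_inv_cancel_left]

theorem hasFiniteSupportMod_lkerFun (l : LKer G (G ⧸ K)) :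
    HasFiniteSupportMod (isBiInvariant_lkerFun l) :=
  (l.finite_row _).subset fun c hc => by
    rwa [Function.mem_support, cosetKernel_lkerFun] at hc

theorem lkerFun_comp (l m : LKer G (G ⧸ K)) :
    lkerFun (l.comp m) = heckeConv (isBiInvariant_lkerFun l) (isBiInvariant_lkerFun m) := by
  funext g
  simp only [heckeConv, cosetKernel_lkerFun]
  rfl

theorem lkerFun_one : lkerFun (LKer.one G (G ⧸ K)) = levelIndicator K := by
  classical
  funext g
  rw [levelIndicator, lkerFun]
  have hiff : ((1 : G) : G ⧸ K) = (g : G ⧸ K) ↔ g ∈ K := QuotientGroup.eq.trans (by simp)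
  by_cases h : g ∈ K
  · rw [if_pos h, ← hiff.2 h, LKer.one_apply_self]
  · rw [if_neg h, LKer.one_apply_ne (mt hiff.1 h)]

theorem cosetKernel_levelIndicator_eq_one (a c : G ⧸ K) :
    cosetKernel (isBiInvariant_levelIndicator K) a c = LKer.one G (G ⧸ K) a c := by
  classical
  rw [cosetKernel_levelIndicator]
  by_cases h : a = c
  · subst h; rw [if_pos rfl, LKer.one_apply_self]
  · rw [if_neg h, LKer.one_apply_ne h]

/-- **Split matching for invariant matrices.** -/
theorem hasFibreMatch_split_lker {l l₁ l₂ l₃ : LKer G (G ⧸ K)}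
    (hl : l = l₁.comp (l₂.comp l₃)) (d : G × G × G) {γ : G} (hd : prod3 d = γ)
    {T : Type*} [Group T] [MulAction T (G ⧸ K)] :
    HasFibreMatch T (fun y : G ⧸ K => l y (γ • y))
      (fun y : (G ⧸ K) × (G ⧸ K) × (G ⧸ K) =>
        l₁ y.1 (d.1 • y.2.1) * (l₂ y.2.1 (d.2.1 • y.2.2) * l₃ y.2.2 (d.2.2 • y.1))) := by
  have h := hasFibreMatch_split (isBiInvariant_lkerFun l₁) (isBiInvariant_lkerFun l₂)
    (isBiInvariant_lkerFun l₃) (hasFiniteSupportMod_lkerFun l₁) (hasFiniteSupportMod_lkerFun l₂)
    d (T := T)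
  have hfun : lkerFun l =
      heckeConv (isBiInvariant_lkerFun l₁) (isBiInvariant_heckeConv (isBiInvariant_lkerFun l₂)
        (isBiInvariant_lkerFun l₃)) := by
    rw [hl, lkerFun_comp]
    funext g
    simp only [heckeConv]
    refine finsum_congr fun c => ?_
    induction c using QuotientGroup.induction_on with | _ x =>
    simp only [cosetKernel_mk, lkerFun_comp]
  have hker : ∀ a c, cosetKernel (isBiInvariant_heckeConv (isBiInvariant_lkerFun l₁)
      (isBiInvariant_heckeConv (isBiInvariant_lkerFun l₂) (isBiInvariant_lkerFun l₃))) a c =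
        l a c := by
    intro a c
    rw [← cosetKernel_lkerFun l]
    induction a using QuotientGroup.induction_on with | _ x =>
    induction c using QuotientGroup.induction_on with | _ y =>
    simp only [cosetKernel_mk, hfun]
  simpa only [hker, cosetKernel_lkerFun, hd] using h

/-- With the identity at all three places base point goes to base point. -/
theorem hasBaseMatch_split_lker {d : G × G × G} (h₁ : d.1 ∈ K) (h₂ : d.2.1 ∈ K) (h₃ : d.2.2 ∈ K)
    {γ : G} (hd : prod3 d = γ) {T : Type*} [Group T] [MulAction T (G ⧸ K)] :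
    HasBaseMatch T (fun y : G ⧸ K => LKer.one G (G ⧸ K) y (γ • y))
      (fun y : (G ⧸ K) × (G ⧸ K) × (G ⧸ K) =>
        LKer.one G (G ⧸ K) y.1 (d.1 • y.2.1) *
          (LKer.one G (G ⧸ K) y.2.1 (d.2.1 • y.2.2) * LKer.one G (G ⧸ K) y.2.2 (d.2.2 • y.1)))
      ((1 : G) : G ⧸ K) (((1 : G) : G ⧸ K), ((1 : G) : G ⧸ K), ((1 : G) : G ⧸ K)) := by
  simpa only [cosetKernel_levelIndicator_eq_one, hd] using hasBaseMatch_split K h₁ h₂ h₃ (T := T)

end Fermat.Agent.LT.Tame

end
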