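import Fermat.Agent.LT.Tame.MatrixCube
import Fermat.Agent.LT.Tame.FiniteIndex
import Fermat.Agent.LT.Geom.TwistedClasses
import Mathlib.LinearAlgebra.Matrix.GeneralLinearGroup.Projective
import Mathlib.RingTheory.Localization.FractionRing

/-!
# Tame levels in `PGL₂`

For a henselian integrally closed local domain `A` with `3 ∈ Aˣ`, fraction field `L` and an
automorphism `σ` of order three acting trivially on the residue field, the image in `PGL₂(L)` of
the preimage of a subgroup of `GL₂` of the residue field of exponent prime to three modulo scalars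
is a tame level.
-/

set_option autoImplicit false

namespace Fermat.Agent.LT.Tame

open Matrix IsLocalRing
open scoped MatrixGroups

section Map

variable {R S : Type*} [CommRing R] [CommRing S]

theorem map_scalar (f : R →+* S) (u : Rˣ) :
    GeneralLinearGroup.map f (GeneralLinearGroup.scalar (Fin 2) u) =
      GeneralLinearGroup.scalar (Fin 2) (Units.map f u) := by
  ext i j
  by_cases h : i = j <;> simp [GeneralLinearGroup.scalar, h]

theorem mk_eq_mk_iff_smul {g₁ g₂ : GL (Fin 2) R} :
    ProjGenLinGroup.mk g₁ = ProjGenLinGroup.mk g₂ ↔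
      ∃ u : Rˣ, (g₂ : Matrix (Fin 2) (Fin 2) R) = (u : R) • (g₁ : Matrix (Fin 2) (Fin 2) R) := by
  rw [ProjGenLinGroup.mk_eq_mk_iff]
  refine exists_congr fun u => ⟨fun h => ?_, fun h => Units.ext ?_⟩
  · rw [← h]; ext i j; simp [GeneralLinearGroup.scalar, mul_comm]
  · rw [h]; ext i j; simp [GeneralLinearGroup.scalar, mul_comm]

end Map

variable {A : Type*} [CommRing A] [IsLocalRing A]

/-- A matrix congruent to one as an element of `GL₂`. -/
noncomputable def congrGL {U : Matrix (Fin 2) (Fin 2) A} (h : IsCongrOne U) : GL (Fin 2) A :=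
  GeneralLinearGroup.mk'' U h.isUnit_det

@[simp] theorem coe_congrGL {U : Matrix (Fin 2) (Fin 2) A} (h : IsCongrOne U) :
    (congrGL h : Matrix (Fin 2) (Fin 2) A) = U := rfl

variable (L : Type*) [Field L] [Algebra A L]

/-- `GL₂(A) → PGL₂(L)`. -/
noncomputable def toPGL : GL (Fin 2) A →* PGL(2, L) :=
  ProjGenLinGroup.mk.comp (GeneralLinearGroup.map (algebraMap A L))

/-- The level attached to a subgroup of `GL₂` of the residue field. -/
noncomputable def levelOf (H : Subgroup (GL (Fin 2) (ResidueField A))) : Subgroup PGL(2, L) :=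
  (H.comap (GeneralLinearGroup.map (residue A))).map (toPGL L)

theorem mem_levelOf {H : Subgroup (GL (Fin 2) (ResidueField A))} {g : PGL(2, L)} :
    g ∈ levelOf L H ↔ ∃ M : GL (Fin 2) A,
      GeneralLinearGroup.map (residue A) M ∈ H ∧ toPGL L M = g := by
  simp [levelOf, Subgroup.mem_map]

/-- The principal congruence level. -/
noncomputable def principalLevel : Subgroup PGL(2, L) := levelOf (A := A) L ⊥

theorem mem_principalLevel {g : PGL(2, L)} :
    g ∈ principalLevel (A := A) L ↔
      ∃ (U : Matrix (Fin 2) (Fin 2) A) (h : IsCongrOne U), toPGL L (congrGL h) = g := by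
  rw [principalLevel, mem_levelOf]
  constructor
  · rintro ⟨M, hM, rfl⟩
    have h : IsCongrOne (M : Matrix (Fin 2) (Fin 2) A) :=
      congrArg (Units.val) (Subgroup.mem_bot.1 hM)
    exact ⟨_, h, congrArg _ (Units.ext rfl)⟩
  · rintro ⟨U, h, rfl⟩
    exact ⟨congrGL h, Subgroup.mem_bot.2 (Units.ext h), rfl⟩

theorem coe_map_algebraMap (M : GL (Fin 2) A) :
    (GeneralLinearGroup.map (algebraMap A L) M : Matrix (Fin 2) (Fin 2) L) =
      (algebraMap A L).mapMatrix (M : Matrix (Fin 2) (Fin 2) A) := rfl

variable [IsFractionRing A L]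

section

variable [IsDomain A] [IsIntegrallyClosed A]

/-- Conjugation into the level does not see scalars. -/
theorem exists_congr_of_conj {U P : Matrix (Fin 2) (Fin 2) A} (hU : IsCongrOne U)
    (hP : IsCongrOne P) (h3 : IsUnit (3 : A)) (X : GL (Fin 2) L) (c : Lˣ)
    (h : ((X⁻¹ : GL (Fin 2) L) : Matrix (Fin 2) (Fin 2) L) * (algebraMap A L).mapMatrix (U ^ 3) *
        (X : Matrix (Fin 2) (Fin 2) L) = (c : L) • (algebraMap A L).mapMatrix P) :
    ∃ U' : Matrix (Fin 2) (Fin 2) A, IsCongrOne U' ∧
      ((X⁻¹ : GL (Fin 2) L) : Matrix (Fin 2) (Fin 2) L) * (algebraMap A L).mapMatrix U *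
        (X : Matrix (Fin 2) (Fin 2) L) = (algebraMap A L).mapMatrix U' := by
  have hU3 := hU.pow 3
  obtain ⟨dP, hdP⟩ := hP.isUnit_det
  have hdet : (algebraMap A L) (det (U ^ 3)) = (c : L) ^ 2 * algebraMap A L (det P) := by
    have := congrArg det h
    rw [det_mul, det_mul, det_smul, Fintype.card_fin, ← RingHom.map_det, ← RingHom.map_det,
      mul_comm _ (algebraMap A L (det (U ^ 3))), mul_assoc, ← det_mul, ← Units.val_mul,
      inv_mul_cancel, Units.val_one, det_one, mul_one] at this
    exact this
  have hc2 : (c : L) ^ 2 = algebraMap A L (det (U ^ 3) * ↑dP⁻¹) := by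
    rw [map_mul, hdet, mul_assoc, ← map_mul, ← hdP, Units.mul_inv, map_one, mul_one]
  obtain ⟨b, hb⟩ := IsIntegrallyClosed.exists_algebraMap_eq_of_isIntegral_pow (K := L)
    two_pos (hc2 ▸ isIntegral_algebraMap)
  have htr : trace (U ^ 3) = b * trace P := by
    apply IsFractionRing.injective A L
    have := congrArg trace h
    rw [Matrix.trace_mul_cycle, ← Units.val_mul, mul_inv_cancel, Units.val_one, one_mul,
      trace_smul, smul_eq_mul, ← hb] at this
    rw [map_mul, AddMonoidHom.map_trace (algebraMap A L), AddMonoidHom.map_trace (algebraMap A L)]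
    exact this
  have hb1 : residue A b = 1 := by
    have e1 : residue A b * residue A b = 1 := by
      have : b ^ 2 = det (U ^ 3) * ↑dP⁻¹ :=
        IsFractionRing.injective A L (by rw [map_pow, hb, hc2])
      have h' := congrArg (residue A) (show b ^ 2 * det P = det (U ^ 3) by
        rw [this, mul_assoc, ← hdP, Units.inv_mul, mul_one])
      rw [map_mul, map_pow, hP.residue_det, hU3.residue_det, mul_one, sq] at h'
      exact h'
    have e2 : (2 : ResidueField A) = residue A b * 2 := by
      have := congrArg (residue A) htr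
      rwa [map_mul, hP.residue_trace, hU3.residue_trace] at this
    rcases mul_self_eq_one_iff.1 e1 with hc | hc
    · exact hc
    · rw [hc] at e2 ⊢
      have h4 : (2 : ResidueField A) * 2 = 0 := by linear_combination e2
      rw [mul_self_eq_zero] at h4
      linear_combination -h4
  obtain ⟨e, he⟩ := hU.isUnit_factor h3
  refine ⟨(↑e⁻¹ : A) • (b • P + (trace U * det U) • 1), ?_, ?_⟩
  · have hinv : residue A (↑e⁻¹ : A) * 3 = 1 := by
      have h1 : (↑e⁻¹ : A) * (trace U ^ 2 - det U) = 1 := by rw [← he, Units.inv_mul]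
      have := congrArg (residue A) h1
      rw [map_mul, map_sub, map_pow, hU.residue_trace, hU.residue_det, map_one] at this
      linear_combination this
    have hPe : P.map (residue A) = 1 := hP
    rw [IsCongrOne, RingHom.mapMatrix_apply]
    ext i j
    have hij' := congr_fun (congr_fun hPe i) j
    simp only [Matrix.map_apply] at hij'
    simp only [Matrix.map_apply, Matrix.smul_apply, Matrix.add_apply, smul_eq_mul, map_mul,
      map_add, hb1, hU.residue_trace, hU.residue_det, hij']
    by_cases hij : i = j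
    · subst hij
      simp at hinv ⊢
      linear_combination hinv
    · simp [hij]
  · have hid := congrArg (fun Z => ((X⁻¹ : GL (Fin 2) L) : Matrix (Fin 2) (Fin 2) L) *
      (algebraMap A L).mapMatrix Z * (X : Matrix (Fin 2) (Fin 2) L)) (cube_identity U)
    have hsm : ∀ (a : A) (Z : Matrix (Fin 2) (Fin 2) A),
        (algebraMap A L).mapMatrix (a • Z) = algebraMap A L a • (algebraMap A L).mapMatrix Z :=
      fun a Z => by ext i j; simp
    simp only [hsm, map_add, map_one, mul_add, add_mul, mul_smul_comm, smul_mul_assoc, mul_one,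
      h, ← he] at hid
    rw [← Units.val_mul, inv_mul_cancel, Units.val_one, ← hb] at hid
    rw [hsm, map_add, hsm, hsm, map_one, ← hid, smul_smul, ← map_mul, Units.inv_mul, map_one,
      one_smul]

variable [HenselianRing A (maximalIdeal A)]

/-- **The principal congruence level is a tame level.** -/
theorem isTameLevel_principalLevel (σ : L ≃+* L) (σA : A →+* A)
    (hcompat : ∀ a, σ (algebraMap A L a) = algebraMap A L (σA a))
    (hres : ∀ a, residue A (σA a) = residue A a) (hord : ∀ x, σ (σ (σ x)) = x)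
    (h3 : IsUnit (3 : A)) : IsTameLevel (Geom.pglEquiv σ) (principalLevel (A := A) L) := by
  have hordA : ∀ a, σA (σA (σA a)) = a := fun a => IsFractionRing.injective A L (by
    rw [← hcompat, ← hcompat, ← hcompat, hord])
  have hσ : ∀ M : GL (Fin 2) A, Geom.pglEquiv σ (toPGL L M) =
      toPGL L (GeneralLinearGroup.map σA M) := fun M => by
    show ProjGenLinGroup.mk _ = ProjGenLinGroup.mk _
    congr 1
    ext i j
    simp [hcompat]
  have hσcongr : ∀ {U : Matrix (Fin 2) (Fin 2) A}, IsCongrOne U →
      IsCongrOne (σA.mapMatrix U) := by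
    intro U hU
    rw [IsCongrOne, RingHom.mapMatrix_apply, RingHom.mapMatrix_apply, Matrix.map_map,
      show (residue A ∘ σA) = residue A from funext hres]
    exact hU
  constructor
  · intro g hg
    obtain ⟨U, hU, rfl⟩ := (mem_principalLevel L).1 hg
    exact (mem_principalLevel L).2 ⟨_, hσcongr hU, by rw [hσ]; exact congrArg _ (Units.ext rfl)⟩
  · intro g
    cases g with
    | mk g => simp only [Geom.pglEquiv_apply, Geom.pglMap_mk]; congr 1; ext i j; simp [hord]
  · intro g hg
    obtain ⟨N, hN, rfl⟩ := (mem_principalLevel L).1 hg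
    obtain ⟨U, hU, hU3⟩ := hN.exists_cube_root h3
    refine ⟨toPGL L (congrGL hU), (mem_principalLevel L).2 ⟨U, hU, rfl⟩, ?_⟩
    rw [← map_pow]
    exact congrArg _ (Units.ext (by simpa using hU3))
  · intro u hu v hv he
    obtain ⟨U, hU, rfl⟩ := (mem_principalLevel L).1 hu
    obtain ⟨V, hV, rfl⟩ := (mem_principalLevel L).1 hv
    rw [← map_pow, ← map_pow] at he
    obtain ⟨c, hc⟩ := mk_eq_mk_iff_smul.1 he
    simp only [coe_map_algebraMap, Units.val_pow_eq_pow_val, coe_congrGL] at hc
    -- `c` lies in `1 + 𝔪`, so it has a cube root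
    have hdet : algebraMap A L (det (V ^ 3)) = (c : L) ^ 2 * algebraMap A L (det (U ^ 3)) := by
      rw [RingHom.map_det, hc, det_smul, Fintype.card_fin, ← RingHom.map_det]
    obtain ⟨dU, hdU⟩ := (hU.pow 3).isUnit_det
    obtain ⟨b, hb⟩ := IsIntegrallyClosed.exists_algebraMap_eq_of_isIntegral_pow (K := L)
      (x := (c : L)) two_pos (by
        rw [show (c : L) ^ 2 = algebraMap A L (det (V ^ 3) * ↑dU⁻¹) by
          rw [map_mul, hdet, mul_assoc, ← map_mul, ← hdU, Units.mul_inv, map_one, mul_one]]
        exact isIntegral_algebraMap)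
    have hVU : V ^ 3 = b • U ^ 3 := by
      ext i j
      apply IsFractionRing.injective A L
      have := congr_fun (congr_fun hc i) j
      simpa [hb] using this
    have hb1 : residue A b = 1 := by
      have h1 : ((residue A).mapMatrix (V ^ 3)) 0 0 = 1 := by rw [hV.pow 3]; simp
      rw [hVU] at h1
      have h2 : ((residue A).mapMatrix (U ^ 3)) 0 0 = 1 := by rw [hU.pow 3]; simp
      simp at h1 h2
      rwa [h2, mul_one] at h1
    obtain ⟨r, hr1, hr⟩ := exists_cube_root_scalar h3 hb1
    have hVr : V = r • U := hV.eq_of_cube_eq h3 (hU.smul hr1) (by rw [smul_pow, hr, hVU])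
    obtain ⟨ru, hru⟩ : IsUnit r := isUnit_of_residue_eq (n := 1) (by rw [hr1]; simp) (by simp)
    refine mk_eq_mk_iff_smul.2 ⟨Units.map (algebraMap A L).toMonoidHom ru, ?_⟩
    rw [coe_map_algebraMap, coe_map_algebraMap, coe_congrGL, coe_congrGL, hVr]
    ext i j
    simp [hru]
  · intro u hu x hx
    obtain ⟨U, hU, rfl⟩ := (mem_principalLevel L).1 hu
    obtain ⟨P, hP, hPe⟩ := (mem_principalLevel L).1 hx
    cases x with
    | mk X =>
      rw [← map_pow, toPGL, MonoidHom.comp_apply, MonoidHom.comp_apply, ← map_inv, ← map_mul,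
        ← map_mul] at hPe
      obtain ⟨c, hc⟩ := mk_eq_mk_iff_smul.1 hPe
      simp only [Units.val_mul, coe_map_algebraMap, Units.val_pow_eq_pow_val, coe_congrGL] at hc
      obtain ⟨U', hU', hUU⟩ := exists_congr_of_conj L hU hP h3 X c hc
      refine (mem_principalLevel L).2 ⟨U', hU', ?_⟩
      rw [toPGL, MonoidHom.comp_apply, MonoidHom.comp_apply, ← map_inv, ← map_mul, ← map_mul]
      congr 1
      ext1
      simp only [Units.val_mul, coe_map_algebraMap, coe_congrGL]
      exact hUU.symm
  · intro e he hN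
    obtain ⟨E, hE, rfl⟩ := (mem_principalLevel L).1 he
    rw [hσ, hσ, ← map_mul, ← map_mul, toPGL, MonoidHom.comp_apply,
      ← map_one (ProjGenLinGroup.mk (n := Fin 2) (R := L))] at hN
    obtain ⟨c, hc⟩ := mk_eq_mk_iff_smul.1 hN.symm
    simp only [coe_map_algebraMap, Units.val_mul, Units.val_one, coe_congrGL] at hc
    have hM : E * σA.mapMatrix E * σA.mapMatrix (σA.mapMatrix E) =
        (E * σA.mapMatrix E * σA.mapMatrix (σA.mapMatrix E)) 0 0 • 1 := by
      ext i j
      apply IsFractionRing.injective A L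
      have hij := congr_fun (congr_fun hc i) j
      have h00 := congr_fun (congr_fun hc 0) 0
      simp only [RingHom.mapMatrix_apply, Matrix.map_apply] at hij h00
      rw [show algebraMap A L ((E * σA.mapMatrix E * σA.mapMatrix (σA.mapMatrix E)) i j) =
        ((c : L) • (1 : Matrix (Fin 2) (Fin 2) L)) i j from hij]
      simp only [Matrix.smul_apply, smul_eq_mul]
      rw [map_mul,
        show algebraMap A L ((E * σA.mapMatrix E * σA.mapMatrix (σA.mapMatrix E)) 0 0) =
          ((c : L) • (1 : Matrix (Fin 2) (Fin 2) L)) 0 0 from h00]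
      by_cases h : i = j <;> simp [h, Matrix.one_apply]
    obtain ⟨X, r, hX, hr, hEX⟩ := exists_h1_matrix h3 σA hres hordA hE hM
    obtain ⟨ru, hru⟩ : IsUnit r := isUnit_of_residue_eq (n := 1) (by rw [hr]; simp) (by simp)
    refine ⟨toPGL L (congrGL hX), (mem_principalLevel L).2 ⟨X, hX, rfl⟩, ?_⟩
    rw [eq_mul_inv_iff_mul_eq, hσ, ← map_mul]
    refine (mk_eq_mk_iff_smul.2 ⟨Units.map (algebraMap A L).toMonoidHom ru, ?_⟩).symm
    rw [coe_map_algebraMap, coe_map_algebraMap, Units.val_mul,
      show (GeneralLinearGroup.map σA (congrGL hX) : Matrix (Fin 2) (Fin 2) A) =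
        σA.mapMatrix X from rfl, coe_congrGL, coe_congrGL, hEX]
    ext i j
    simp [hru]

/-- **Tame levels.** Preimages of residual subgroups of exponent prime to three modulo scalars. -/
theorem isTameLevel_levelOf (σ : L ≃+* L) (σA : A →+* A)
    (hcompat : ∀ a, σ (algebraMap A L a) = algebraMap A L (σA a))
    (hres : ∀ a, residue A (σA a) = residue A a) (hord : ∀ x, σ (σ (σ x)) = x)
    (h3 : IsUnit (3 : A)) (H : Subgroup (GL (Fin 2) (ResidueField A))) {m : ℕ} (hm : m.Coprime 3)
    (hH : ∀ h ∈ H, h ^ m ∈ Subgroup.center (GL (Fin 2) (ResidueField A))) :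
    IsTameLevel (Geom.pglEquiv σ) (levelOf L H) := by
  have hred : ∀ {g : GL (Fin 2) A}, GeneralLinearGroup.map (residue A) g = 1 →
      toPGL L g ∈ principalLevel (A := A) L := fun hg =>
    (mem_levelOf L).2 ⟨_, Subgroup.mem_bot.2 hg, rfl⟩
  refine (isTameLevel_principalLevel L σ σA hcompat hres hord h3).of_finite_index
    (fun g hg => ?_) hm ?_ ?_ ?_
  · obtain ⟨M, hM, rfl⟩ := (mem_levelOf L).1 hg
    exact (mem_levelOf L).2 ⟨M, Subgroup.mem_bot.1 hM ▸ one_mem H, rfl⟩
  · intro g hg
    obtain ⟨M, hM, rfl⟩ := (mem_levelOf L).1 hg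
    have hc := hH _ hM
    rw [GeneralLinearGroup.center_eq_range_scalar] at hc
    obtain ⟨c, hc⟩ := hc
    obtain ⟨a, ha⟩ := residue_surjective (c : ResidueField A)
    obtain ⟨au, hau⟩ : IsUnit a := (isUnit_map_iff (residue A) a).1 (ha ▸ c.isUnit)
    set M' := GeneralLinearGroup.scalar (Fin 2) au⁻¹ * M ^ m
    have hM' : GeneralLinearGroup.map (residue A) M' = 1 := by
      rw [map_mul, map_pow, ← hc, map_scalar, ← map_mul,
        show Units.map (residue A : A →* ResidueField A) au⁻¹ = c⁻¹ by
          rw [map_inv]; congr 1; ext1; simp [hau, ha],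
        inv_mul_cancel, map_one]
    have : toPGL L M' = toPGL L M ^ m := by
      rw [map_mul, map_pow, show toPGL L (GeneralLinearGroup.scalar (Fin 2) au⁻¹) = 1 by
        rw [toPGL, MonoidHom.comp_apply, map_scalar]
        exact ProjGenLinGroup.mk_scalar _, one_mul]
    exact this ▸ hred hM'
  · intro k hk a ha
    obtain ⟨M, -, rfl⟩ := (mem_levelOf L).1 hk
    obtain ⟨P, hP, rfl⟩ := (mem_levelOf L).1 ha
    rw [← map_inv, ← map_mul, ← map_mul]
    exact hred (by rw [map_mul, map_mul, Subgroup.mem_bot.1 hP, mul_one, ← map_mul,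
      inv_mul_cancel, map_one])
  · intro k hk
    obtain ⟨M, -, rfl⟩ := (mem_levelOf L).1 hk
    have hσ : Geom.pglEquiv σ (toPGL L M) = toPGL L (GeneralLinearGroup.map σA M) := by
      show ProjGenLinGroup.mk _ = ProjGenLinGroup.mk _
      congr 1
      ext i j
      simp [hcompat]
    rw [hσ, ← map_inv, ← map_mul]
    refine hred ?_
    rw [map_mul, show GeneralLinearGroup.map (residue A) (GeneralLinearGroup.map σA M) =
      GeneralLinearGroup.map (residue A) M by ext i j; simp [hres], ← map_mul, inv_mul_cancel,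
      map_one]

end

end Fermat.Agent.LT.Tame
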