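import Fermat.Agent.LT.Tame.Abstract
import Fermat.Agent.LT.Tame.Split
import Fermat.Agent.LT.Descent.Setting

/-!
# Local fibre matchings at tame and completely split places
-/

set_option autoImplicit false

noncomputable section

namespace Fermat.Agent.LT.Tame

open Fermat.Agent.LT.Descent
open scoped Classical

section Tame

variable {G G' : Type*} [Group G] [Group G'] {σ : G' ≃* G'} {K' : Subgroup G'}

/-- The cosets fixed by `δ ∘ σ` are a translate of the cosets fixed by the norm `γ`. -/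
theorem IsTameLevel.exists_translate (h : IsTameLevel σ K') (j : G →* G')
    (hfix : ∀ x, σ x = x ↔ x ∈ j.range) {γ : G} {δ : G'} (hN : twNorm σ δ = j γ)
    (hS : ∀ a b : G', Commute a (j γ) → Commute b (j γ) → Commute a b)
    (huniq : ∀ δ' : G', twNorm σ δ' = j γ → ∃ x, δ' = x⁻¹ * δ * σ x) :
    ∃ t : G', Commute t (j γ) ∧ ∀ c : G' ⧸ K', c ∈ twFixCosets σ K' δ ↔
      ∃ y : G, (j y)⁻¹ * j γ * j y ∈ K' ∧ ((t * j y : G') : G' ⧸ K') = c := by
  have hσj : ∀ g, σ (j g) = j g := fun g => (hfix _).2 ⟨g, rfl⟩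
  by_cases hex : ∃ x : G', x⁻¹ * δ * σ x ∈ K'
  · obtain ⟨x₀, hx₀⟩ := hex
    obtain ⟨k, hk, hk'⟩ := h.exists_twConj_fixed hx₀
    set x := x₀ * k with hx
    set u := x⁻¹ * δ * σ x with hu
    have hu0 : u = k⁻¹ * (x₀⁻¹ * δ * σ x₀) * σ k := by rw [hu, hx, map_mul]; group
    have hσu : σ u = u := by rw [hu0]; exact hk'
    have huK : u ∈ K' := by rw [hu0]; exact mul_mem (mul_mem (inv_mem hk) hx₀) (h.stable k hk)
    have hu3 : u ^ 3 = x⁻¹ * j γ * x := by
      rw [← twNorm_fixed hσu, hu, twNorm_twConj h.order_three, hN]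
    set e := x * (σ x)⁻¹ with he
    have hec : Commute e (j γ) := by
      have h1 : (σ x)⁻¹ * j γ * σ x = x⁻¹ * j γ * x := by
        calc (σ x)⁻¹ * j γ * σ x = σ (x⁻¹ * j γ * x) := by simp only [map_mul, map_inv, hσj]
          _ = σ (u ^ 3) := by rw [hu3]
          _ = _ := by rw [map_pow, hσu, hu3]
      show e * j γ = j γ * e
      calc e * j γ = x * ((σ x)⁻¹ * j γ * σ x) * (σ x)⁻¹ := by rw [he]; group
        _ = j γ * e := by rw [h1, he]; group
    have hδc : Commute δ (j γ) := by
      have h1 : δ⁻¹ * j γ * δ = j γ := by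
        rw [← hN]
        simp only [twNorm]
        calc δ⁻¹ * (δ * σ δ * σ (σ δ)) * δ = σ δ * σ (σ δ) * σ (σ (σ δ)) := by
              rw [h.order_three]; group
          _ = σ (twNorm σ δ) := by simp only [twNorm, map_mul]
          _ = _ := by rw [hN, hσj, ← hN]; rfl
      show δ * j γ = j γ * δ
      conv_lhs => rw [← h1]
      group
    have hσc : ∀ {a : G'}, Commute a (j γ) → Commute (σ a) (j γ) := fun {a} ha => by
      have := ha.map σ.toMonoidHom
      rwa [MulEquiv.coe_toMonoidHom, hσj] at this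
    have hNe : twNorm σ e = 1 := by
      simp only [he, twNorm, map_mul, map_inv, h.order_three]; group
    have hNeδ : twNorm σ (e * δ) = j γ := by
      have c1 : Commute δ (σ e) := hS _ _ hδc (hσc hec)
      have c2 : Commute δ (σ (σ e)) := hS _ _ hδc (hσc (hσc hec))
      have c3 : Commute (σ δ) (σ (σ e)) := hS _ _ (hσc hδc) (hσc (hσc hec))
      calc twNorm σ (e * δ) = e * (δ * σ e) * σ δ * σ (σ e) * σ (σ δ) := by
            simp only [twNorm, map_mul, mul_assoc]
        _ = e * σ e * δ * (σ δ * σ (σ e)) * σ (σ δ) := by rw [c1.eq]; simp only [mul_assoc]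
        _ = e * σ e * (δ * σ (σ e)) * σ δ * σ (σ δ) := by rw [c3.eq]; simp only [mul_assoc]
        _ = twNorm σ e * twNorm σ δ := by rw [c2.eq]; simp only [twNorm, mul_assoc]
        _ = j γ := by rw [hNe, one_mul, hN]
    obtain ⟨t, ht⟩ := huniq _ hNeδ
    have htc : Commute t (j γ) := by
      have h1 := twNorm_twConj h.order_three δ t
      rw [← ht, hNeδ, hN] at h1
      show t * j γ = j γ * t
      conv_lhs => rw [h1]
      group
    have hσtc : Commute (t⁻¹ * σ t) δ := hS _ _ (htc.inv_left.mul_left (hσc htc)) hδc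
    have he' : e = t⁻¹ * σ t := by
      have h1 : e * δ = t⁻¹ * σ t * δ := by
        rw [ht, mul_assoc, (hS δ (σ t) hδc (hσc htc)).eq, ← mul_assoc]
      exact mul_right_cancel h1
    have hfx : σ (t * x) = t * x := by
      rw [map_mul]
      calc σ t * σ x = t * (t⁻¹ * σ t) * σ x := by group
        _ = t * x := by rw [← he', he]; group
    obtain ⟨g₀, hg₀⟩ := (hfix _).1 hfx
    refine ⟨t⁻¹, htc.inv_left, fun c => ?_⟩
    have hxg : x = t⁻¹ * j g₀ := by rw [hg₀, inv_mul_cancel_left]
    have hiff : c ∈ twFixCosets σ K' δ ↔ x⁻¹ • c ∈ twFixCosets σ K' u := by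
      conv_lhs => rw [← smul_inv_smul x c]
      rw [smul_mem_twFixCosets_twConj, ← hu]
    rw [hiff, h.twFixCosets_eq huK hσu]
    constructor
    · rintro ⟨z, hz, hzc⟩
      induction z using QuotientGroup.induction_on with
      | _ a =>
        obtain ⟨g, hg⟩ := (hfix _).1 a.2
        rw [Set.mem_ofPred_eq, MulAction.Quotient.smul_coe, QuotientGroup.eq,
          Subgroup.mem_subgroupOf] at hz
        refine ⟨g₀ * g, ?_, ?_⟩
        · have h3 : (a : G')⁻¹ * u ^ 3 * a ∈ K' := by simpa [mul_assoc] using inv_mem hz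
          rw [hu3, hxg, ← hg] at h3
          convert h3 using 1
          rw [map_mul]
          calc (j g₀ * j g)⁻¹ * j γ * (j g₀ * j g)
              = (j g)⁻¹ * (j g₀)⁻¹ * (t * (t⁻¹ * j γ)) * (j g₀ * j g) := by group
            _ = _ := by rw [htc.inv_left.eq]; group
        · rw [fixedCosetMap_mk] at hzc
          rw [← smul_inv_smul x c, ← hzc, hxg, map_mul, ← mul_assoc, hg]
          rfl
    · rintro ⟨y, hy, rfl⟩
      refine ⟨((⟨j (g₀⁻¹ * y), hσj _⟩ : fixedSubgroup σ) :
        fixedSubgroup σ ⧸ fixedLevel σ K'), ?_, ?_⟩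
      · rw [Set.mem_ofPred_eq, MulAction.Quotient.smul_coe, QuotientGroup.eq,
          Subgroup.mem_subgroupOf]
        have h3 : (j (g₀⁻¹ * y))⁻¹ * u ^ 3 * j (g₀⁻¹ * y) ∈ K' := by
          rw [hu3, hxg]
          convert hy using 1
          rw [map_mul, map_inv]
          calc _ = (j y)⁻¹ * (t * j γ) * t⁻¹ * j y := by group
            _ = _ := by rw [htc.eq]; group
        simpa [mul_assoc] using inv_mem h3
      · rw [fixedCosetMap_mk, MulAction.Quotient.smul_coe, smul_eq_mul]
        refine congrArg _ ?_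
        show j (g₀⁻¹ * y) = _
        rw [hxg, map_mul, map_inv]
        group
  · refine ⟨1, Commute.one_left _, fun c => ⟨?_, ?_⟩⟩
    · rintro ⟨x, -, hx⟩; exact absurd ⟨x, hx⟩ hex
    · rintro ⟨y, hy, -⟩
      obtain ⟨v, -, hv, hvN⟩ := h.exists_norm_of_conj_mem (hσj γ) (hσj y) hy
      obtain ⟨z, rfl⟩ := huniq v hvN
      refine absurd ⟨z * j y, ?_⟩ hex
      convert hv using 1
      rw [map_mul, hσj]
      group

/-- **Tame matching.** The indicator of the cosets fixed by `γ` and of those fixed by `δ ∘ σ` have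
equal fibre sums, `γ` being the norm of `δ`. -/
theorem IsTameLevel.hasFibreMatch (h : IsTameLevel σ K') (j : G →* G')
    (hfix : ∀ x, σ x = x ↔ x ∈ j.range) {K : Subgroup G} (hK : ∀ g, g ∈ K ↔ j g ∈ K')
    {γ : G} {δ : G'} (hN : twNorm σ δ = j γ)
    (hS : ∀ a b : G', Commute a (j γ) → Commute b (j γ) → Commute a b)
    (huniq : ∀ δ' : G', twNorm σ δ' = j γ → ∃ x, δ' = x⁻¹ * δ * σ x)
    {T : Type*} [Group T] [MulAction T (G ⧸ K)] [MulAction T (G' ⧸ K')] (φ : T →* G)
    (hφ : ∀ t, Commute (φ t) γ) (hT : ∀ t (g : G), t • (g : G ⧸ K) = ((φ t * g : G) : G ⧸ K))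
    (hT' : ∀ t (g : G'), t • (g : G' ⧸ K') = ((j (φ t) * g : G') : G' ⧸ K')) (r : ℂ) :
    HasFibreMatch T (Set.indicator {y : G ⧸ K | γ • y = y} fun _ => r)
      (Set.indicator (twFixCosets σ K' δ) fun _ => r) := by
  obtain ⟨t₀, ht₀, hc⟩ := h.exists_translate j hfix hN hS huniq
  let ψ : G ⧸ K → G' ⧸ K' := Quotient.map' (fun g => t₀ * j g) fun a b hab => by
    rw [QuotientGroup.leftRel_apply] at hab ⊢
    rw [mul_inv_rev, mul_assoc, inv_mul_cancel_left, ← map_inv, ← map_mul, ← hK]
    exact hab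
  have hψ : ∀ g : G, ψ (g : G ⧸ K) = ((t₀ * j g : G') : G' ⧸ K') := fun g => rfl
  have hψinj : Function.Injective ψ := by
    intro a b hab
    induction a using QuotientGroup.induction_on with | _ a =>
    induction b using QuotientGroup.induction_on with | _ b =>
    rw [hψ, hψ, QuotientGroup.eq, mul_inv_rev, mul_assoc, inv_mul_cancel_left, ← map_inv,
      ← map_mul, ← hK] at hab
    exact QuotientGroup.eq.2 hab
  have hψT : ∀ (t : T) m, ψ (t • m) = t • ψ m := by
    intro t m
    induction m using QuotientGroup.induction_on with | _ a =>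
    have hc' : Commute (j (φ t)) t₀ := hS _ _ ((hφ t).map j) ht₀
    rw [hT, hψ, hψ, hT', map_mul, ← mul_assoc, ← hc'.eq, mul_assoc]
  have hfixiff : ∀ m, ψ m ∈ twFixCosets σ K' δ ↔ γ • m = m := by
    intro m
    induction m using QuotientGroup.induction_on with | _ a =>
    rw [hψ, hc, MulAction.Quotient.smul_coe, smul_eq_mul, QuotientGroup.eq, hK]
    constructor
    · rintro ⟨y, hy, he⟩
      have hya : ((y : G) : G ⧸ K) = a := hψinj (by rw [hψ, hψ]; exact he)
      have hk : (j a)⁻¹ * j y ∈ K' := by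
        rw [← map_inv, ← map_mul, ← hK]
        exact QuotientGroup.eq.1 hya.symm
      have : (j a)⁻¹ * j γ * j a = ((j a)⁻¹ * j y) * ((j y)⁻¹ * j γ * j y) * ((j a)⁻¹ * j y)⁻¹ := by
        group
      have hm : (j a)⁻¹ * j γ * j a ∈ K' := by
        rw [this]; exact mul_mem (mul_mem hk hy) (inv_mem hk)
      simpa [mul_assoc] using inv_mem hm
    · intro hm
      exact ⟨a, by simpa [mul_assoc] using inv_mem hm, rfl⟩
  have hsupp : ∀ c, Set.indicator (twFixCosets σ K' δ) (fun _ => r) c ≠ 0 → ∃ m, ψ m = c := by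
    intro c hne
    obtain ⟨y, -, rfl⟩ := (hc c).1 (Set.mem_of_indicator_ne_zero hne)
    exact ⟨y, rfl⟩
  refine ⟨some, fun c => if hm : ∃ m, ψ m = c then some hm.choose else none, fun t y => rfl, ?_,
    fun y _ => rfl, fun c hne => ?_, fun m => ?_, fun m => ?_, fun m => ?_⟩
  · intro t c
    by_cases hm : ∃ m, ψ m = c
    · have hm' : ∃ m, ψ m = t • c := ⟨t • hm.choose, by rw [hψT, hm.choose_spec]⟩
      simp only [dif_pos hm, dif_pos hm', Option.map_some]
      exact congrArg some (hψinj (by rw [hm'.choose_spec, hψT, hm.choose_spec]))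
    · have hm' : ¬∃ m, ψ m = t • c := fun ⟨m, hm'⟩ =>
        hm ⟨t⁻¹ • m, by rw [hψT, hm', inv_smul_smul]⟩
      simp only [dif_neg hm, dif_neg hm']
      rfl
  · simp only [dif_pos (hsupp c hne)]; rfl
  · exact (Set.finite_singleton m).subset fun y hy => Option.some_injective _ hy.2
  · refine (Set.finite_singleton (ψ m)).subset fun c ⟨_, hm⟩ => ?_
    simp only [Set.mem_ofPred_eq] at hm
    split at hm
    · next he => rw [Set.mem_singleton_iff, ← Option.some_injective _ hm]; exact he.choose_spec.symm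
    · simp at hm
  · have h1 : {y : G ⧸ K | some y = some m} = {m} := by ext; simp
    have h2 : {c : G' ⧸ K' | (if hm : ∃ m, ψ m = c then some hm.choose else none) = some m} =
        {ψ m} := by
      ext c
      simp only [Set.mem_ofPred_eq, Set.mem_singleton_iff]
      constructor
      · intro hm
        split at hm
        · next he => rw [← Option.some_injective _ hm]; exact he.choose_spec.symm
        · simp at hm
      · rintro rfl
        have he : ∃ m', ψ m' = ψ m := ⟨m, rfl⟩
        rw [dif_pos he, hψinj he.choose_spec]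
    rw [h1, h2, finsum_mem_singleton, finsum_mem_singleton]
    simp only [Set.indicator_apply, hfixiff, Set.mem_ofPred_eq]

end Tame

section Split

variable {G : Type*} [Group G] {K : Subgroup G}

/-- **Split matching.** The convolution at `prod3 d` and the shifted product of three kernels have
equal fibre sums along the first coordinate. -/
theorem hasFibreMatch_split {f₁ f₂ f₃ : G → ℂ} (h₁ : IsBiInvariant K f₁)
    (h₂ : IsBiInvariant K f₂) (h₃ : IsBiInvariant K f₃) (hs₁ : HasFiniteSupportMod h₁)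
    (hs₂ : HasFiniteSupportMod h₂) (d : G × G × G)
    {T : Type*} [Group T] [MulAction T (G ⧸ K)] :
    HasFibreMatch T
      (fun y : G ⧸ K => cosetKernel (isBiInvariant_heckeConv h₁ (isBiInvariant_heckeConv h₂ h₃))
        y (prod3 d • y))
      (fun y : (G ⧸ K) × (G ⧸ K) × (G ⧸ K) => cosetKernel h₁ y.1 (d.1 • y.2.1) *
        (cosetKernel h₂ y.2.1 (d.2.1 • y.2.2) * cosetKernel h₃ y.2.2 (d.2.2 • y.1))) := by
  set F : (G ⧸ K) × (G ⧸ K) × (G ⧸ K) → ℂ := fun y => cosetKernel h₁ y.1 (d.1 • y.2.1) *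
    (cosetKernel h₂ y.2.1 (d.2.1 • y.2.2) * cosetKernel h₃ y.2.2 (d.2.2 • y.1))
  have hrow : ∀ {f : G → ℂ} {hf : IsBiInvariant K f}, HasFiniteSupportMod hf → ∀ (g : G)
      (c : G ⧸ K), (Function.support fun z => cosetKernel hf c (g • z)).Finite := by
    intro f hf hs g c
    induction c using QuotientGroup.induction_on with | _ a =>
    refine (hs.image fun z => (g⁻¹ * a) • z).subset fun z hz => ⟨(a⁻¹ * g) • z, ?_, ?_⟩
    · rw [Function.mem_support] at hz ⊢
      rw [← cosetKernel_smul hf a⁻¹, MulAction.Quotient.smul_coe, smul_eq_mul, inv_mul_cancel,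
        smul_smul] at hz
      exact hz
    · show (g⁻¹ * a) • (a⁻¹ * g) • z = z
      rw [smul_smul, show g⁻¹ * a * (a⁻¹ * g) = 1 by group, one_smul]
  have hfin : ∀ m, (Function.support fun p : (G ⧸ K) × (G ⧸ K) => F (m, p)).Finite := fun m =>
    ((hrow hs₁ d.1 m).biUnion fun c _ => (hrow hs₂ d.2.1 c).image (Prod.mk c)).subset
      fun p hp => Set.mem_biUnion (left_ne_zero_of_mul hp)
        ⟨p.2, left_ne_zero_of_mul (right_ne_zero_of_mul hp), rfl⟩
  refine ⟨some, fun y => some y.1, fun t y => rfl, fun t y => rfl, fun y _ => rfl, fun y _ => rfl,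
    fun m => (Set.finite_singleton m).subset fun y hy => Option.some_injective _ hy.2,
    fun m => ?_, fun m => ?_⟩
  · refine ((hfin m).image (Prod.mk m)).subset fun y ⟨hy, hm⟩ => ⟨y.2, ?_, ?_⟩
    · rw [← Option.some_injective _ hm]; exact hy
    · rw [← Option.some_injective _ hm]
  · have h1 : {y : G ⧸ K | some y = some m} = {m} := by ext; simp
    have h2 : {y : (G ⧸ K) × (G ⧸ K) × (G ⧸ K) | some y.1 = some m} =
        Set.range (Prod.mk m) := by
      ext y
      simp only [Set.mem_ofPred_eq, Set.mem_range, Option.some.injEq]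
      exact ⟨fun hy => ⟨y.2, by rw [← hy]⟩, fun ⟨p, hp⟩ => by rw [← hp]⟩
    rw [h1, h2, finsum_mem_singleton, finsum_mem_range fun p q hpq => (Prod.mk.inj hpq).2,
      finsum_curry _ (hfin m)]
    induction m using QuotientGroup.induction_on with
    | _ x =>
      rw [MulAction.Quotient.smul_coe, smul_eq_mul, cosetKernel_mk,
        show x⁻¹ * (prod3 d * x) = x⁻¹ * prod3 d * x by group,
        ← sum_shift_kernel h₁ h₂ h₃ hs₂]
      rfl

end Split

end Fermat.Agent.LT.Tame

end
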