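import Mathlib.LinearAlgebra.Matrix.Trace
import Mathlib.LinearAlgebra.Matrix.Adjugate
import Mathlib.LinearAlgebra.Matrix.NonsingularInverse
import Mathlib.RingTheory.Henselian
import Mathlib.RingTheory.LocalRing.ResidueField.Basic
import Mathlib.RingTheory.IntegralClosure.IntegrallyClosed
import Mathlib.Tactic.FinCases
import Mathlib.Tactic.LinearCombination

/-!
# Cube roots of matrices congruent to one

For a henselian local ring in which `3` is a unit, cubing is bijective on matrices `≡ 1`; the root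
is given by a formula in the matrix, its trace and the cube root of its determinant, hence commutes
with conjugation.
-/

set_option autoImplicit false

namespace Fermat.Agent.LT.Tame

open Matrix IsLocalRing

variable {A : Type*} [CommRing A] [IsLocalRing A]

/-- Congruent to `1` modulo the maximal ideal. -/
def IsCongrOne (M : Matrix (Fin 2) (Fin 2) A) : Prop := (residue A).mapMatrix M = 1

theorem cube_identity {R : Type*} [CommRing R] (U : Matrix (Fin 2) (Fin 2) R) :
    (trace U ^ 2 - det U) • U = U ^ 3 + (trace U * det U) • (1 : Matrix (Fin 2) (Fin 2) R) := by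
  rw [show U ^ 3 = U * U * U by rw [pow_succ, sq], trace_fin_two, det_fin_two]
  ext i j
  fin_cases i <;> fin_cases j <;>
    simp [Matrix.mul_apply, Fin.sum_univ_two, sq] <;> ring

theorem trace_cube {R : Type*} [CommRing R] (U : Matrix (Fin 2) (Fin 2) R) :
    trace (U ^ 3) = trace U ^ 3 - 3 * det U * trace U := by
  rw [show U ^ 3 = U * U * U by rw [pow_succ, sq], trace_fin_two, trace_fin_two, det_fin_two]
  simp [Matrix.mul_apply, Fin.sum_univ_two]
  ring

theorem IsCongrOne.residue_det {U : Matrix (Fin 2) (Fin 2) A} (h : IsCongrOne U) :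
    residue A (det U) = 1 := by
  rw [RingHom.map_det, h, det_one]

theorem IsCongrOne.residue_trace {U : Matrix (Fin 2) (Fin 2) A} (h : IsCongrOne U) :
    residue A (trace U) = 2 := by
  rw [AddMonoidHom.map_trace (residue A) U, show U.map (residue A) = 1 from h, trace_one]
  simp

theorem IsCongrOne.isUnit_det {U : Matrix (Fin 2) (Fin 2) A} (h : IsCongrOne U) :
    IsUnit (det U) :=
  (isUnit_map_iff (residue A) _).1 (by rw [h.residue_det]; exact isUnit_one)

theorem isUnit_of_residue_eq {a : A} {n : ℕ} (hn : residue A a = n) (hu : IsUnit (n : A)) :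
    IsUnit a := by
  refine (isUnit_map_iff (residue A) _).1 ?_
  rw [hn]
  simpa using hu.map (residue A)

theorem IsCongrOne.isUnit_factor (h3 : IsUnit (3 : A)) {U : Matrix (Fin 2) (Fin 2) A}
    (h : IsCongrOne U) : IsUnit (trace U ^ 2 - det U) := by
  refine isUnit_of_residue_eq (n := 3) ?_ (by exact_mod_cast h3)
  rw [map_sub, map_pow, h.residue_trace, h.residue_det]
  norm_num

theorem IsCongrOne.mul {U V : Matrix (Fin 2) (Fin 2) A} (hU : IsCongrOne U) (hV : IsCongrOne V) :
    IsCongrOne (U * V) := by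
  rw [IsCongrOne, map_mul, hU, hV, mul_one]

theorem IsCongrOne.pow {U : Matrix (Fin 2) (Fin 2) A} (hU : IsCongrOne U) (n : ℕ) :
    IsCongrOne (U ^ n) := by
  rw [IsCongrOne, map_pow, hU, one_pow]

theorem IsCongrOne.smul {U : Matrix (Fin 2) (Fin 2) A} (hU : IsCongrOne U) {a : A}
    (ha : residue A a = 1) : IsCongrOne (a • U) := by
  rw [IsCongrOne, RingHom.mapMatrix_apply, Matrix.map_smul' _ _ _ (map_mul _), ha, one_smul]
  exact hU

theorem cube_eq_cube_unique (h3 : IsUnit (3 : A)) {a b : A} (ha : residue A a = 1)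
    (hb : residue A b = 1) (h : a ^ 3 = b ^ 3) : a = b := by
  have hu : IsUnit (a ^ 2 + a * b + b ^ 2) := by
    refine isUnit_of_residue_eq (n := 3) ?_ (by exact_mod_cast h3)
    simp only [map_add, map_mul, map_pow, ha, hb]
    norm_num
  exact sub_eq_zero.1 (hu.mul_left_eq_zero.1 (show (a - b) * (a ^ 2 + a * b + b ^ 2) = 0 by
    linear_combination h))

theorem IsCongrOne.eq_of_cube_eq (h3 : IsUnit (3 : A)) {U V : Matrix (Fin 2) (Fin 2) A}
    (hU : IsCongrOne U) (hV : IsCongrOne V) (h : U ^ 3 = V ^ 3) : U = V := by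
  have hd : det U = det V := cube_eq_cube_unique h3 hU.residue_det hV.residue_det (by
    rw [← det_pow, ← det_pow, h])
  have ht : trace U = trace V := by
    have h0 : trace U ^ 3 - 3 * det U * trace U = trace V ^ 3 - 3 * det U * trace V := by
      rw [← trace_cube, h, trace_cube, hd]
    have hu : IsUnit (trace U ^ 2 + trace U * trace V + trace V ^ 2 - 3 * det U) := by
      refine isUnit_of_residue_eq (n := 9) ?_ (by
        have h9 := h3.mul h3
        norm_num at h9
        exact_mod_cast h9)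
      simp only [map_add, map_sub, map_mul, map_pow, map_ofNat, hU.residue_trace,
        hV.residue_trace, hU.residue_det]
      norm_num
    exact sub_eq_zero.1 (hu.mul_left_eq_zero.1 (show (trace U - trace V) *
      (trace U ^ 2 + trace U * trace V + trace V ^ 2 - 3 * det U) = 0 by linear_combination h0))
  have eU := cube_identity U
  rw [h, ht, hd, ← cube_identity V] at eU
  exact (ht ▸ hd ▸ hU.isUnit_factor h3 : IsUnit (trace V ^ 2 - det V)).smul_left_cancel.1 eU

variable [HenselianRing A (maximalIdeal A)]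

theorem exists_cube_root_scalar (h3 : IsUnit (3 : A)) {a : A} (ha : residue A a = 1) :
    ∃ r : A, residue A r = 1 ∧ r ^ 3 = a := by
  obtain ⟨r, hr, hr1⟩ := HenselianRing.is_henselian (I := maximalIdeal A)
    (Polynomial.X ^ 3 - Polynomial.C a) (Polynomial.monic_X_pow_sub_C _ three_ne_zero) 1
    (by
      rw [← residue_eq_zero_iff]
      simp [ha])
    (by
      refine IsUnit.map _ ?_
      simpa [Polynomial.derivative_X_pow, show (2 + 1 : A) = 3 by norm_num] using h3)
  refine ⟨r, ?_, ?_⟩
  · rw [← sub_eq_zero, ← map_one (residue A), ← map_sub, residue_eq_zero_iff]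
    exact hr1
  · exact sub_eq_zero.1 (by simpa [Polynomial.IsRoot] using hr)

set_option maxHeartbeats 1000000 in
theorem IsCongrOne.exists_cube_root (h3 : IsUnit (3 : A)) {N : Matrix (Fin 2) (Fin 2) A}
    (hN : IsCongrOne N) : ∃ U, IsCongrOne U ∧ U ^ 3 = N := by
  obtain ⟨d, hd1, hd⟩ := exists_cube_root_scalar h3 hN.residue_det
  have h9 := h3.mul h3
  norm_num at h9
  obtain ⟨s, hs, hs1⟩ := HenselianRing.is_henselian (I := maximalIdeal A)
    (Polynomial.X ^ 3 - (Polynomial.C (3 * d) * Polynomial.X + Polynomial.C (trace N)))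
    (Polynomial.monic_X_pow_sub (n := 3)
      (lt_of_le_of_lt Polynomial.degree_linear_le (by exact_mod_cast (by norm_num : 1 < 3))))
    2
    (by
      rw [← residue_eq_zero_iff]
      simp [hd1, hN.residue_trace, map_ofNat]
      norm_num)
    (by
      refine IsUnit.map _ (isUnit_of_residue_eq (n := 9) ?_ (by exact_mod_cast h9))
      simp [hd1, map_ofNat]
      norm_num)
  have hs2 : residue A s = 2 := by
    rw [← sub_eq_zero, ← map_ofNat (residue A) 2, ← map_sub, residue_eq_zero_iff]
    exact hs1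
  have hts : trace N = s ^ 3 - 3 * d * s := by
    simp [Polynomial.IsRoot] at hs
    linear_combination -hs
  have he : IsUnit (s ^ 2 - d) := isUnit_of_residue_eq (n := 3) (by
    rw [map_sub, map_pow, hs2, hd1]; norm_num) (by exact_mod_cast h3)
  obtain ⟨e, he'⟩ := he
  have hee : (↑e⁻¹ : A) * (s ^ 2 - d) = 1 := by rw [← he', Units.inv_mul]
  set U := (↑e⁻¹ : A) • (N + (s * d) • (1 : Matrix (Fin 2) (Fin 2) A))
  have htrU : trace U = s := by
    rw [trace_fin_two] at hts
    simp [U, trace_fin_two]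
    linear_combination (↑e⁻¹ : A) * hts + s * hee
  have hdetU : det U = d := by
    rw [det_fin_two] at hd
    rw [trace_fin_two] at hts
    simp [U, det_fin_two]
    linear_combination (-(↑e⁻¹ : A) ^ 2) * hd + ((↑e⁻¹ : A) ^ 2 * s * d) * hts
      + d * ((↑e⁻¹ : A) * (s ^ 2 - d) + 1) * hee
  have hU3 : U ^ 3 = N := by
    have := cube_identity U
    rw [htrU, hdetU] at this
    rw [show (s ^ 2 - d) • U = N + (s * d) • (1 : Matrix (Fin 2) (Fin 2) A) by
      rw [smul_smul, mul_comm, hee, one_smul]] at this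
    exact (add_right_cancel this).symm
  refine ⟨U, ?_, hU3⟩
  have hinv : residue A (↑e⁻¹ : A) * 3 = 1 := by
    have := congrArg (residue A) hee
    rw [map_mul, map_sub, map_pow, hs2, hd1, map_one] at this
    linear_combination this
  rw [IsCongrOne, RingHom.mapMatrix_apply]
  ext i j
  have hNij : residue A (N i j) = (1 : Matrix (Fin 2) (Fin 2) (ResidueField A)) i j := by
    rw [← hN]; rfl
  by_cases hij : i = j
  · subst hij
    simp [U, hs2, hd1] at hNij hinv ⊢
    rw [hNij]
    linear_combination hinv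
  · simp [U, hij] at hNij ⊢
    exact hNij

/-- `H¹` of `σ` on matrices congruent to one is trivial. -/
theorem exists_h1_matrix (h3 : IsUnit (3 : A)) (σ : A →+* A)
    (hres : ∀ a, residue A (σ a) = residue A a) (hord : ∀ a, σ (σ (σ a)) = a)
    {E : Matrix (Fin 2) (Fin 2) A} {c : A} (hE : IsCongrOne E)
    (hN : E * σ.mapMatrix E * σ.mapMatrix (σ.mapMatrix E) = c • (1 : Matrix (Fin 2) (Fin 2) A)) :
    ∃ (X : Matrix (Fin 2) (Fin 2) A) (r : A),
      IsCongrOne X ∧ residue A r = 1 ∧ E * σ.mapMatrix X = r • X := by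
  have hσc : ∀ M : Matrix (Fin 2) (Fin 2) A, IsCongrOne M → IsCongrOne (σ.mapMatrix M) := by
    intro M hM
    rw [IsCongrOne, RingHom.mapMatrix_apply, RingHom.mapMatrix_apply, Matrix.map_map,
      show (residue A ∘ σ) = residue A from funext hres]
    exact hM
  have hN1 : IsCongrOne (c • (1 : Matrix (Fin 2) (Fin 2) A)) :=
    hN ▸ (hE.mul (hσc _ hE)).mul (hσc _ (hσc _ hE))
  have hc1 : residue A c = 1 := by
    have := congr_fun (congr_fun hN1 0) 0
    simpa using this
  -- `c` is fixed
  have h3σ : σ.mapMatrix (σ.mapMatrix (σ.mapMatrix E)) = E := by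
    ext i j; simp [hord]
  have hσN : σ.mapMatrix E * σ.mapMatrix (σ.mapMatrix E) * E = σ c • 1 := by
    have := congrArg σ.mapMatrix hN
    rw [map_mul, map_mul, h3σ] at this
    rw [this]
    ext i j
    by_cases hij : i = j <;> simp [Matrix.map_apply, hij]
  obtain ⟨u, hu⟩ := hE.isUnit_det
  have hadj : E.adjugate * E = (↑u : A) • 1 := by rw [Matrix.adjugate_mul, hu]
  have hσc' : σ c = c := by
    have h1 := congrArg (fun Z => E.adjugate * (Z * E)) hN
    simp only [smul_mul_assoc, one_mul, mul_smul_comm, hadj, ← mul_assoc] at h1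
    rw [hσN, smul_smul, smul_smul] at h1
    have := congr_fun (congr_fun h1 0) 0
    simp at this
    exact u.isUnit.mul_left_cancel (this.trans (mul_comm _ _))
  obtain ⟨r, hr1, hr⟩ := exists_cube_root_scalar h3 hc1
  have hσr : σ r = r := cube_eq_cube_unique h3 (by rw [hres, hr1]) hr1 (by rw [← map_pow, hr, hσc'])
  obtain ⟨ri, hri⟩ : IsUnit r := isUnit_of_residue_eq (n := 1) (by rw [hr1]; simp) (by simp)
  set E' := (↑ri⁻¹ : A) • E
  have hσri : σ (↑ri⁻¹ : A) = (↑ri⁻¹ : A) := by
    refine ri.isUnit.mul_left_cancel ?_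
    rw [Units.mul_inv, show (↑ri : A) * σ ↑ri⁻¹ = σ (↑ri * ↑ri⁻¹) by rw [map_mul, hri, hσr],
      Units.mul_inv, map_one]
  have hσE' : σ.mapMatrix E' = (↑ri⁻¹ : A) • σ.mapMatrix E := by
    ext i j; simp [E', hσri]
  have hE'1 : IsCongrOne E' := hE.smul (by
    have : residue A (↑ri⁻¹ : A) * residue A r = 1 := by
      rw [← map_mul, ← hri, Units.inv_mul, map_one]
    rwa [hr1, mul_one] at this)
  have hnorm : E' * σ.mapMatrix E' * σ.mapMatrix (σ.mapMatrix E') = 1 := by
    have hσ2 : σ.mapMatrix (σ.mapMatrix E') = (↑ri⁻¹ : A) • σ.mapMatrix (σ.mapMatrix E) := by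
      ext i j; simp [E', hσri]
    rw [hσ2, hσE']
    simp only [E', smul_mul_assoc, mul_smul_comm, smul_smul]
    rw [hN, smul_smul, show (↑ri⁻¹ : A) * (↑ri⁻¹ * ↑ri⁻¹) * c = 1 by
      rw [← hr, ← hri]; ring_nf; rw [← mul_pow]; simp, one_smul]
  obtain ⟨t, ht⟩ := h3
  set X := (↑t⁻¹ : A) • (1 + E' + E' * σ.mapMatrix E')
  have ht3 : (↑t⁻¹ : A) * 3 = 1 := by rw [← ht, Units.inv_mul]
  refine ⟨X, r, ?_, hr1, ?_⟩
  · rw [IsCongrOne, RingHom.mapMatrix_apply, Matrix.map_smul' _ _ _ (map_mul _)]
    have h1 : (1 + E' + E' * σ.mapMatrix E').map (residue A) = (3 : ResidueField A) • 1 := by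
      show (residue A).mapMatrix _ = _
      rw [map_add, map_add, map_one, map_mul, hE'1, hσc _ hE'1, mul_one,
        show (3 : ResidueField A) = 1 + 1 + 1 by norm_num, add_smul, add_smul, one_smul]
    rw [h1, smul_smul, ← map_ofNat (residue A) 3, ← map_mul, ht3, map_one, one_smul]
  · have hσt : σ (↑t⁻¹ : A) = (↑t⁻¹ : A) := by
      refine t.isUnit.mul_left_cancel ?_
      rw [Units.mul_inv, show (↑t : A) * σ ↑t⁻¹ = σ (↑t * ↑t⁻¹) by rw [map_mul, ht, map_ofNat],
        Units.mul_inv, map_one]
    have hσX : σ.mapMatrix X = (↑t⁻¹ : A) • σ.mapMatrix (1 + E' + E' * σ.mapMatrix E') := by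
      ext i j; simp [X, hσt, mul_add]
    have key : E' * σ.mapMatrix X = X := by
      rw [hσX, mul_smul_comm, map_add, map_add, map_mul, map_one, mul_add, mul_add, mul_one,
        ← mul_assoc, hnorm]
      simp only [X]
      congr 1
      abel
    have hEE : E = r • E' := by
      simp only [E', smul_smul, ← hri, Units.mul_inv, one_smul]
    rw [hEE, smul_mul_assoc, key]

end Fermat.Agent.LT.Tame
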