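import Fermat.Agent.LT.Tame.BaseChange
import Fermat.Agent.LT.Tame.Descent
import Fermat.Agent.LT.Tame.Match
import Fermat.Agent.LT.Tame.TwistUnique

/-!
# The tame matching in the completions

For a cubic cyclic extension of number fields and a place `w` prime to three where the
automorphism is residue trivial: the fixed field of the completion is the completion of the base,
the residue fields agree, and the nonsplit torus levels match.
-/

set_option autoImplicit false

noncomputable section

namespace Fermat.Agent.LT.Tame

open IsDedekindDomain IsDedekindDomain.HeightOneSpectrum IsLocalRing NumberField Matrix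
open Fermat.Agent.LT.Descent
open scoped MatrixGroups

/-- A cubic cyclic extension with a place `w` over `v`, prime to three, where the generator is
residue trivial. -/
structure TamePlace {K K' : Type*} [Field K] [NumberField K] [Field K'] [NumberField K']
    [Algebra K K'] (σ : K' ≃ₐ[K] K') (v : HeightOneSpectrum (𝓞 K))
    (w : HeightOneSpectrum (𝓞 K')) : Prop where
  ne_one : σ ≠ 1
  order_three : ∀ x, σ (σ (σ x)) = x
  fixed : ∀ x, σ x = x → x ∈ Set.range (algebraMap K K')
  above : ∀ r : 𝓞 K, RingOfIntegers.mapRingHom (algebraMap K K') r ∈ w.asIdeal ↔ r ∈ v.asIdeal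
  residue_trivial : ∀ r : 𝓞 K', RingOfIntegers.mapRingEquiv σ.toRingEquiv r - r ∈ w.asIdeal
  three_notMem : (3 : 𝓞 K) ∉ v.asIdeal

variable {K K' : Type*} [Field K] [NumberField K] [Field K'] [NumberField K'] [Algebra K K']
  {σ : K' ≃ₐ[K] K'} {v : HeightOneSpectrum (𝓞 K)} {w : HeightOneSpectrum (𝓞 K')}

theorem map_integers_compat (r : 𝓞 K) :
    algebraMap K K' (algebraMap (𝓞 K) K r) =
      algebraMap (𝓞 K') K' (RingOfIntegers.mapRingHom (algebraMap K K') r) := rfl

namespace TamePlace

variable (P : TamePlace σ v w)
include P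

theorem three_notMem' : (3 : 𝓞 K') ∉ w.asIdeal := fun h =>
  P.three_notMem ((P.above 3).1 (by rwa [map_ofNat]))

/-- `K_v → K'_w`. -/
def emb : v.adicCompletion K →+* w.adicCompletion K' :=
  completionEmb (RingOfIntegers.mapRingHom (algebraMap K K')) (algebraMap K K') map_integers_compat P.above

/-- `O_v → O'_w`. -/
def embInt : v.adicCompletionIntegers K →+* w.adicCompletionIntegers K' :=
  integersEmb (RingOfIntegers.mapRingHom (algebraMap K K')) (algebraMap K K') map_integers_compat P.above

instance isLocalHom_embInt : IsLocalHom P.embInt := isLocalHom_integersEmb _ _ _ _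

/-- The automorphism of `K'_w`. -/
def aut : w.adicCompletion K' ≃+* w.adicCompletion K' :=
  placeAut w σ.toRingEquiv P.residue_trivial

theorem emb_coe (x : K) : P.emb (x : v.adicCompletion K) = (algebraMap K K' x : _) :=
  completionEmb_coe _ _ _ _ x

theorem aut_coe (x : K') : P.aut (x : w.adicCompletion K') = (σ x : _) :=
  completionEquiv_coe _ _ x

theorem aut_cube (x : w.adicCompletion K') : P.aut (P.aut (P.aut x)) = x :=
  placeAut_cube w σ.toRingEquiv P.residue_trivial P.order_three x

theorem aut_emb (x : v.adicCompletion K) : P.aut (P.emb x) = P.emb x :=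
  congrFun (DenseRange.equalizer (denseRange_algebraMap K v)
    ((continuous_completionEquiv _ _).comp (continuous_completionEmb _ _ _ _))
    (continuous_completionEmb _ _ _ _)
    (funext fun a => by
      show P.aut (P.emb a) = P.emb a
      rw [emb_coe, aut_coe, σ.commutes])) x

theorem isUnit_three_completion : (3 : w.adicCompletion K') ≠ 0 := by
  have h := (isUnit_three w P.three_notMem').ne_zero
  intro h0
  exact h (Subtype.ext h0)

/-- The fixed field of the completion is the completion of the base. -/
theorem mem_range_emb {x : w.adicCompletion K'} (hx : P.aut x = x) : x ∈ Set.range P.emb := by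
  have key : ∀ y, (3 : w.adicCompletion K')⁻¹ * (y + P.aut y + P.aut (P.aut y)) ∈
      Set.range P.emb := by
    intro y
    have hc : Continuous P.aut := continuous_completionEquiv _ _
    refine (denseRange_algebraMap K' w).induction_on y
      ((isClosed_range_completionEmb _ _ _ _).preimage
        (continuous_const.mul ((continuous_id.add hc).add (hc.comp hc)))) fun a => ?_
    obtain ⟨b, hb⟩ := P.fixed (a + σ a + σ (σ a)) (by simp only [map_add, P.order_three]; ring)
    refine ⟨((b / 3 : K) : v.adicCompletion K), ?_⟩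
    rw [algebraMap_adicCompletion, Function.comp_apply, Algebra.algebraMap_self, RingHom.id_apply,
      aut_coe, aut_coe, emb_coe, map_div₀, map_ofNat, hb, ← adicCompletion.coe_add,
      ← adicCompletion.coe_add]
    have hE : ∀ z : K', (z : w.adicCompletion K') = FinitePlace.embedding w z :=
      fun z => (FinitePlace.embedding_apply w z).symm
    rw [hE, hE, map_div₀, map_ofNat]
    ring
  have := key x
  rw [hx, hx] at this
  convert this using 1
  rw [show x + x + x = 3 * x by ring, inv_mul_cancel_left₀ P.isUnit_three_completion]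

/-- The residue extension is trivial. -/
theorem residue_surjective_embInt : Function.Surjective (ResidueField.map P.embInt) := by
  intro z
  obtain ⟨r, hr⟩ := CFT.Kummer.klRed_surjective w z
  set s := r + RingOfIntegers.mapRingEquiv σ.toRingEquiv r +
    RingOfIntegers.mapRingEquiv σ.toRingEquiv (RingOfIntegers.mapRingEquiv σ.toRingEquiv r) with hs
  obtain ⟨b, hb⟩ := P.fixed (s : K') (by
    show σ (s : K') = (s : K')
    simp only [hs, map_add]
    show σ (r : K') + σ (σ (r : K')) + σ (σ (σ (r : K'))) = (r : K') + σ (r : K') + σ (σ (r : K'))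
    rw [P.order_three]; ring)
  have hbint : IsIntegral ℤ b :=
    (isIntegral_algebraMap_iff (algebraMap K K').injective).1 (hb ▸ s.2)
  set b₀ : 𝓞 K := ⟨b, hbint⟩
  have hb0 : RingOfIntegers.mapRingHom (algebraMap K K') b₀ = s := RingOfIntegers.ext hb
  have h3 : IsUnit (residue (v.adicCompletionIntegers K) 3) :=
    (isUnit_three v P.three_notMem).map _
  obtain ⟨u, hu⟩ := h3
  refine ⟨CFT.Kummer.klRed v b₀ * ↑u⁻¹, ?_⟩
  have hred : ∀ c : 𝓞 K, ResidueField.map P.embInt (CFT.Kummer.klRed v c) =
      CFT.Kummer.klRed w (RingOfIntegers.mapRingHom (algebraMap K K') c) := by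
    intro c
    rw [CFT.Kummer.klRed, RingHom.comp_apply, ResidueField.map_residue, CFT.Kummer.klRed,
      RingHom.comp_apply]
    congr 1
    refine Subtype.ext ?_
    show P.emb (algebraMap (𝓞 K) K c : v.adicCompletion K) = _
    rw [emb_coe, algebraMap_adicCompletionIntegers_apply]
    rfl
  have hσr : ∀ c : 𝓞 K', CFT.Kummer.klRed w (RingOfIntegers.mapRingEquiv σ.toRingEquiv c) =
      CFT.Kummer.klRed w c := fun c => by
    rw [← sub_eq_zero, ← map_sub, ← RingHom.mem_ker, CFT.Kummer.klRed_ker]
    exact P.residue_trivial c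
  have hmap3 : ResidueField.map P.embInt (u : ResidueField _) = 3 := by
    rw [hu, map_ofNat (residue (v.adicCompletionIntegers K)) 3,
      map_ofNat (ResidueField.map P.embInt) 3]
  have h3' : (3 : ResidueField (w.adicCompletionIntegers K')) ≠ 0 := by
    rw [← map_ofNat (residue (w.adicCompletionIntegers K')) 3]
    exact ((isUnit_three w P.three_notMem').map _).ne_zero
  rw [map_mul, hred, hb0, hs, map_add, map_add, hσr, hσr, hσr, hr, map_units_inv, hmap3,
    show z + z + z = 3 * z by ring, mul_comm (3 : ResidueField _), mul_inv_cancel_right₀ h3']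

theorem card_residueField_eq : Nat.card (ResidueField (w.adicCompletionIntegers K')) =
    Nat.card (ResidueField (v.adicCompletionIntegers K)) :=
  (Nat.card_congr (Equiv.ofBijective _
    ⟨(ResidueField.map P.embInt).injective, P.residue_surjective_embInt⟩)).symm

/-- `PGL₂(K_v) → PGL₂(K'_w)`. -/
def pglEmb : PGL(2, v.adicCompletion K) →* PGL(2, w.adicCompletion K') := Geom.pglMap P.emb

/-- The automorphism of `K'_w` over `K_v`. -/
def algAut : letI := P.emb.toAlgebra
    w.adicCompletion K' ≃ₐ[v.adicCompletion K] w.adicCompletion K' :=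
  letI := P.emb.toAlgebra
  AlgEquiv.ofRingEquiv (f := P.aut) P.aut_emb

theorem pglEquiv_fixed_iff (x : PGL(2, w.adicCompletion K')) :
    Geom.pglEquiv P.aut x = x ↔ x ∈ P.pglEmb.range := by
  letI := P.emb.toAlgebra
  refine ⟨fun h => ?_, ?_⟩
  · obtain ⟨γ, hγ⟩ := Geom.exists_pglMap_eq_of_fixed P.algAut
      (fun y hy => P.mem_range_emb hy) h
    exact ⟨γ, hγ⟩
  · rintro ⟨γ, rfl⟩
    exact Geom.pglSigma_pglMap P.algAut γ

theorem algAut_ne_one : letI := P.emb.toAlgebra; P.algAut ≠ 1 := by
  letI := P.emb.toAlgebra
  intro h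
  refine P.ne_one (AlgEquiv.ext fun x => ?_)
  have h2 : P.aut (x : w.adicCompletion K') = x := DFunLike.congr_fun h (x : w.adicCompletion K')
  rw [aut_coe, ← FinitePlace.embedding_apply, ← FinitePlace.embedding_apply] at h2
  exact (FinitePlace.embedding w).injective h2

variable {a : ResidueField (v.adicCompletionIntegers K)} (ha : ∀ t, t ^ 2 - t ≠ a)

include ha in
theorem not_sq_sub_self' (t : ResidueField (w.adicCompletionIntegers K')) :
    t ^ 2 - t ≠ ResidueField.map P.embInt a := by
  obtain ⟨t, rfl⟩ := P.residue_surjective_embInt t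
  rw [← map_pow, ← map_sub]
  exact fun h => ha t ((ResidueField.map P.embInt).injective h)

omit ha in
/-- The level upstairs meets `PGL₂(K_v)` in the level downstairs. -/
theorem mem_level_iff (g : PGL(2, v.adicCompletion K)) :
    g ∈ levelOf (v.adicCompletion K) (torus a) ↔
      P.pglEmb g ∈ levelOf (w.adicCompletion K') (torus (ResidueField.map P.embInt a)) := by
  refine (mem_levelOf_torus_pglMap_iff P.embInt P.emb (fun _ => rfl) (fun x hx => ?_)
    P.residue_surjective_embInt a g).symm
  obtain ⟨b, hb⟩ := hx
  exact ⟨⟨x, (completionEmb_mem_integers_iff _ _ map_integers_compat P.above x).1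
    (show P.emb x ∈ w.adicCompletionIntegers K' from hb ▸ b.2)⟩, rfl⟩

include ha in
theorem isTameLevel (hq : Ideal.absNorm v.asIdeal % 3 = 1) :
    IsTameLevel (Geom.pglEquiv P.aut)
      (levelOf (w.adicCompletion K') (torus (ResidueField.map P.embInt a))) :=
  isTameLevel_torus_place w σ.toRingEquiv P.residue_trivial P.three_notMem'
    (by rwa [← CFT.Kummer.kl_card_residueField w, P.card_residueField_eq,
      CFT.Kummer.kl_card_residueField])
    P.order_three (P.not_sq_sub_self' ha)

include ha in
/-- **Tame fibre matching in the completions.** -/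
theorem hasFibreMatch (hq : Ideal.absNorm v.asIdeal % 3 = 1)
    {γ : PGL(2, v.adicCompletion K)} (h0 : Geom.classInv γ ≠ 0) (h4 : Geom.classInv γ ≠ 4)
    {δ : PGL(2, w.adicCompletion K')} (hN : twNorm (Geom.pglEquiv P.aut) δ = P.pglEmb γ)
    {T : Type*} [Group T]
    [MulAction T (PGL(2, v.adicCompletion K) ⧸ levelOf (v.adicCompletion K) (torus a))]
    [MulAction T (PGL(2, w.adicCompletion K') ⧸
      levelOf (w.adicCompletion K') (torus (ResidueField.map P.embInt a)))]
    (φ : T →* PGL(2, v.adicCompletion K)) (hφ : ∀ t, Commute (φ t) γ)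
    (hT : ∀ t (g : PGL(2, v.adicCompletion K)),
      t • (g : PGL(2, v.adicCompletion K) ⧸ levelOf (v.adicCompletion K) (torus a)) =
        ((φ t * g : PGL(2, v.adicCompletion K)) :
          PGL(2, v.adicCompletion K) ⧸ levelOf (v.adicCompletion K) (torus a)))
    (hT' : ∀ t (g : PGL(2, w.adicCompletion K')),
      t • (g : PGL(2, w.adicCompletion K') ⧸
        levelOf (w.adicCompletion K') (torus (ResidueField.map P.embInt a))) =
        ((P.pglEmb (φ t) * g : PGL(2, w.adicCompletion K')) : PGL(2, w.adicCompletion K') ⧸
          levelOf (w.adicCompletion K') (torus (ResidueField.map P.embInt a))))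
    (r : ℂ) :
    HasFibreMatch T
      (Set.indicator {y : PGL(2, v.adicCompletion K) ⧸ levelOf (v.adicCompletion K) (torus a) |
        γ • y = y} fun _ => r)
      (Set.indicator (twFixCosets (Geom.pglEquiv P.aut)
        (levelOf (w.adicCompletion K') (torus (ResidueField.map P.embInt a))) δ) fun _ => r) := by
  letI := P.emb.toAlgebra
  haveI : CharZero (v.adicCompletion K) :=
    charZero_of_injective_algebraMap (R := K) (algebraMap K _).injective
  have hc0 : Geom.classInv (P.pglEmb γ) ≠ 0 := by
    rw [pglEmb, Geom.classInv_pglMap]; exact (map_ne_zero _).2 h0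
  have hc4 : Geom.classInv (P.pglEmb γ) ≠ 4 := fun h => h4 (P.emb.injective (by
    rw [map_ofNat]; rw [pglEmb, Geom.classInv_pglMap] at h; exact h))
  refine (P.isTameLevel ha hq).hasFibreMatch P.pglEmb P.pglEquiv_fixed_iff
    (fun g => P.mem_level_iff g) hN (fun x y hx hy => commute_of_commute_regular hc0 hc4 hx hy)
    (fun δ' hδ' => ?_) φ hφ hT hT' r
  exact exists_twConj_of_twNorm_eq P.algAut (fun y hy => P.mem_range_emb hy) P.algAut_ne_one
    P.aut_cube h0 h4 hN hδ'

end TamePlace

end Fermat.Agent.LT.Tame

end
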