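import Fermat.Agent.LT.Tame.Level
import Mathlib.FieldTheory.Finite.Basic
import Mathlib.NumberTheory.LegendreSymbol.QuadraticChar.Basic
import Mathlib.GroupTheory.Coset.Card
import Mathlib.Algebra.CharP.Two

/-!
# The nonsplit torus of `GL₂` over a finite field

For `a` not of the form `t² - t`, the invertible matrices `!![x, a y; y, x + y]` form a torus of
exponent `q + 1` modulo scalars, transitive on nonzero vectors, with surjective determinant.
-/

set_option autoImplicit false

namespace Fermat.Agent.LT.Tame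

open Matrix IsLocalRing
open scoped MatrixGroups

section Field

variable {k : Type*} [Field k]

/-- The matrix of multiplication by `x + y J`, where `J² = J + a`. -/
def torusMat (a x y : k) : Matrix (Fin 2) (Fin 2) k := !![x, a * y; y, x + y]

theorem torusMat_mul (a x y x' y' : k) :
    torusMat a x y * torusMat a x' y' =
      torusMat a (x * x' + a * y * y') (x * y' + y * x' + y * y') := by
  ext i j
  fin_cases i <;> fin_cases j <;>
    simp [torusMat, Matrix.mul_apply, Fin.sum_univ_two] <;> ring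

theorem det_torusMat (a x y : k) : det (torusMat a x y) = x ^ 2 + x * y - a * y ^ 2 := by
  simp [torusMat, det_fin_two]; ring

/-- The torus attached to `a`. -/
def torus (a : k) : Subgroup (GL (Fin 2) k) where
  carrier := {g | ∃ x y, (g : Matrix (Fin 2) (Fin 2) k) = torusMat a x y}
  one_mem' := ⟨1, 0, by ext i j; fin_cases i <;> fin_cases j <;> simp [torusMat]⟩
  mul_mem' := by
    rintro g h ⟨x, y, hg⟩ ⟨x', y', hh⟩
    exact ⟨_, _, by rw [Units.val_mul, hg, hh, torusMat_mul]⟩
  inv_mem' := by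
    rintro g ⟨x, y, hg⟩
    set d := det (g : Matrix (Fin 2) (Fin 2) k)
    have hd : d ≠ 0 := ((Matrix.isUnit_iff_isUnit_det _).1 g.isUnit).ne_zero
    refine ⟨(x + y) / d, -y / d, ?_⟩
    rw [Matrix.coe_units_inv, Matrix.inv_def, Ring.inverse_eq_inv', adjugate_fin_two, hg]
    ext i j
    fin_cases i <;> fin_cases j <;> simp [torusMat, d, hg] <;> ring

theorem mem_torus {a : k} {g : GL (Fin 2) k} :
    g ∈ torus a ↔ ∃ x y, (g : Matrix (Fin 2) (Fin 2) k) = torusMat a x y := Iff.rfl

variable {a : k} (ha : ∀ t : k, t ^ 2 - t ≠ a)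

theorem exists_not_sq_sub_self [Finite k] : ∃ a : k, ∀ t : k, t ^ 2 - t ≠ a := by
  by_contra hcon
  push Not at hcon
  have hs : Function.Surjective fun t : k => t ^ 2 - t := hcon
  exact zero_ne_one (Finite.injective_iff_surjective.2 hs (show (0 : k) ^ 2 - 0 = 1 ^ 2 - 1 by ring))

include ha in
theorem det_torusMat_ne_zero {x y : k} (h : x ≠ 0 ∨ y ≠ 0) : det (torusMat a x y) ≠ 0 := by
  intro h0
  rw [det_torusMat] at h0
  by_cases hy : y = 0
  · subst hy
    simp at h0
    simp [h0] at h
  · exact ha (-(x / y)) (by field_simp; linear_combination h0)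

include ha in
/-- The torus is transitive on nonzero vectors. -/
theorem exists_torus_mulVec {v : Fin 2 → k} (hv : v ≠ 0) :
    ∃ g ∈ torus a, (g : Matrix (Fin 2) (Fin 2) k) *ᵥ ![1, 0] = v := by
  have h : v 0 ≠ 0 ∨ v 1 ≠ 0 := by
    by_contra hcon
    push Not at hcon
    exact hv (by ext i; fin_cases i <;> simp [hcon.1, hcon.2])
  refine ⟨GeneralLinearGroup.mkOfDetNeZero _ (det_torusMat_ne_zero ha h), ⟨v 0, v 1, rfl⟩, ?_⟩
  ext i
  fin_cases i <;>
    simp [GeneralLinearGroup.mkOfDetNeZero, torusMat, Matrix.mulVec, dotProduct, Fin.sum_univ_two]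

include ha in
/-- The torus as a set of coordinates. -/
noncomputable def torusEquiv : torus a ≃ {v : k × k // v ≠ 0} where
  toFun g := ⟨((g : GL (Fin 2) k) 0 0, (g : GL (Fin 2) k) 1 0), fun h => by
    obtain ⟨x, y, hg⟩ := g.2
    have hd := ((Matrix.isUnit_iff_isUnit_det _).1 (g : GL (Fin 2) k).isUnit).ne_zero
    rw [Prod.mk_eq_zero, hg] at h
    rw [hg, det_torusMat] at hd
    simp [torusMat] at h
    exact hd (by rw [h.1, h.2]; ring)⟩
  invFun v := ⟨GeneralLinearGroup.mkOfDetNeZero (torusMat a v.1.1 v.1.2)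
    (det_torusMat_ne_zero ha (by
      by_contra hcon
      push Not at hcon
      exact v.2 (Prod.ext hcon.1 hcon.2))), ⟨v.1.1, v.1.2, rfl⟩⟩
  left_inv g := by
    obtain ⟨x, y, hg⟩ := g.2
    apply Subtype.ext
    apply Units.ext
    simp [GeneralLinearGroup.mkOfDetNeZero, hg, torusMat]
  right_inv v := by
    simp [GeneralLinearGroup.mkOfDetNeZero, torusMat]

include ha in
theorem pow_card_succ_mem_center [Finite k] {g : GL (Fin 2) k} (hg : g ∈ torus a) :
    g ^ (Nat.card k + 1) ∈ Subgroup.center (GL (Fin 2) k) := by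
  classical
  haveI := Fintype.ofFinite k
  set q := Nat.card k with hq
  have hcard : Nat.card (torus a) = (q + 1) * (q - 1) := by
    rw [Nat.card_congr (torusEquiv ha), Nat.card_eq_fintype_card, Fintype.card_subtype_compl,
      Fintype.card_subtype_eq, Fintype.card_prod, ← Nat.card_eq_fintype_card, ← hq]
    obtain ⟨r, hr⟩ : ∃ r, q = r + 1 :=
      ⟨q - 1, by have := (Nat.card_pos (α := k)); omega⟩
    rw [hr, Nat.add_sub_cancel, show (r + 1) * (r + 1) = (r + 1 + 1) * r + 1 by ring,
      Nat.add_sub_cancel]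
  set Z := (Subgroup.center (GL (Fin 2) k)).subgroupOf (torus a)
  have hscal : ∀ u : kˣ, GeneralLinearGroup.scalar (Fin 2) u ∈ torus a := fun u =>
    ⟨u, 0, by ext i j; fin_cases i <;> fin_cases j <;> simp [torusMat, GeneralLinearGroup.scalar]⟩
  have hZ : Nat.card Z = q - 1 := by
    have e : Nat.card Z = Nat.card kˣ := by
      refine Nat.card_congr (Equiv.ofBijective
        (fun u : kˣ => (⟨⟨_, hscal u⟩, ?_⟩ : Z)) ⟨?_, ?_⟩).symm
      · rw [Subgroup.mem_subgroupOf, GeneralLinearGroup.center_eq_range_scalar]; exact ⟨u, rfl⟩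
      · intro u v h
        have := congr_fun (congr_fun (congrArg (fun z : Z =>
          (((z : torus a) : GL (Fin 2) k) : Matrix (Fin 2) (Fin 2) k)) h) 0) 0
        exact Units.ext (by simpa [GeneralLinearGroup.scalar] using this)
      · rintro ⟨⟨g, hg⟩, hz⟩
        rw [Subgroup.mem_subgroupOf, GeneralLinearGroup.center_eq_range_scalar] at hz
        obtain ⟨u, hu⟩ := hz
        exact ⟨u, Subtype.ext (Subtype.ext hu)⟩
    rw [e, Nat.card_units]
  have hindex : Z.index = q + 1 := by
    have h1 := Z.index_mul_card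
    rw [hcard, hZ] at h1
    refine Nat.eq_of_mul_eq_mul_right ?_ h1
    have : 1 < q := Finite.one_lt_card
    omega
  haveI : Z.Normal := inferInstance
  have := Z.pow_index_mem ⟨g, hg⟩
  rw [hindex, Subgroup.mem_subgroupOf] at this
  simpa using this

include ha in
theorem exists_torus_det_eq [Finite k] (c : kˣ) :
    ∃ g ∈ torus a, det (g : Matrix (Fin 2) (Fin 2) k) = c := by
  -- values of the norm form
  suffices h : ∃ x y : k, x ^ 2 + x * y - a * y ^ 2 = c by
    obtain ⟨x, y, hxy⟩ := h
    have hd : det (torusMat a x y) ≠ 0 := by rw [det_torusMat, hxy]; exact c.ne_zero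
    exact ⟨GeneralLinearGroup.mkOfDetNeZero _ hd, ⟨x, y, rfl⟩,
      by rw [← hxy, ← det_torusMat]; rfl⟩
  by_cases hsq : IsSquare (c : k)
  · obtain ⟨r, hr⟩ := hsq
    exact ⟨r, 0, by rw [hr]; ring⟩
  have hchar : ringChar k ≠ 2 := fun h2 => hsq (FiniteField.isSquare_of_char_two h2 _)
  have h2 : (2 : k) ≠ 0 := Ring.two_ne_zero hchar
  -- some value is not a square
  obtain ⟨x₀, hx₀⟩ : ∃ x : k, ¬IsSquare (x ^ 2 + x - a) := by
    by_contra hcon
    push Not at hcon
    set D := (1 / 4 : k) + a
    have h4 : (4 : k) ≠ 0 := by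
      rw [show (4 : k) = 2 * 2 by norm_num]; exact mul_ne_zero h2 h2
    have hstep : ∀ z : k, IsSquare z → IsSquare (z - D) := by
      rintro z ⟨w, rfl⟩
      have := hcon (w - 1 / 2)
      convert this using 1
      simp only [D]
      field_simp
      ring
    have hiter : ∀ j : ℕ, IsSquare (-(j : k) * D) := by
      intro j
      induction j with
      | zero => simp
      | succ j ih => convert hstep _ ih using 1; push_cast; ring
    obtain ⟨p, hp⟩ := CharP.exists k
    haveI := hp
    have hD : IsSquare D := by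
      have hp0 : p ≠ 0 := (CharP.char_is_prime k p).ne_zero
      convert hiter (p - 1) using 1
      rw [Nat.cast_sub (Nat.one_le_iff_ne_zero.2 hp0), CharP.cast_eq_zero]
      ring
    obtain ⟨w, hw⟩ := hD
    exact ha (w + 1 / 2) (by simp only [D] at hw; field_simp at hw ⊢; linear_combination -hw)
  -- so the ratio to `c` is a square
  have hne : x₀ ^ 2 + x₀ - a ≠ 0 := fun h0 => hx₀ (by rw [h0]; exact IsSquare.zero)
  obtain ⟨r, hr⟩ : IsSquare ((c : k) / (x₀ ^ 2 + x₀ - a)) := by
    haveI := Fintype.ofFinite k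
    classical
    rw [← quadraticChar_one_iff_isSquare (div_ne_zero c.ne_zero hne), div_eq_mul_inv, map_mul,
      quadraticChar_neg_one_iff_not_isSquare.2 hsq]
    have : quadraticChar k (x₀ ^ 2 + x₀ - a)⁻¹ = -1 :=
      quadraticChar_neg_one_iff_not_isSquare.2 fun hi => hx₀ (by simpa using hi.inv)
    rw [this]; norm_num
  refine ⟨x₀ * r, r, ?_⟩
  rw [div_eq_iff hne] at hr
  rw [hr]; ring

end Field

section Local

variable {A : Type*} [CommRing A] [IsLocalRing A] {a : ResidueField A}
  (ha : ∀ t : ResidueField A, t ^ 2 - t ≠ a)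

include ha in
/-- `GL₂(A)` is the preimage of the torus times the lower triangular matrices. -/
theorem exists_torus_mul_lower (g : GL (Fin 2) A) :
    ∃ h s : GL (Fin 2) A, GeneralLinearGroup.map (residue A) h ∈ torus a ∧
      (s : Matrix (Fin 2) (Fin 2) A) 0 1 = 0 ∧ g = h * s := by
  set gk := GeneralLinearGroup.map (residue A) g
  set v := (gk : Matrix (Fin 2) (Fin 2) (ResidueField A)) *ᵥ ![0, 1]
  have hinj : ∀ (m : GL (Fin 2) (ResidueField A)) (w : Fin 2 → ResidueField A),
      w ≠ 0 → (m : Matrix (Fin 2) (Fin 2) (ResidueField A)) *ᵥ w ≠ 0 := fun m w hw h =>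
    hw (Matrix.mulVec_injective_iff_isUnit.2 m.isUnit (by rw [h, Matrix.mulVec_zero]))
  have he1 : (![1, 0] : Fin 2 → ResidueField A) ≠ 0 := fun h => by simpa using congr_fun h 0
  have he2 : (![0, 1] : Fin 2 → ResidueField A) ≠ 0 := fun h => by simpa using congr_fun h 1
  obtain ⟨t, ht, htv⟩ := exists_torus_mulVec ha (hinj gk _ he2)
  obtain ⟨u, hu, huv⟩ := exists_torus_mulVec ha he2
  -- `w = t u⁻¹` sends the second basis vector to `g`'s
  set w := t * u⁻¹ with hw
  have hwmem : w ∈ torus a := mul_mem ht (inv_mem hu)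
  have hwv : (w : Matrix (Fin 2) (Fin 2) (ResidueField A)) *ᵥ ![0, 1] = v := by
    rw [← huv, Matrix.mulVec_mulVec, ← Units.val_mul, hw, inv_mul_cancel_right]
    exact htv
  obtain ⟨W, hW⟩ : ∃ W : GL (Fin 2) A, GeneralLinearGroup.map (residue A) W = w := by
    choose f hf using fun i j => residue_surjective ((w : Matrix (Fin 2) (Fin 2) (ResidueField A)) i j)
    have hd : IsUnit (det (Matrix.of f)) := (isUnit_map_iff (residue A) _).1 (by
      rw [RingHom.map_det, show (residue A).mapMatrix (Matrix.of f) = (w : Matrix (Fin 2) (Fin 2) _) by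
        ext i j; simp [hf]]
      exact (Matrix.isUnit_iff_isUnit_det _).1 w.isUnit)
    exact ⟨GeneralLinearGroup.mk'' _ hd, by ext i j; exact hf i j⟩
  set N := W⁻¹ * g with hN
  have hcol : (GeneralLinearGroup.map (residue A) N : Matrix (Fin 2) (Fin 2) (ResidueField A)) *ᵥ
      ![0, 1] = ![0, 1] := by
    rw [hN, map_mul, map_inv, hW, Units.val_mul, ← Matrix.mulVec_mulVec]
    change (↑w⁻¹ : Matrix (Fin 2) (Fin 2) (ResidueField A)) *ᵥ v = _
    rw [← hwv, Matrix.mulVec_mulVec, ← Units.val_mul, inv_mul_cancel, Units.val_one,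
      Matrix.one_mulVec]
  have h01 : residue A ((N : Matrix (Fin 2) (Fin 2) A) 0 1) = 0 := by
    simpa [Matrix.mulVec, dotProduct, Fin.sum_univ_two] using congr_fun hcol 0
  have h11 : residue A ((N : Matrix (Fin 2) (Fin 2) A) 1 1) = 1 := by
    simpa [Matrix.mulVec, dotProduct, Fin.sum_univ_two] using congr_fun hcol 1
  obtain ⟨d, hd⟩ : IsUnit ((N : Matrix (Fin 2) (Fin 2) A) 1 1) :=
    isUnit_of_residue_eq (n := 1) (by rw [h11]; simp) (by simp)
  set b := (N : Matrix (Fin 2) (Fin 2) A) 0 1 * ↑d⁻¹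
  have hUdet : IsUnit (det !![(1 : A), b; 0, 1]) := by simp [det_fin_two]
  set U : GL (Fin 2) A := GeneralLinearGroup.mk'' !![(1 : A), b; 0, 1] hUdet
  have hUval : (U : Matrix (Fin 2) (Fin 2) A) = !![1, b; 0, 1] := rfl
  have hU : GeneralLinearGroup.map (residue A) U = 1 := by
    ext i j
    fin_cases i <;> fin_cases j <;> simp [hUval, b, h01]
  refine ⟨W * U, U⁻¹ * N, by rw [map_mul, hW, hU, mul_one]; exact hwmem, ?_, by rw [hN]; group⟩
  have hUinv : ((U⁻¹ : GL (Fin 2) A) : Matrix (Fin 2) (Fin 2) A) = !![1, -b; 0, 1] := by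
    refine Units.inv_eq_of_mul_eq_one_right ?_
    ext i j
    fin_cases i <;> fin_cases j <;>
      simp [hUval, Matrix.mul_apply, Fin.sum_univ_two]
  rw [Units.val_mul, hUinv]
  simp [Matrix.mul_apply, Fin.sum_univ_two, b, ← hd, mul_assoc]

section Level

variable [IsDomain A] [IsIntegrallyClosed A] [HenselianRing A (maximalIdeal A)]
  (L : Type*) [Field L] [Algebra A L] [IsFractionRing A L]

include ha in
/-- The nonsplit torus level is a tame level when the residue cardinality is `1` mod `3`. -/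
theorem isTameLevel_torus [Finite (ResidueField A)] (hq : Nat.card (ResidueField A) % 3 = 1)
    (σ : L ≃+* L) (σA : A →+* A)
    (hcompat : ∀ x, σ (algebraMap A L x) = algebraMap A L (σA x))
    (hres : ∀ x, residue A (σA x) = residue A x) (hord : ∀ x, σ (σ (σ x)) = x)
    (h3 : IsUnit (3 : A)) : IsTameLevel (Geom.pglEquiv σ) (levelOf L (torus a)) :=
  isTameLevel_levelOf L σ σA hcompat hres hord h3 (torus a)
    ((Nat.coprime_comm.1 ((Nat.Prime.coprime_iff_not_dvd Nat.prime_three).2 (by omega))) :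
      (Nat.card (ResidueField A) + 1).Coprime 3)
    (fun _ h => pow_card_succ_mem_center ha h)

end Level

end Local

end Fermat.Agent.LT.Tame
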